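import Fermat.Agent.HM.H1.Shapiro
import Fermat.Agent.Period.Hecke

/-!
# Transfers and the boundary

Transfers and conjugations preserve parabolic homomorphisms; on `Γ_H` the Hecke operator at a
prime `ℓ ≡ 1` modulo the level satisfies the hypotheses making the boundary Eisenstein.
-/

set_option autoImplicit false

noncomputable section

open scoped MatrixGroups
open CongruenceSubgroup ModularCurve.Period Function

namespace FermatAgent.HM

variable {S : Submonoid Mat2} {Γ Γ' : Subgroup SL(2, ℤ)} {ι : Type} [Fintype ι]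
variable {A : Type*} [AddCommGroup A]

/-- A transfer of a parabolic homomorphism is parabolic. -/
theorem Corr.homOp_parabolic (D : Corr S Γ' Γ ι) {φ : Additive Γ →+ A}
    (hφ : IsParabolicHom Γ φ) : IsParabolicHom Γ' (D.homOp φ) := by
  intro γ hγ
  rw [Corr.homOp_apply]
  refine Period.sum_eq_zero_of_cycle_sums (D.perm γ) _ fun i => ?_
  rw [← D.fac_pow_sum]
  refine hφ _ ?_
  set w := minimalPeriod (D.perm γ) i
  have h := D.fac_spec (γ ^ w) i
  rw [D.perm_pow, Equiv.Perm.coe_pow, iterate_minimalPeriod] at h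
  set el : Mat2 := ((D.fac (γ ^ w) i : SL(2, ℤ)) : Mat2)
  set g := D.rep i
  have h2 := congrArg (fun X => g.adjugate * X) h
  simp only [← mul_assoc, Matrix.adjugate_mul, smul_mul_assoc, one_mul] at h2
  have htr := congrArg Matrix.trace h2
  rw [Matrix.trace_smul, Matrix.trace_mul_comm (g.adjugate * el) g, ← mul_assoc,
    Matrix.mul_adjugate, smul_mul_assoc, one_mul, Matrix.trace_smul, smul_eq_mul, smul_eq_mul]
    at htr
  rw [← mul_left_cancel₀ (D.det_ne i) htr, SubmonoidClass.coe_pow]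
  exact Period.TransferData.trace_pow_sq_eq_four _ hγ w

omit [Fintype ι] in
/-- Conjugation preserves the parabolic condition. -/
lemma trace_conj_SL (γ ε : SL(2, ℤ)) :
    ((ε⁻¹ * γ * ε : SL(2, ℤ)) : Mat2).trace = (γ : Mat2).trace := by
  rw [Matrix.SpecialLinearGroup.coe_mul, Matrix.SpecialLinearGroup.coe_mul,
    Matrix.trace_mul_comm, ← mul_assoc, ← Matrix.SpecialLinearGroup.coe_mul, mul_inv_cancel,
    Matrix.SpecialLinearGroup.coe_one, one_mul]

section GammaH

variable {O : Type*} [CommRing O] {Δ : Type*} [CommGroup Δ] {N L M : ℕ}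
variable {δ : (ZMod N)ˣ →* Δ} {hNM : N ∣ M}

/-- `Γ(M) ≤ Γ_H`. -/
lemma gammaClass_eq_one_of_mem_gamma {g : SL(2, ℤ)} (hg : g ∈ Gamma M) :
    ∃ h : g ∈ Gamma0 M, gammaClass δ hNM ⟨g, h⟩ = 1 := by
  have h1 := Gamma_mem.mp hg
  refine ⟨Gamma0_mem.mpr h1.2.2.1, ?_⟩
  refine (congrArg δ (Units.ext ?_)).trans (map_one δ)
  rw [coe_lowerRightUnit]
  have := congrArg (ZMod.castHom hNM (ZMod N)) h1.2.2.2
  rw [map_intCast, map_one] at this
  simpa using this

/-- For `ℓ ≡ 1` modulo `M` the shifted Hecke correspondence of `Γ_H` satisfies the hypotheses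
making the boundary Eisenstein. -/
theorem isUnitRootHecke_gammaH {p : HPrime L}
    [Fact p.1.1.Prime] (hpM : ((p.1.1 : ℕ) : ZMod M) = 1) (hneg : δ (-1) = 1)
    (E : Corr (sigma0 N L) (gammaH δ hNM) (gammaH δ hNM) (HIdx M p.1.1))
    (r : HIdx M p.1.1 → Gamma0 M)
    (hrep : ∀ i, E.rep i = (((r i)⁻¹ : Gamma0 M) : SL(2, ℤ)).1 * hRep M p.1.1 i)
    (hadj : ∀ i, diamondClass δ (E.adj i) = 1) :
    IsUnitRootHecke E M p.1.1 := by
  have hnd : ¬ (p.1.1 : ℕ) ∣ M := by
    intro hd
    have h1 := congrArg (ZMod.castHom hd (ZMod p.1.1)) hpM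
    rw [map_natCast, map_one, ZMod.natCast_self] at h1
    exact zero_ne_one h1
  refine ⟨fun g hg => (mem_gammaH_iff δ hNM).mpr (gammaClass_eq_one_of_mem_gamma hg), ?_,
    p.1.2, hpM, card_hIdx hnd, ?_, ?_⟩
  · refine (mem_gammaH_iff δ hNM).mpr ⟨neg_one_mem_gamma0 M, ?_⟩
    refine (congrArg δ (Units.ext ?_)).trans hneg
    simp
  · intro i j el h
    rw [hrep, hrep] at h
    have h2 := congrArg (fun X => ((r i : SL(2, ℤ)) : Mat2) * X) h
    simp only [← mul_assoc, Subgroup.coe_inv, ← Matrix.SpecialLinearGroup.coe_mul, mul_inv_cancel,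
      Matrix.SpecialLinearGroup.coe_one, one_mul] at h2
    exact (heckeCorr hNM p.2).perm_fac_of_eq
      (fun a b el' h' => Subtype.ext (repMat_unique (γ := (el' : SL(2, ℤ))) h'))
      (γ := 1) (i := i) (j := j)
      (el := r i * gammaHIncl δ hNM el * (r j)⁻¹)
      (by simpa [mul_assoc] using h2) |>.1.symm.trans (by rw [Corr.perm_one]; rfl) |>.symm
  · intro A hdet hA
    have hc : (M : ℤ) ∣ A 1 0 := by
      have := congrFun (congrFun hA 1) 0
      simpa [ZMod.intCast_zmod_eq_zero_iff_dvd] using this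
    have ha : IsCoprime (A 0 0) (M : ℤ) := by
      have := congrFun (congrFun hA 0) 0
      rw [Matrix.map_apply, Matrix.one_apply_eq] at this
      exact ((ZMod.coe_int_isUnit_iff_isCoprime _ _).mp (this ▸ isUnit_one)).symm
    obtain ⟨el, j, hj⟩ := exists_eq_coe_mul_hRep (p := p.1.1) A hdet hc ha
    have hAj : A = ((el * r j : Gamma0 M) : SL(2, ℤ)).1 * E.rep j := by
      rw [hrep, hj, Subgroup.coe_mul, Matrix.SpecialLinearGroup.coe_mul, mul_assoc,
        ← mul_assoc ((r j : SL(2, ℤ)) : Mat2), ← Matrix.SpecialLinearGroup.coe_mul,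
        Subgroup.coe_inv, mul_inv_cancel, Matrix.SpecialLinearGroup.coe_one, one_mul]
    set e := el * r j
    have hNA : (A 0 0 : ZMod N) = 1 := by
      have h3 := congrFun (congrFun hA 0) 0
      rw [Matrix.map_apply, Matrix.one_apply_eq] at h3
      simpa using (map_intCast (ZMod.castHom hNM (ZMod N)) (A 0 0)).symm.trans
        ((congrArg _ h3).trans (map_one _))
    have hadjA : A.adjugate ∈ sigma0 N L := adjugate_mem_sigma0
      ((Int.natCast_dvd_natCast.mpr hNM).trans hc)
      (ha.of_isCoprime_of_dvd_right (Int.natCast_dvd_natCast.mpr hNM))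
      (by rw [hdet]; exact Nat.isCoprime_iff_coprime.mpr p.2)
    have hcA : diamondClass δ (⟨_, hadjA⟩ : sigma0 N L) = 1 := by
      refine (congrArg δ (Units.ext ?_)).trans (map_one δ)
      simp [Matrix.adjugate_fin_two, hNA]
    have hprod : (⟨_, hadjA⟩ : sigma0 N L) = E.adj j * (actsIn_gamma0 hNM).incl e⁻¹ := by
      refine Subtype.ext ?_
      change A.adjugate = (E.rep j).adjugate * _
      rw [hAj, Matrix.adjugate_mul_distrib]
      congr 1
    rw [hprod, map_mul, hadj, one_mul, ← gammaClass_eq δ hNM, map_inv, inv_eq_one] at hcA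
    exact ⟨j, toGammaH δ hNM e hcA, hAj⟩

end GammaH

end FermatAgent.HM
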