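import Mathlib.GroupTheory.CoprodI
import Mathlib.LinearAlgebra.Matrix.FixedDetMatrices
import Mathlib.Data.ZMod.Basic

/-!
# `PSL(2, ℤ)` as a free product

Elements `s`, `u` with `s² = u³ = 1` in any group are the images of `S` and `S * T` under a
homomorphism from `SL(2, ℤ)`. The proof is ping-pong on quadratic forms.
-/

set_option autoImplicit false

noncomputable section

open scoped MatrixGroups Pointwise
open ModularGroup

namespace FermatAgent.HM

/-- The homomorphism from a cyclic group sending `1` to `x`. -/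
def zmodPowHom {P : Type*} [Group P] (n : ℕ) (x : P) (hx : x ^ n = 1) :
    Multiplicative (ZMod n) →* P :=
  AddMonoidHom.toMultiplicativeLeft
    (ZMod.lift n ⟨zmultiplesHom (Additive P) (Additive.ofMul x), by
      rw [zmultiplesHom_apply, natCast_zsmul, ← ofMul_pow, hx, ofMul_one]⟩)

lemma zmodPowHom_apply {P : Type*} [Group P] (n : ℕ) [NeZero n] (x : P) (hx : x ^ n = 1)
    (k : ZMod n) : zmodPowHom n x hx (Multiplicative.ofAdd k) = x ^ k.val := by
  conv_lhs => rw [← ZMod.natCast_zmod_val k, ← Int.cast_natCast]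
  simp [zmodPowHom, -ZMod.natCast_val, -Int.cast_natCast]

/-- The action of a matrix on forms. -/
def formAct : SL(2, ℤ) →* Equiv.Perm (Matrix (Fin 2) (Fin 2) ℤ) where
  toFun g :=
    { toFun := fun X =>
        (g : Matrix (Fin 2) (Fin 2) ℤ) * X * (g : Matrix (Fin 2) (Fin 2) ℤ).transpose
      invFun := fun X => ((g⁻¹ : SL(2, ℤ)) : Matrix (Fin 2) (Fin 2) ℤ) * X *
        ((g⁻¹ : SL(2, ℤ)) : Matrix (Fin 2) (Fin 2) ℤ).transpose
      left_inv := fun X => by
        simp only [← mul_assoc, ← Matrix.SpecialLinearGroup.coe_mul, inv_mul_cancel]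
        rw [mul_assoc, ← Matrix.transpose_mul, ← Matrix.SpecialLinearGroup.coe_mul, inv_mul_cancel]
        simp
      right_inv := fun X => by
        simp only [← mul_assoc, ← Matrix.SpecialLinearGroup.coe_mul, mul_inv_cancel]
        rw [mul_assoc, ← Matrix.transpose_mul, ← Matrix.SpecialLinearGroup.coe_mul, mul_inv_cancel]
        simp }
  map_one' := Equiv.ext fun X => by simp
  map_mul' g h := Equiv.ext fun X => by
    simp [Matrix.transpose_mul, mul_assoc]

lemma formAct_apply (g : SL(2, ℤ)) (X : Matrix (Fin 2) (Fin 2) ℤ) :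
    formAct g X = (g : Matrix (Fin 2) (Fin 2) ℤ) * X * (g : Matrix (Fin 2) (Fin 2) ℤ).transpose :=
  rfl

lemma formAct_neg_one : formAct (-1) = 1 := Equiv.ext fun X => by simp [formAct_apply]

/-- `S² = -1` in `SL(2, ℤ)`. -/
lemma S_pow_two_eq : (S : SL(2, ℤ)) ^ 2 = -1 := by
  ext i j; fin_cases i <;> fin_cases j <;> simp [S, pow_two, Matrix.mul_apply, Fin.sum_univ_two]

/-- `(S T)³ = -1` in `SL(2, ℤ)`. -/
lemma ST_pow_three_eq : ((S : SL(2, ℤ)) * T) ^ 3 = -1 := by
  ext i j; fin_cases i <;> fin_cases j <;>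
    simp [S, T, pow_succ, Matrix.mul_apply, Fin.sum_univ_two]

/-- The two cyclic factors. -/
abbrev Factor (i : Fin 2) : Type := Multiplicative (ZMod (i.val + 2))

/-- The homomorphisms of the two factors attached to `s` and `u`. -/
def factorHom {P : Type*} [Group P] {s u : P} (hs : s ^ 2 = 1) (hu : u ^ 3 = 1) (i : Fin 2) :
    Factor i →* P :=
  zmodPowHom (i.val + 2) (![s, u] i) (by fin_cases i <;> simp_all)

/-- The images of `S` and `S * T` acting on forms. -/
def formS : Equiv.Perm (Matrix (Fin 2) (Fin 2) ℤ) := formAct S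

/-- See `formS`. -/
def formU : Equiv.Perm (Matrix (Fin 2) (Fin 2) ℤ) := formAct (S * T)

lemma formS_pow_two : formS ^ 2 = 1 := by
  rw [formS, ← map_pow, S_pow_two_eq, formAct_neg_one]

lemma formU_pow_three : formU ^ 3 = 1 := by
  rw [formU, ← map_pow, ST_pow_three_eq, formAct_neg_one]

lemma formS_entries (X : Matrix (Fin 2) (Fin 2) ℤ) : formS X 0 0 = X 1 1 ∧
    formS X 0 1 = -X 1 0 ∧ formS X 1 0 = -X 0 1 ∧ formS X 1 1 = X 0 0 := by
  simp only [formS, formAct_apply, coe_S, Matrix.mul_apply, Matrix.transpose_apply,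
    Fin.sum_univ_two]
  simp

lemma formU_entries (X : Matrix (Fin 2) (Fin 2) ℤ) : formU X 0 0 = X 1 1 ∧
    formU X 0 1 = -(X 1 0 + X 1 1) ∧ formU X 1 0 = -(X 0 1 + X 1 1) ∧
    formU X 1 1 = X 0 0 + X 0 1 + X 1 0 + X 1 1 := by
  simp only [formU, formAct_apply, Matrix.SpecialLinearGroup.coe_mul, coe_S, coe_T,
    Matrix.mul_apply, Matrix.transpose_apply, Fin.sum_univ_two]
  simp
  omega

lemma formU_sq_entries (X : Matrix (Fin 2) (Fin 2) ℤ) :
    (formU ^ 2) X 0 0 = X 0 0 + X 0 1 + X 1 0 + X 1 1 ∧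
    (formU ^ 2) X 0 1 = -(X 0 0 + X 1 0) ∧ (formU ^ 2) X 1 0 = -(X 0 0 + X 0 1) ∧
    (formU ^ 2) X 1 1 = X 0 0 := by
  obtain ⟨a, b, c, d⟩ := formU_entries X
  obtain ⟨a', b', c', d'⟩ := formU_entries (formU X)
  rw [pow_two, Equiv.Perm.mul_apply]
  omega

/-- The sets of the ping-pong. -/
def pingSet (i : Fin 2) : Set (Matrix (Fin 2) (Fin 2) ℤ) :=
  {X | 0 < X 0 0 ∧ 0 < X 1 1 ∧
    if i = 0 then 0 < X 0 1 ∧ 0 < X 1 0 else X 0 1 < 0 ∧ X 1 0 < 0}

theorem lift_factorHom_injective :
    Function.Injective (Monoid.CoprodI.lift (factorHom formS_pow_two formU_pow_three)) := by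
  refine Monoid.CoprodI.lift_injective_of_ping_pong _ (Or.inr ⟨1, ?_⟩) pingSet ?_ ?_ ?_
  · rw [Cardinal.mk_fintype]
    simp [Factor]
  · intro i
    fin_cases i
    · exact ⟨!![1, 1; 1, 1], by simp [pingSet]⟩
    · exact ⟨!![1, -1; -1, 1], by simp [pingSet]⟩
  · intro i j hij
    rw [Function.onFun, Set.disjoint_left]
    intro X hi hj
    fin_cases i <;> fin_cases j <;> simp_all [pingSet] <;> omega
  · intro i j hij h hh
    rintro Y ⟨X, hX, rfl⟩
    obtain ⟨k, rfl⟩ := Multiplicative.ofAdd.surjective h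
    have hk : k ≠ 0 := fun h0 => hh (by rw [h0]; rfl)
    simp only [factorHom, zmodPowHom_apply, Equiv.Perm.smul_def]
    fin_cases i <;> fin_cases j <;> simp only [ne_eq, not_true_eq_false] at hij
    · change ZMod 2 at k
      fin_cases k
      · exact absurd rfl hk
      · obtain ⟨h0, h1, h2, h3⟩ : 0 < X 0 0 ∧ 0 < X 1 1 ∧ X 0 1 < 0 ∧ X 1 0 < 0 := by
          simpa [pingSet] using hX
        change (formS ^ 1) X ∈ pingSet 0
        obtain ⟨a, b, c, d⟩ := formS_entries X
        simp only [pow_one, pingSet, Set.mem_ofPred_eq, if_true]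
        omega
    · change ZMod 3 at k
      obtain ⟨h0, h1, h2, h3⟩ : 0 < X 0 0 ∧ 0 < X 1 1 ∧ 0 < X 0 1 ∧ 0 < X 1 0 := by
        simpa [pingSet] using hX
      fin_cases k
      · exact absurd rfl hk
      · change (formU ^ 1) X ∈ pingSet 1
        obtain ⟨a, b, c, d⟩ := formU_entries X
        simp only [pow_one, pingSet, Set.mem_ofPred_eq, Fin.one_eq_zero_iff, Nat.succ_ne_self,
          if_false]
        omega
      · change (formU ^ 2) X ∈ pingSet 1
        obtain ⟨a, b, c, d⟩ := formU_sq_entries X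
        simp only [pingSet, Set.mem_ofPred_eq, Fin.one_eq_zero_iff, Nat.succ_ne_self, if_false]
        omega

/-- Universal property: `S ↦ s`, `S * T ↦ u` whenever `s² = u³ = 1`. -/
theorem exists_hom_of_order_two_three {P : Type*} [Group P] {s u : P} (hs : s ^ 2 = 1)
    (hu : u ^ 3 = 1) : ∃ φ : SL(2, ℤ) →* P, φ S = s ∧ φ (S * T) = u := by
  set L := Monoid.CoprodI.lift (factorHom formS_pow_two formU_pow_three) with hL
  have gen0 : L (Monoid.CoprodI.of (i := 0) (Multiplicative.ofAdd (1 : ZMod 2))) = formS := by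
    rw [hL, Monoid.CoprodI.lift_of, factorHom]
    simpa [ZMod.val_one] using zmodPowHom_apply 2 formS formS_pow_two (1 : ZMod 2)
  have gen1 : L (Monoid.CoprodI.of (i := 1) (Multiplicative.ofAdd (1 : ZMod 3))) = formU := by
    rw [hL, Monoid.CoprodI.lift_of, factorHom]
    simpa [ZMod.val_one] using zmodPowHom_apply 3 formU formU_pow_three (1 : ZMod 3)
  have hmem : ∀ g : SL(2, ℤ), formAct g ∈ L.range := fun g => by
    have hg : g ∈ Subgroup.closure ({S, T} : Set SL(2, ℤ)) := by
      rw [SpecialLinearGroup.SL2Z_generators]; exact Subgroup.mem_top g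
    induction hg using Subgroup.closure_induction with
    | mem x hx =>
      rcases hx with rfl | rfl
      · exact ⟨_, gen0⟩
      · have h : formAct T = formS⁻¹ * formU := by
          rw [formS, formU, map_mul, inv_mul_cancel_left]
        rw [h]
        exact mul_mem (inv_mem ⟨_, gen0⟩) ⟨_, gen1⟩
    | one => rw [map_one]; exact one_mem _
    | mul x y _ _ hx hy => rw [map_mul]; exact mul_mem hx hy
    | inv x _ hx => rw [map_inv]; exact inv_mem hx
  let e := MonoidHom.ofInjective lift_factorHom_injective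
  let ψ := (Monoid.CoprodI.lift (factorHom hs hu)).comp e.symm.toMonoidHom
  have hψ : ∀ (c : Monoid.CoprodI Factor) (g : SL(2, ℤ)) (hc : L c = formAct g),
      ψ.comp (formAct.codRestrict L.range hmem) g = Monoid.CoprodI.lift (factorHom hs hu) c := by
    intro c g hc
    simp only [ψ, MonoidHom.comp_apply, MulEquiv.coe_toMonoidHom]
    refine congrArg _ ((MulEquiv.symm_apply_eq _).mpr (Subtype.ext ?_))
    simpa [e, hL, MonoidHom.ofInjective_apply] using hc.symm
  refine ⟨ψ.comp (formAct.codRestrict L.range hmem), ?_, ?_⟩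
  · rw [hψ _ S gen0, Monoid.CoprodI.lift_of, factorHom]
    simpa [ZMod.val_one] using zmodPowHom_apply 2 s hs (1 : ZMod 2)
  · rw [hψ _ (S * T) gen1, Monoid.CoprodI.lift_of, factorHom]
    simpa [ZMod.val_one] using zmodPowHom_apply 3 u hu (1 : ZMod 3)

end FermatAgent.HM
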