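import Fermat.Agent.HM.H1.Basic
import Fermat.Agent.HM.H1.Presentation
import Mathlib.GroupTheory.Index
import Mathlib.GroupTheory.GroupAction.Quotient

/-!
# Lifting cocycles of finite index subgroups of `SL(2, ℤ)`

A surjective map of coefficient modules on which `-1` is trivial induces a surjection on first
cohomology, if `2` is invertible and either `3` is invertible or `Γ` has no element of trace `±1`.
-/

set_option autoImplicit false

noncomputable section

open scoped MatrixGroups
open ModularGroup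

namespace FermatAgent.HM

variable {R : Type*} [CommRing R] (Γ : Subgroup SL(2, ℤ))
variable {Y : Type*} [AddCommGroup Y] [Module R Y] (ρ : Representation R Γ Y)

/-- Elements of the induced module, as equivariant functions. -/
def Induced : Submodule R (SL(2, ℤ) → Y) where
  carrier := {f | ∀ (γ : Γ) (x : SL(2, ℤ)), f ((γ : SL(2, ℤ)) * x) = ρ γ (f x)}
  add_mem' {f f'} hf hf' γ x := by simp [hf γ x, hf' γ x]
  zero_mem' γ x := by simp
  smul_mem' r f hf γ x := by simp [hf γ x]

/-- Right translation. -/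
def translate (g : SL(2, ℤ)) (f : Induced Γ ρ) : Induced Γ ρ :=
  ⟨fun x => f.1 (x * g), fun γ x => by simp only [mul_assoc]; exact f.2 γ _⟩

variable {Γ ρ}

@[simp] lemma translate_apply (g : SL(2, ℤ)) (f : Induced Γ ρ) (x : SL(2, ℤ)) :
    (translate Γ ρ g f).1 x = f.1 (x * g) := rfl

lemma translate_translate (g h : SL(2, ℤ)) (f : Induced Γ ρ) :
    translate Γ ρ g (translate Γ ρ h f) = translate Γ ρ (g * h) f :=
  Subtype.ext <| funext fun x => by simp [mul_assoc]

lemma translate_one (f : Induced Γ ρ) : translate Γ ρ 1 f = f :=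
  Subtype.ext <| funext fun x => by simp

lemma translate_add (g : SL(2, ℤ)) (f f' : Induced Γ ρ) :
    translate Γ ρ g (f + f') = translate Γ ρ g f + translate Γ ρ g f' := rfl

variable (hneg : (-1 : SL(2, ℤ)) ∈ Γ) (hρ : ∀ y, ρ ⟨-1, hneg⟩ y = y)

include hρ in
lemma translate_neg_one (f : Induced Γ ρ) : translate Γ ρ (-1) f = f :=
  Subtype.ext <| funext fun x => by
    have h := f.2 ⟨-1, hneg⟩ x
    rw [hρ] at h
    rw [translate_apply, mul_neg_one]
    simpa using h

/-- An affine transformation of the induced module. -/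
def affineEquiv (g : SL(2, ℤ)) (a : Induced Γ ρ) : Equiv.Perm (Induced Γ ρ) where
  toFun f := translate Γ ρ g f + a
  invFun f := translate Γ ρ g⁻¹ (f - a)
  left_inv f := by
    dsimp only; rw [add_sub_cancel_right, translate_translate, inv_mul_cancel, translate_one]
  right_inv f := by
    dsimp only; rw [translate_translate, mul_inv_cancel, translate_one, sub_add_cancel]

include hρ in
/-- Prescribed values at `S` and `S * T` extend to a cocycle on the induced module. -/
theorem exists_cocycle_of_values (a b : Induced Γ ρ) (ha : translate Γ ρ S a + a = 0)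
    (hb : translate Γ ρ ((S * T) ^ 2) b + translate Γ ρ (S * T) b + b = 0) :
    ∃ C : SL(2, ℤ) → Induced Γ ρ, C S = a ∧ C (S * T) = b ∧
      ∀ g h, C (g * h) = C g + translate Γ ρ g (C h) := by
  have hs : affineEquiv S a ^ 2 = 1 := Equiv.ext fun f => by
    simp only [pow_two, Equiv.Perm.mul_apply, Equiv.Perm.one_apply, affineEquiv, Equiv.coe_fn_mk,
      translate_add, translate_translate]
    rw [← pow_two, S_pow_two_eq, translate_neg_one hneg hρ, add_assoc, ha, add_zero]
  have hu : affineEquiv (S * T) b ^ 3 = 1 := Equiv.ext fun f => by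
    simp only [pow_succ, pow_zero, one_mul, Equiv.Perm.mul_apply, Equiv.Perm.one_apply,
      affineEquiv, Equiv.coe_fn_mk, translate_add, translate_translate]
    rw [← mul_assoc, ← pow_two, ← pow_succ, ST_pow_three_eq, translate_neg_one hneg hρ,
      add_assoc, add_assoc, ← add_assoc (translate Γ ρ ((S * T) ^ 2) b), hb, add_zero]
  obtain ⟨φ, hφS, hφU⟩ := exists_hom_of_order_two_three hs hu
  have key : ∀ g : SL(2, ℤ), ∀ f, φ g f = translate Γ ρ g f + φ g 0 := by
    intro g
    have hg : g ∈ Subgroup.closure ({S, S * T} : Set SL(2, ℤ)) := by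
      have hsub : Subgroup.closure ({S, T} : Set SL(2, ℤ)) ≤ Subgroup.closure {S, S * T} := by
        rw [Subgroup.closure_le]
        rintro x (rfl | rfl)
        · exact Subgroup.subset_closure (Set.mem_insert _ _)
        · have h' : S⁻¹ * (S * T) ∈ Subgroup.closure ({S, S * T} : Set SL(2, ℤ)) :=
            mul_mem (inv_mem (Subgroup.subset_closure (Set.mem_insert _ _)))
              (Subgroup.subset_closure (Set.mem_insert_of_mem _ rfl))
          rwa [inv_mul_cancel_left] at h'
      exact hsub (by rw [SpecialLinearGroup.SL2Z_generators]; exact Subgroup.mem_top g)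
    induction hg using Subgroup.closure_induction with
    | mem x hx =>
      intro f
      rcases hx with rfl | rfl
      · simp only [hφS, affineEquiv, Equiv.coe_fn_mk]
        rw [show translate Γ ρ S (0 : Induced Γ ρ) = 0 from rfl, zero_add]
      · simp only [hφU, affineEquiv, Equiv.coe_fn_mk]
        rw [show translate Γ ρ (S * T) (0 : Induced Γ ρ) = 0 from rfl, zero_add]
    | one => intro f; simp [translate_one]
    | mul x y _ _ hx hy =>
      intro f
      simp only [map_mul, Equiv.Perm.mul_apply]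
      rw [hy f, hx, hx (φ y 0), translate_add, translate_translate, add_assoc]
    | inv x _ hx =>
      intro f
      apply (φ x).injective
      rw [← Equiv.Perm.mul_apply, ← map_mul, mul_inv_cancel, map_one, Equiv.Perm.one_apply, hx,
        translate_add, translate_translate, mul_inv_cancel, translate_one, add_assoc, ← hx,
        ← Equiv.Perm.mul_apply, ← map_mul, mul_inv_cancel, map_one, Equiv.Perm.one_apply,
        add_zero]
  refine ⟨fun g => φ g 0, ?_, ?_, fun g h => ?_⟩
  · simp only [hφS, affineEquiv, Equiv.coe_fn_mk]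
    rw [show translate Γ ρ S (0 : Induced Γ ρ) = 0 from rfl, zero_add]
  · simp only [hφU, affineEquiv, Equiv.coe_fn_mk]
    rw [show translate Γ ρ (S * T) (0 : Induced Γ ρ) = 0 from rfl, zero_add]
  · simp only [map_mul, Equiv.Perm.mul_apply]
    rw [key g (φ h 0), add_comm]

variable (Γ) in
/-- Auxiliary projection of `SL(2, ℤ)` to `Γ`. -/
def cosetProj₀ (x : SL(2, ℤ)) : Γ :=
  ⟨x * (QuotientGroup.mk x⁻¹ : SL(2, ℤ) ⧸ Γ).out, by
    have h := QuotientGroup.mk_out_eq_mul Γ x⁻¹
    obtain ⟨k, hk⟩ := h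
    rw [hk, mul_inv_cancel_left]
    exact k.2⟩

variable (Γ) in
/-- A left equivariant projection of `SL(2, ℤ)` to `Γ` fixing `1`. -/
def cosetProj (x : SL(2, ℤ)) : Γ := cosetProj₀ Γ x * (cosetProj₀ Γ 1)⁻¹

lemma cosetProj₀_mul (γ : Γ) (x : SL(2, ℤ)) :
    cosetProj₀ Γ ((γ : SL(2, ℤ)) * x) = γ * cosetProj₀ Γ x := by
  apply Subtype.ext
  simp only [cosetProj₀, mul_inv_rev, Subgroup.coe_mul]
  rw [QuotientGroup.mk_mul_of_mem x⁻¹ (inv_mem γ.2), mul_assoc]

lemma cosetProj_mul (γ : Γ) (x : SL(2, ℤ)) :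
    cosetProj Γ ((γ : SL(2, ℤ)) * x) = γ * cosetProj Γ x := by
  rw [cosetProj, cosetProj₀_mul, mul_assoc]; rfl

@[simp] lemma cosetProj_one : cosetProj Γ 1 = 1 := mul_inv_cancel _

lemma cosetProj_coe (γ : Γ) : cosetProj Γ (γ : SL(2, ℤ)) = γ := by
  simpa using cosetProj_mul γ 1

lemma exists_lift_induced {W : Type*} [AddCommGroup W] [Module R W] {τ : Representation R Γ W}
    {g : Y →ₗ[R] W} (hg : IsEquiv ρ τ g) (hgs : Function.Surjective g) (a : Induced Γ τ) :
    ∃ a' : Induced Γ ρ, ∀ x, g (a'.1 x) = a.1 x := by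
  choose s hs using hgs
  refine ⟨⟨fun x => ρ (cosetProj Γ x) (s (a.1 (((cosetProj Γ x)⁻¹ : Γ) * x))), fun γ x => ?_⟩,
    fun x => ?_⟩
  · simp only [cosetProj_mul, map_mul, Module.End.mul_apply, mul_inv_rev, Subgroup.coe_mul]
    congr 4
    simp [mul_assoc]
  · dsimp only
    rw [hg (cosetProj Γ x), hs, ← a.2]
    simp

/-- A partition of unity along the right orbits of `S * T`. -/
theorem exists_orbit_partition [Γ.FiniteIndex] (hneg : (-1 : SL(2, ℤ)) ∈ Γ)
    (h3 : IsUnit (3 : R) ∨ ∀ γ ∈ Γ, ((γ : SL(2, ℤ)) : Matrix (Fin 2) (Fin 2) ℤ).trace ≠ 1) :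
    ∃ e : SL(2, ℤ) → R, (∀ (γ : Γ) (x : SL(2, ℤ)), e ((γ : SL(2, ℤ)) * x) = e x) ∧
      ∀ x, e (x * (S * T) ^ 2) + e (x * (S * T)) + e x = 1 := by
  classical
  rcases h3 with h3 | h3
  · obtain ⟨u, hu⟩ := h3
    refine ⟨fun _ => (u⁻¹ : Rˣ), fun _ _ => rfl, fun _ => ?_⟩
    calc (↑u⁻¹ : R) + ↑u⁻¹ + ↑u⁻¹ = (↑u⁻¹ : R) * 3 := by ring
      _ = 1 := by rw [← hu, Units.inv_mul]
  set V : SL(2, ℤ) := (S * T)⁻¹ with hV
  have hV3 : V ^ 3 = -1 := by
    rw [hV, inv_pow, ST_pow_three_eq]
    simp
  have hfix : ∀ q : SL(2, ℤ) ⧸ Γ, (-1 : SL(2, ℤ)) • q = q := fun q => by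
    induction q using QuotientGroup.induction_on with
    | H y =>
      rw [MulAction.Quotient.smul_mk, QuotientGroup.eq]
      simpa using hneg
  have hfree : ∀ q : SL(2, ℤ) ⧸ Γ, V • q ≠ q := fun q => by
    induction q using QuotientGroup.induction_on with
    | H y =>
      rw [MulAction.Quotient.smul_mk, ne_eq, QuotientGroup.eq, smul_eq_mul, hV, mul_inv_rev,
        inv_inv]
      intro hmem
      refine h3 _ hmem ?_
      rw [Matrix.SpecialLinearGroup.coe_mul, Matrix.trace_mul_comm,
        ← Matrix.SpecialLinearGroup.coe_mul, ← mul_assoc, mul_inv_cancel, one_mul]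
      simp [S, T, Matrix.trace_fin_two]
  let r : Setoid (SL(2, ℤ) ⧸ Γ) := MulAction.orbitRel (Subgroup.zpowers V) (SL(2, ℤ) ⧸ Γ)
  let ind : SL(2, ℤ) ⧸ Γ → R := fun q => if (Quotient.mk r q).out = q then 1 else 0
  refine ⟨fun x => ind (QuotientGroup.mk x⁻¹), fun γ x => ?_, fun x => ?_⟩
  · simp only [mul_inv_rev, QuotientGroup.mk_mul_of_mem x⁻¹ (inv_mem γ.2)]
  simp only [mul_inv_rev, ← inv_pow, ← hV]
  set q : SL(2, ℤ) ⧸ Γ := QuotientGroup.mk x⁻¹
  rw [show (QuotientGroup.mk (V ^ 2 * x⁻¹) : SL(2, ℤ) ⧸ Γ) = V ^ 2 • q from rfl,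
    show (QuotientGroup.mk (V * x⁻¹) : SL(2, ℤ) ⧸ Γ) = V • q from rfl]
  have hcls : ∀ i : ℕ, Quotient.mk r (V ^ i • q) = Quotient.mk r q := fun i =>
    Quotient.sound ⟨⟨V ^ i, pow_mem (Subgroup.mem_zpowers V) i⟩, rfl⟩
  set o := (Quotient.mk r q).out
  have ho : o = q ∨ o = V • q ∨ o = V ^ 2 • q := by
    obtain ⟨⟨v, n, rfl⟩, hn⟩ : o ∈ MulAction.orbit (Subgroup.zpowers V) q :=
      Quotient.mk_out (s := r) q
    have hn' : V ^ n • q = o := hn
    obtain ⟨m, i, hi, rfl⟩ : ∃ (m : ℤ) (i : ℕ), i < 3 ∧ n = 3 * m + i :=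
      ⟨n / 3, (n % 3).toNat, by omega, by omega⟩
    rw [zpow_add, zpow_mul, zpow_natCast, show V ^ (3 : ℤ) = -1 from by
      exact_mod_cast hV3, mul_smul] at hn'
    have hm : ∀ p : SL(2, ℤ) ⧸ Γ, ((-1 : SL(2, ℤ)) ^ m) • p = p := fun p => by
      rcases Int.even_or_odd m with ⟨k, rfl⟩ | ⟨k, rfl⟩
      · rw [← two_mul, zpow_mul]; simp
      · rw [zpow_add, zpow_mul]; simp [hfix]
    rw [hm] at hn'
    rcases (by omega : i = 0 ∨ i = 1 ∨ i = 2) with rfl | rfl | rfl
    · exact Or.inl (by simpa using hn'.symm)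
    · exact Or.inr (Or.inl (by simpa using hn'.symm))
    · exact Or.inr (Or.inr hn'.symm)
  have h01 : V • q ≠ q := hfree q
  have h12 : V ^ 2 • q ≠ V • q := by rw [pow_two, mul_smul]; exact hfree _
  have h02 : V ^ 2 • q ≠ q := fun h => by
    have h' := congrArg (V • ·) h
    simp only [← mul_smul, ← pow_succ', hV3, hfix] at h'
    exact h01 h'.symm
  have e0 : ind q = if o = q then 1 else 0 := rfl
  have e1 : ind (V • q) = if o = V • q then 1 else 0 := by
    have := hcls 1
    rw [pow_one] at this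
    simp only [ind, this, o]
  have e2 : ind (V ^ 2 • q) = if o = V ^ 2 • q then 1 else 0 := by
    simp only [ind, hcls 2, o]
  rw [e0, e1, e2]
  rcases ho with h | h | h <;> simp [h, h01, h02, h12, h01.symm, h02.symm, h12.symm]

variable [Γ.FiniteIndex] {W : Type*} [AddCommGroup W] [Module R W] {τ : Representation R Γ W}

include hρ in
/-- Cocycles lift along surjections of coefficients. -/
theorem exists_mapZ_eq (hτ : ∀ w, τ ⟨-1, hneg⟩ w = w) (h2 : IsUnit (2 : R))
    (h3 : IsUnit (3 : R) ∨ ∀ γ ∈ Γ, ((γ : SL(2, ℤ)) : Matrix (Fin 2) (Fin 2) ℤ).trace ≠ 1)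
    {g : Y →ₗ[R] W} (hg : IsEquiv ρ τ g) (hgs : Function.Surjective g) (c : Z1 τ) :
    ∃ c' : Z1 ρ, mapZ g hg c' = c := by
  obtain ⟨u, hu⟩ := h2
  obtain ⟨e, he, hesum⟩ := exists_orbit_partition hneg h3
  have hc1 : c.1 ⟨-1, hneg⟩ = 0 := by
    have h := Z1.map_mul c ⟨-1, hneg⟩ ⟨-1, hneg⟩
    rw [hτ, show (⟨-1, hneg⟩ : Γ) * ⟨-1, hneg⟩ = 1 from Subtype.ext (by simp),
      Z1.map_one, ← two_smul R, ← hu] at h
    simpa [Units.smul_def, smul_smul] using congrArg ((u⁻¹ : Rˣ) • ·) h.symm
  -- the induced cocycle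
  let C : SL(2, ℤ) → Induced Γ τ := fun s =>
    ⟨fun x => c.1 (cosetProj Γ (x * s)) - c.1 (cosetProj Γ x), fun γ x => by
      simp only [mul_assoc, cosetProj_mul, Z1.map_mul, map_sub]
      abel⟩
  have hC : ∀ s t, C (s * t) = C s + translate Γ τ s (C t) := fun s t =>
    Subtype.ext <| funext fun x => by simp [C, mul_assoc]
  have hCneg : C (-1) = 0 := Subtype.ext <| funext fun x => by
    have h1 : cosetProj Γ (x * -1) = ⟨-1, hneg⟩ * cosetProj Γ x := by
      rw [← cosetProj_mul]
      simp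
    simp only [C, h1, Z1.map_mul, hc1, hτ, zero_add, sub_self, ZeroMemClass.coe_zero, Pi.zero_apply]
  have hCS : translate Γ τ S (C S) + C S = 0 := by
    rw [add_comm, ← hC, ← pow_two, S_pow_two_eq, hCneg]
  have hCU : translate Γ τ ((S * T) ^ 2) (C (S * T)) + translate Γ τ (S * T) (C (S * T))
      + C (S * T) = 0 := by
    have h := hC (S * T) ((S * T) * (S * T))
    rw [hC (S * T) (S * T), translate_add, translate_translate, ← pow_two,
      show S * T * (S * T) ^ 2 = (S * T) ^ 3 from (pow_succ' _ 2).symm, ST_pow_three_eq,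
      hCneg] at h
    exact (by abel : _ = C (S * T) + (translate Γ τ (S * T) (C (S * T)) +
      translate Γ τ ((S * T) ^ 2) (C (S * T)))).trans h.symm
  obtain ⟨a₀, ha₀⟩ := exists_lift_induced hg hgs (C S)
  obtain ⟨b₀, hb₀⟩ := exists_lift_induced hg hgs (C (S * T))
  let a : Induced Γ ρ := ((u⁻¹ : Rˣ) : R) • (a₀ - translate Γ ρ S a₀)
  let tot : Induced Γ ρ :=
    translate Γ ρ ((S * T) ^ 2) b₀ + translate Γ ρ (S * T) b₀ + b₀
  let b : Induced Γ ρ := b₀ - ⟨fun x => e x • tot.1 x, fun γ x => by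
    simp only [he, tot.2 γ x, map_smul]⟩
  have ha : translate Γ ρ S a + a = 0 := Subtype.ext <| funext fun x => by
    have h := congrFun (congrArg Subtype.val (translate_neg_one hneg hρ a₀)) x
    simp only [translate_apply] at h
    simp only [a, Submodule.coe_add, Pi.add_apply, translate_apply, Submodule.coe_smul,
      Submodule.coe_sub, Pi.smul_apply, Pi.sub_apply, mul_assoc, ← pow_two, S_pow_two_eq, h,
      ZeroMemClass.coe_zero, Pi.zero_apply, ← smul_add, sub_add_sub_cancel, sub_self, smul_zero]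
  have hb : translate Γ ρ ((S * T) ^ 2) b + translate Γ ρ (S * T) b + b = 0 := by
    refine Subtype.ext <| funext fun x => ?_
    have htot : ∀ y, tot.1 (y * (S * T)) = tot.1 y := fun y => by
      have h := congrFun (congrArg Subtype.val (translate_neg_one hneg hρ b₀)) y
      simp only [translate_apply, ← ST_pow_three_eq] at h
      simp only [tot, Submodule.coe_add, Pi.add_apply, translate_apply, mul_assoc, ← pow_two,
        ← pow_succ', h]
      abel
    have htot2 : tot.1 (x * (S * T) ^ 2) = tot.1 x := by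
      rw [pow_two, ← mul_assoc, htot, htot]
    have hx : tot.1 x = b₀.1 (x * (S * T) ^ 2) + b₀.1 (x * (S * T)) + b₀.1 x := rfl
    simp only [b, Submodule.coe_add, Pi.add_apply, translate_apply, Submodule.coe_sub,
      Pi.sub_apply, htot, htot2, ZeroMemClass.coe_zero, Pi.zero_apply]
    calc _ = tot.1 x - (e (x * (S * T) ^ 2) + e (x * (S * T)) + e x) • tot.1 x := by
          rw [add_smul, add_smul, hx]; abel
      _ = 0 := by rw [hesum, one_smul, sub_self]
  obtain ⟨C', hC'S, hC'U, hC'⟩ := exists_cocycle_of_values hneg hρ a b ha hb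
  have hgC : ∀ s x, g ((C' s).1 x) = (C s).1 x := by
    have hgS : ∀ x, g ((C' S).1 x) = (C S).1 x := fun x => by
      have h := congrFun (congrArg Subtype.val hCS) x
      simp only [Submodule.coe_add, Pi.add_apply, translate_apply, ZeroMemClass.coe_zero,
        Pi.zero_apply] at h
      rw [hC'S]
      simp only [a, Submodule.coe_smul, Submodule.coe_sub, Pi.smul_apply, Pi.sub_apply,
        translate_apply, map_smul, map_sub, ha₀, eq_neg_of_add_eq_zero_left h, sub_neg_eq_add,
        ← two_smul R ((C S).1 x), ← mul_smul, ← hu, Units.inv_mul, one_smul]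
    have hgU : ∀ x, g ((C' (S * T)).1 x) = (C (S * T)).1 x := fun x => by
      have h := congrFun (congrArg Subtype.val hCU) x
      simp only [Submodule.coe_add, Pi.add_apply, translate_apply, ZeroMemClass.coe_zero,
        Pi.zero_apply] at h
      rw [hC'U]
      simp only [b, tot, Submodule.coe_sub, Pi.sub_apply, Submodule.coe_add, Pi.add_apply,
        translate_apply, map_sub, map_smul, map_add, hb₀, h, smul_zero, sub_zero]
    have hgT : ∀ x, g ((C' T).1 x) = (C T).1 x := fun x => by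
      have h1 := hgU (x * S⁻¹)
      rw [hC', hC] at h1
      simp only [Submodule.coe_add, Pi.add_apply, translate_apply, map_add, hgS,
        inv_mul_cancel_right] at h1
      exact add_left_cancel h1
    intro s
    have hs : s ∈ Subgroup.closure ({S, T} : Set SL(2, ℤ)) := by
      rw [SpecialLinearGroup.SL2Z_generators]; exact Subgroup.mem_top s
    have one' : C' 1 = 0 := by
      have h := hC' 1 1
      rw [one_mul, translate_one] at h
      exact left_eq_add.mp h
    have one'' : C 1 = 0 := by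
      have h := hC 1 1
      rw [one_mul, translate_one] at h
      exact left_eq_add.mp h
    induction hs using Subgroup.closure_induction with
    | mem z hz =>
      rcases hz with rfl | rfl
      · exact hgS
      · exact hgT
    | one => intro x; simp [one', one'']
    | mul z w _ _ hz hw =>
      intro x
      simp [hC', hC, hz, hw]
    | inv z _ hz =>
      intro x
      have h1 := hC' z⁻¹ z
      have h2 := hC z⁻¹ z
      rw [inv_mul_cancel, one'] at h1
      rw [inv_mul_cancel, one''] at h2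
      rw [eq_neg_of_add_eq_zero_left h1.symm, eq_neg_of_add_eq_zero_left h2.symm]
      simp [hz]
  refine ⟨⟨fun γ => (C' γ).1 1, fun γ δ => ?_⟩, Subtype.ext <| funext fun γ => ?_⟩
  · simp only [Subgroup.coe_mul, hC', Submodule.coe_add, Pi.add_apply, translate_apply, one_mul]
    congr 1
    simpa using (C' (δ : SL(2, ℤ))).2 γ 1
  · simp [hgC, C, cosetProj_coe, Z1.map_one]

include hρ in
/-- Surjectivity on first cohomology. -/
theorem H1.map_surjective_of_surjective (hτ : ∀ w, τ ⟨-1, hneg⟩ w = w) (h2 : IsUnit (2 : R))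
    (h3 : IsUnit (3 : R) ∨ ∀ γ ∈ Γ, ((γ : SL(2, ℤ)) : Matrix (Fin 2) (Fin 2) ℤ).trace ≠ 1)
    {g : Y →ₗ[R] W} (hg : IsEquiv ρ τ g) (hgs : Function.Surjective g) :
    Function.Surjective (H1.map g hg) := fun z => by
  induction z using H1.induction with
  | _ c =>
    obtain ⟨c', rfl⟩ := exists_mapZ_eq hneg hρ hτ h2 h3 hg hgs c
    exact ⟨H1.mk ρ c', H1.map_mk g hg c'⟩

end FermatAgent.HM
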