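import Fermat.Agent.HM.H1.Corr
import Fermat.Agent.ES.Forms.Multiplier
import Fermat.Prelude.Def_ModularCurve_PeriodMap
import Mathlib.NumberTheory.ModularForms.CongruenceSubgroups

/-!
# The boundary is Eisenstein

For a prime `ℓ ≡ 1` modulo the level, `T_ℓ - (ℓ + 1)` maps every homomorphism on `Γ` to a
parabolic one.
-/

set_option autoImplicit false

noncomputable section

open scoped MatrixGroups
open CongruenceSubgroup ModularCurve.Period

namespace FermatAgent.HM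

variable {S : Submonoid Mat2} {Γ Γ' : Subgroup SL(2, ℤ)} {ι : Type}
variable {A : Type*} [AddCommGroup A]

namespace Corr

/-- The transfer of homomorphisms. -/
def homOp [Fintype ι] (D : Corr S Γ' Γ ι) : (Additive Γ →+ A) →+ (Additive Γ' →+ A) where
  toFun φ :=
    { toFun := fun γ => ∑ i, φ (Additive.ofMul (D.fac (Additive.toMul γ) i))
      map_zero' := by simp [fac_one]
      map_add' := fun γ δ => by
        simp only [toMul_add, fac_mul, ofMul_mul, map_add, Finset.sum_add_distrib]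
        congr 1
        exact Equiv.sum_comp (D.perm (Additive.toMul γ))
          (fun i => φ (Additive.ofMul (D.fac (Additive.toMul δ) i))) }
  map_zero' := by ext; simp
  map_add' φ ψ := by ext; simp [Finset.sum_add_distrib]

/-- The transfer of a homomorphism is the sum of its values at the factors. -/
lemma homOp_apply [Fintype ι] (D : Corr S Γ' Γ ι) (φ : Additive Γ →+ A) (γ : Γ') :
    D.homOp φ (Additive.ofMul γ) = ∑ i, φ (Additive.ofMul (D.fac γ i)) := rfl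

/-- Transfers commute with scalars. -/
theorem homOp_smul [Fintype ι] {R : Type*} [Monoid R] [DistribMulAction R A]
    (D : Corr S Γ' Γ ι) (c : R) (φ : Additive Γ →+ A) : D.homOp (c • φ) = c • D.homOp φ := by
  refine AddMonoidHom.ext fun γ => ?_
  obtain ⟨γ, rfl⟩ := Additive.ofMul.surjective γ
  rw [AddMonoidHom.smul_apply, homOp_apply, homOp_apply, Finset.smul_sum]
  rfl

variable {Γ'' : Subgroup SL(2, ℤ)} {κ : Type} [Fintype ι] [Fintype κ]

/-- The transfer of a composite correspondence is the composite of the transfers. -/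
theorem homOp_comp (D : Corr S Γ' Γ ι) (E : Corr S Γ'' Γ' κ) (φ : Additive Γ →+ A) :
    (D.comp E).homOp φ = E.homOp (D.homOp φ) := by
  refine AddMonoidHom.ext fun γ => ?_
  obtain ⟨γ, rfl⟩ := Additive.ofMul.surjective γ
  rw [homOp_apply, homOp_apply, Fintype.sum_prod_type]
  refine Finset.sum_congr rfl fun k _ => ?_
  rw [homOp_apply]
  exact Finset.sum_congr rfl fun i _ => by rw [D.comp_fac]

/-- Related correspondences have the same transfer of homomorphisms. -/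
theorem Related.homOp_eq {D : Corr S Γ' Γ ι} {D' : Corr S Γ' Γ κ} (e : D.Related D')
    (φ : Additive Γ →+ A) : D'.homOp φ = D.homOp φ := by
  refine AddMonoidHom.ext fun γ => ?_
  obtain ⟨γ, rfl⟩ := Additive.ofMul.surjective γ
  rw [homOp_apply, homOp_apply, ← Equiv.sum_comp e.idx fun i => φ (Additive.ofMul (D.fac γ i))]
  simp only [e.fac_eq γ, ofMul_mul, ofMul_inv, map_add, map_neg, Finset.sum_add_distrib,
    Finset.sum_neg_distrib]
  rw [Equiv.sum_comp (D'.perm γ) fun k => φ (Additive.ofMul (e.shift k))]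
  abel

omit [Fintype ι] [Fintype κ]

variable (D : Corr S Γ' Γ ι)

/-- The permutation of a power is the power of the permutation. -/
lemma perm_pow (γ : Γ') (n : ℕ) : D.perm (γ ^ n) = D.perm γ ^ n := by
  induction n with
  | zero => rw [pow_zero, pow_zero, perm_one]
  | succ n ih => rw [pow_succ, D.perm_mul, ih, pow_succ']

/-- The value at a factor of a power is the sum along the orbit. -/
lemma fac_pow_sum (φ : Additive Γ →+ A) (γ : Γ') (n : ℕ) (i : ι) :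
    φ (Additive.ofMul (D.fac (γ ^ n) i)) =
      ∑ j ∈ Finset.range n, φ (Additive.ofMul (D.fac γ ((D.perm γ)^[j] i))) := by
  induction n with
  | zero => simp [fac_one]
  | succ n ih =>
    rw [pow_succ, fac_mul, ofMul_mul, map_add, ih, Finset.sum_range_succ, perm_pow,
      Equiv.Perm.coe_pow]

/-- For an irredundant correspondence the permutation and the factor are determined by any
identity of that shape. -/
lemma perm_fac_of_eq (hD : D.IsIrredundant) {γ : Γ'} {i j : ι} {el : Γ}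
    (h : D.rep i * ((γ : SL(2, ℤ)) : Mat2) = ((el : SL(2, ℤ)) : Mat2) * D.rep j) :
    D.perm γ i = j ∧ D.fac γ i = el := by
  have hj : D.perm γ i = j := by
    refine hD _ _ ((D.fac γ i)⁻¹ * el) ?_
    have h2 := congrArg (fun M : Mat2 => (((D.fac γ i)⁻¹ : Γ) : SL(2, ℤ)).1 * M)
      ((D.fac_spec γ i).symm.trans h)
    simp only [← mul_assoc, Subgroup.coe_inv, ← Matrix.SpecialLinearGroup.coe_mul,
      inv_mul_cancel, Matrix.SpecialLinearGroup.coe_one, one_mul] at h2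
    simpa [← mul_assoc] using h2
  exact ⟨hj, D.fac_unique (hj ▸ h)⟩

end Corr

variable [Fintype ι] (D : Corr S Γ Γ ι) {M ℓ : ℕ}

/-- The hypotheses on a Hecke correspondence at a prime `ℓ ≡ 1 mod M`. -/
structure IsUnitRootHecke (D : Corr S Γ Γ ι) (M ℓ : ℕ) : Prop where
  gamma_le : Gamma M ≤ Γ
  neg_mem : (-1 : SL(2, ℤ)) ∈ Γ
  prime : ℓ.Prime
  cast_eq_one : (ℓ : ZMod M) = 1
  card_eq : Fintype.card ι = ℓ + 1
  irredundant : D.IsIrredundant
  complete : ∀ A : Mat2, A.det = ℓ → A.map (Int.cast : ℤ → ZMod M) = 1 →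
    ∃ (i : ι) (el : Γ), A = ((el : SL(2, ℤ)) : Mat2) * D.rep i

variable {D}

lemma IsUnitRootHecke.conj_diag (h : IsUnitRootHecke D M ℓ) (δ : SL(2, ℤ)) (a d : ℤ)
    (hdet : a * d = ℓ) (ha : (a : ZMod M) = 1) (hd : (d : ZMod M) = 1) :
    ∃ (i : ι) (el : Γ), (δ : Mat2) * !![a, 0; 0, d] * ((δ⁻¹ : SL(2, ℤ)) : Mat2) =
      ((el : SL(2, ℤ)) : Mat2) * D.rep i := by
  refine h.complete _
    (by simp [Matrix.det_mul, Matrix.det_adjugate, Matrix.det_fin_two_of, hdet]) ?_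
  have hone : (!![a, 0; 0, d] : Mat2).map (Int.cast : ℤ → ZMod M) = 1 := by
    ext i j; fin_cases i <;> fin_cases j <;> simp [ha, hd]
  have hmap : ∀ X Y : Mat2, (X * Y).map (Int.cast : ℤ → ZMod M) =
      X.map (Int.cast : ℤ → ZMod M) * Y.map (Int.cast : ℤ → ZMod M) := fun X Y => by
    exact Matrix.map_mul (f := Int.castRingHom (ZMod M))
  rw [hmap, hmap, hone, mul_one, ← hmap, ← Matrix.SpecialLinearGroup.coe_mul, mul_inv_cancel]
  ext i j; fin_cases i <;> fin_cases j <;> simp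

/-- The main computation, at a conjugate of `T ^ k` with `ℓ ∤ k`. -/
theorem IsUnitRootHecke.homOp_conj_T (h : IsUnitRootHecke D M ℓ) (φ : Additive Γ →+ A)
    (δ : SL(2, ℤ)) (k : ℤ) (hk : ¬ (ℓ : ℤ) ∣ k) (γ : Γ)
    (hγ : (γ : SL(2, ℤ)) = δ * ModularGroup.T ^ k * δ⁻¹) :
    D.homOp φ (Additive.ofMul γ) = (ℓ + 1) • φ (Additive.ofMul γ) := by
  classical
  have hℓ1 : ((ℓ : ℤ) : ZMod M) = 1 := by exact_mod_cast h.cast_eq_one
  obtain ⟨i₁, e₁, h1⟩ := h.conj_diag δ 1 ℓ (one_mul _) (by simp) hℓ1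
  obtain ⟨i₂, e₂, h2⟩ := h.conj_diag δ ℓ 1 (mul_one _) hℓ1 (by simp)
  have hγn : ∀ n : ℕ, (((γ ^ n : Γ) : SL(2, ℤ)) : Mat2) =
      (δ : Mat2) * !![1, (n : ℤ) * k; 0, 1] * ((δ⁻¹ : SL(2, ℤ)) : Mat2) := fun n => by
    rw [SubmonoidClass.coe_pow, hγ, conj_pow, ← zpow_natCast, ← zpow_mul, mul_comm k]
    simp [ModularGroup.coe_T_zpow]
  have hγ1 := hγn 1
  rw [pow_one, Nat.cast_one, one_mul] at hγ1
  have hdd : ((δ⁻¹ : SL(2, ℤ)) : Mat2) * (δ : Mat2) = 1 := by
    rw [← Matrix.SpecialLinearGroup.coe_mul, inv_mul_cancel]; rfl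
  have hconj : ∀ X Y : Mat2, (δ : Mat2) * X * ((δ⁻¹ : SL(2, ℤ)) : Mat2) *
      ((δ : Mat2) * Y * ((δ⁻¹ : SL(2, ℤ)) : Mat2)) =
        (δ : Mat2) * (X * Y) * ((δ⁻¹ : SL(2, ℤ)) : Mat2) := fun X Y => by
    simp only [mul_assoc]
    rw [← mul_assoc ((δ⁻¹ : SL(2, ℤ)) : Mat2) (δ : Mat2), hdd, one_mul]
  have hcancel : ∀ (e : Γ) (X : Mat2),
      (((e⁻¹ : Γ) : SL(2, ℤ)) : Mat2) * (((e : SL(2, ℤ)) : Mat2) * X) = X := fun e X => by
    rw [← mul_assoc, ← Matrix.SpecialLinearGroup.coe_mul, ← Subgroup.coe_mul, inv_mul_cancel]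
    simp
  -- the fixed point
  have hfix : D.rep i₂ * ((γ : SL(2, ℤ)) : Mat2) =
      (((e₂⁻¹ * γ ^ ℓ * e₂ : Γ) : SL(2, ℤ)) : Mat2) * D.rep i₂ := by
    calc D.rep i₂ * ((γ : SL(2, ℤ)) : Mat2)
        = (((e₂⁻¹ : Γ) : SL(2, ℤ)) : Mat2) *
            ((δ : Mat2) * !![(ℓ : ℤ), 0; 0, 1] * ((δ⁻¹ : SL(2, ℤ)) : Mat2) *
              ((γ : SL(2, ℤ)) : Mat2)) := by rw [h2, mul_assoc, hcancel]
      _ = (((e₂⁻¹ : Γ) : SL(2, ℤ)) : Mat2) *
            ((((γ ^ ℓ : Γ) : SL(2, ℤ)) : Mat2) *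
              ((δ : Mat2) * !![(ℓ : ℤ), 0; 0, 1] * ((δ⁻¹ : SL(2, ℤ)) : Mat2))) := by
          rw [hγ1, hγn, hconj, hconj]
          simp [mul_comm]
      _ = _ := by
          rw [h2]
          simp only [Subgroup.coe_mul, Matrix.SpecialLinearGroup.coe_mul, mul_assoc]
  obtain ⟨hp2, hf2⟩ := D.perm_fac_of_eq h.irredundant hfix
  -- the cycle
  have hcyc : D.rep i₁ * (((γ ^ ℓ : Γ) : SL(2, ℤ)) : Mat2) =
      (((e₁⁻¹ * γ * e₁ : Γ) : SL(2, ℤ)) : Mat2) * D.rep i₁ := by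
    calc D.rep i₁ * (((γ ^ ℓ : Γ) : SL(2, ℤ)) : Mat2)
        = (((e₁⁻¹ : Γ) : SL(2, ℤ)) : Mat2) *
            ((δ : Mat2) * !![1, 0; 0, (ℓ : ℤ)] * ((δ⁻¹ : SL(2, ℤ)) : Mat2) *
              (((γ ^ ℓ : Γ) : SL(2, ℤ)) : Mat2)) := by rw [h1, mul_assoc, hcancel]
      _ = (((e₁⁻¹ : Γ) : SL(2, ℤ)) : Mat2) *
            (((γ : SL(2, ℤ)) : Mat2) *
              ((δ : Mat2) * !![1, 0; 0, (ℓ : ℤ)] * ((δ⁻¹ : SL(2, ℤ)) : Mat2))) := by
          rw [hγ1, hγn, hconj, hconj]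
          simp [mul_comm]
      _ = _ := by
          rw [h1]
          simp only [Subgroup.coe_mul, Matrix.SpecialLinearGroup.coe_mul, mul_assoc]
  obtain ⟨-, hf1⟩ := D.perm_fac_of_eq h.irredundant hcyc
  have hne : ∀ j : ℕ, (D.perm γ)^[j] i₁ = i₁ → ℓ ∣ j := fun j hj => by
    have hs := D.fac_spec (γ ^ j) i₁
    rw [D.perm_pow, Equiv.Perm.coe_pow, hj] at hs
    set e : Γ := e₁ * D.fac (γ ^ j) i₁ * e₁⁻¹ with he
    have hA : (δ : Mat2) * !![1, 0; 0, (ℓ : ℤ)] * ((δ⁻¹ : SL(2, ℤ)) : Mat2) *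
        (((γ ^ j : Γ) : SL(2, ℤ)) : Mat2) = ((e : SL(2, ℤ)) : Mat2) *
          ((δ : Mat2) * !![1, 0; 0, (ℓ : ℤ)] * ((δ⁻¹ : SL(2, ℤ)) : Mat2)) := by
      rw [h1, mul_assoc, hs, he]
      simp only [Subgroup.coe_mul, Matrix.SpecialLinearGroup.coe_mul, mul_assoc]
      rw [hcancel]
    rw [hγn, hconj] at hA
    have hB := congrArg (fun X : Mat2 => ((δ⁻¹ : SL(2, ℤ)) : Mat2) * X * (δ : Mat2)) hA
    simp only [mul_assoc, hdd, mul_one] at hB
    rw [← mul_assoc ((δ⁻¹ : SL(2, ℤ)) : Mat2) (δ : Mat2), hdd, one_mul] at hB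
    simp only [← mul_assoc] at hB
    set E : Mat2 := ((δ⁻¹ : SL(2, ℤ)) : Mat2) * ((e : SL(2, ℤ)) : Mat2) * (δ : Mat2)
    have e01 := congrFun (congrFun hB 0) 1
    simp [Matrix.mul_apply, Fin.sum_univ_two] at e01
    have hdvd : (ℓ : ℤ) ∣ (j : ℤ) * k := ⟨E 0 1, by linear_combination e01⟩
    rcases (Nat.prime_iff_prime_int.mp h.prime).dvd_mul.mp hdvd with hj' | hk'
    · exact_mod_cast hj'
    · exact absurd hk' hk
  have hinj : Set.InjOn (fun j => (D.perm γ)^[j] i₁) (Finset.range ℓ : Finset ℕ) := by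
    have key : ∀ a b : ℕ, a ≤ b → b < ℓ → (D.perm γ)^[a] i₁ = (D.perm γ)^[b] i₁ → a = b := by
      intro a b hle hb hab
      have h0 : (D.perm γ)^[b - a] i₁ = i₁ := by
        apply (D.perm γ).injective.iterate a
        rw [← Function.iterate_add_apply, Nat.add_sub_cancel' hle]
        exact hab.symm
      rcases Nat.eq_zero_or_pos (b - a) with h00 | hpos
      · omega
      · have := Nat.le_of_dvd hpos (hne _ h0)
        omega
    intro a ha b hb hab
    simp only [Finset.coe_range, Set.mem_Iio] at ha hb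
    rcases le_total a b with hle | hle
    · exact key a b hle hb hab
    · exact (key b a hle ha hab.symm).symm
  set O := (Finset.range ℓ).image fun j => (D.perm γ)^[j] i₁
  have hi2 : i₂ ∉ O := fun hmem => by
    obtain ⟨j, -, hj⟩ := Finset.mem_image.mp hmem
    have hfixj : (D.perm γ)^[j] i₂ = i₂ := Function.iterate_fixed hp2 j
    have h12 : i₁ = i₂ := (D.perm γ).injective.iterate j (hj.trans hfixj.symm)
    exact h.prime.not_dvd_one (hne 1 (by rw [h12]; exact hp2))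
  have huniv : (Finset.univ : Finset ι) = insert i₂ O := by
    refine (Finset.eq_univ_of_card _ ?_).symm
    rw [Finset.card_insert_of_notMem hi2, Finset.card_image_of_injOn hinj, Finset.card_range,
      h.card_eq]
  rw [Corr.homOp_apply, huniv, Finset.sum_insert hi2, Finset.sum_image hinj, ← D.fac_pow_sum,
    hf1, hf2]
  simp only [ofMul_mul, ofMul_inv, map_add, map_neg, ofMul_pow, map_nsmul, succ_nsmul]
  abel

/-- `T_ℓ - (ℓ + 1)` lands in the parabolic homomorphisms. -/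
theorem IsUnitRootHecke.isParabolicHom (h : IsUnitRootHecke D M ℓ) (φ : Additive Γ →+ A) :
    IsParabolicHom Γ (D.homOp φ - (ℓ + 1) • φ) := by
  set ψ := D.homOp φ - (ℓ + 1) • φ
  have hneg : ψ (Additive.ofMul ⟨-1, h.neg_mem⟩) = 0 := by
    have hfac : ∀ i, D.fac ⟨-1, h.neg_mem⟩ i = ⟨-1, h.neg_mem⟩ := fun i =>
      (D.perm_fac_of_eq h.irredundant (γ := ⟨-1, h.neg_mem⟩) (i := i) (j := i)
        (el := ⟨-1, h.neg_mem⟩) (by simp)).2
    simp only [ψ, AddMonoidHom.sub_apply, Corr.homOp_apply, hfac, Finset.sum_const,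
      Finset.card_univ, h.card_eq]
    rw [AddMonoidHom.nsmul_apply, sub_self]
  have hmain : ∀ (δ : SL(2, ℤ)) (k : ℤ) (γ : Γ),
      (γ : SL(2, ℤ)) = δ * ModularGroup.T ^ k * δ⁻¹ → ψ (Additive.ofMul γ) = 0 := by
    intro δ k γ hγ
    have key : ∀ (m : ℤ) (η : Γ), ¬ (ℓ : ℤ) ∣ m →
        (η : SL(2, ℤ)) = δ * ModularGroup.T ^ m * δ⁻¹ → ψ (Additive.ofMul η) = 0 :=
      fun m η hm hη => by
        simp only [ψ, AddMonoidHom.sub_apply, AddMonoidHom.nsmul_apply,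
          h.homOp_conj_T φ δ m hm η hη, sub_self]
    have hmemM : δ * ModularGroup.T ^ (M : ℤ) * δ⁻¹ ∈ Γ :=
      h.gamma_le ((Gamma_normal M).conj_mem _ (by
        rw [Gamma_mem, ModularGroup.coe_T_zpow]; simp) δ)
    have hℓM : ¬ (ℓ : ℤ) ∣ (M : ℤ) := by
      intro hd
      have hd' : ℓ ∣ M := Int.natCast_dvd_natCast.mp hd
      have h1 := congrArg (ZMod.castHom hd' (ZMod ℓ)) h.cast_eq_one
      rw [map_natCast, map_one, ZMod.natCast_self] at h1
      have : Fact (1 < ℓ) := ⟨h.prime.one_lt⟩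
      exact zero_ne_one h1
    rcases em ((ℓ : ℤ) ∣ k) with hk | hk
    · have h1 := key (k + M) (γ * ⟨_, hmemM⟩)
        (fun hd => hℓM ((Int.dvd_add_right hk).mp hd))
        (by rw [Subgroup.coe_mul, hγ, zpow_add]; group)
      have h2 := key M ⟨_, hmemM⟩ hℓM rfl
      rwa [ofMul_mul, map_add, h2, add_zero] at h1
    · exact key k γ hk hγ
  intro γ hγ
  obtain ⟨δ, k, hk | hk⟩ := ES.exists_conj_T_of_trace hγ
  · exact hmain δ k γ hk
  · have h1 := hmain δ k (⟨-1, h.neg_mem⟩ * γ) (by rw [← hk]; simp)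
    rwa [ofMul_mul, map_add, hneg, zero_add] at h1

end FermatAgent.HM
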