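import Mathlib.RepresentationTheory.Basic
import Mathlib.RepresentationTheory.Invariants
import Mathlib.LinearAlgebra.Isomorphisms
import Mathlib.RingTheory.Noetherian.Basic
import Mathlib.GroupTheory.Finiteness

/-!
# First cohomology of a representation by cocycles

Low degree cohomology of a group, in the elementary form used for the Hecke modules.
-/

set_option autoImplicit false

noncomputable section

namespace FermatAgent.HM

variable {R : Type*} [CommRing R] {G : Type*} [Group G]
variable {X : Type*} [AddCommGroup X] [Module R X]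
variable {Y : Type*} [AddCommGroup Y] [Module R Y]
variable {W : Type*} [AddCommGroup W] [Module R W]

/-- The module of one-cocycles. -/
def Z1 (ρ : Representation R G X) : Submodule R (G → X) where
  carrier := {c | ∀ g h, c (g * h) = c g + ρ g (c h)}
  add_mem' {a b} ha hb g h := by
    simp only [Pi.add_apply, ha g h, hb g h, map_add]
    abel
  zero_mem' g h := by simp
  smul_mem' r a ha g h := by simp [ha g h, smul_add]

variable {ρ : Representation R G X}

/-- The cocycle identity. -/
lemma Z1.map_mul (c : Z1 ρ) (g h : G) : c.1 (g * h) = c.1 g + ρ g (c.1 h) := c.2 g h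

/-- A cocycle vanishes at the identity. -/
lemma Z1.map_one (c : Z1 ρ) : c.1 1 = 0 := by
  have h := Z1.map_mul c 1 1
  rw [one_mul, _root_.map_one, Module.End.one_apply] at h
  exact left_eq_add.mp h

/-- The value of a cocycle at an inverse. -/
lemma Z1.map_inv (c : Z1 ρ) (g : G) : c.1 g⁻¹ = -ρ g⁻¹ (c.1 g) := by
  have h := Z1.map_mul c g⁻¹ g
  rw [inv_mul_cancel, Z1.map_one] at h
  exact eq_neg_of_add_eq_zero_left h.symm

variable (ρ) in
/-- The coboundary of an element. -/
def d0 : X →ₗ[R] Z1 ρ where
  toFun x := ⟨fun g => ρ g x - x, fun g h => by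
    simp only [_root_.map_mul, Module.End.mul_apply, map_sub]
    abel⟩
  map_add' x y := Subtype.ext <| funext fun g => by
    simp only [map_add, Submodule.coe_add, Pi.add_apply]
    abel
  map_smul' r x := Subtype.ext <| funext fun g => by simp [smul_sub]

/-- The coboundary of `x` is `g ↦ g x - x`. -/
@[simp] lemma d0_apply (x : X) (g : G) : (d0 ρ x).1 g = ρ g x - x := rfl

variable (ρ) in
/-- First cohomology. -/
abbrev H1 := Z1 ρ ⧸ LinearMap.range (d0 ρ)

variable (ρ) in
/-- The class of a cocycle. -/
def H1.mk : Z1 ρ →ₗ[R] H1 ρ := (LinearMap.range (d0 ρ)).mkQ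

/-- Every class is the class of a cocycle. -/
lemma H1.mk_surjective : Function.Surjective (H1.mk ρ) := Submodule.mkQ_surjective _

/-- To prove a property of classes it suffices to prove it for classes of cocycles. -/
@[elab_as_elim]
lemma H1.induction {p : H1 ρ → Prop} (h : ∀ c, p (H1.mk ρ c)) (z : H1 ρ) : p z := by
  obtain ⟨c, rfl⟩ := H1.mk_surjective z
  exact h c

/-- A cocycle has class zero iff it is a coboundary. -/
lemma H1.mk_eq_zero_iff (c : Z1 ρ) : H1.mk ρ c = 0 ↔ ∃ x, d0 ρ x = c := by
  rw [H1.mk, Submodule.mkQ_apply, Submodule.Quotient.mk_eq_zero, LinearMap.mem_range]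

/-- Two cocycles have the same class iff they differ by a coboundary. -/
lemma H1.mk_eq_mk_iff (c c' : Z1 ρ) :
    H1.mk ρ c = H1.mk ρ c' ↔ ∃ x, ∀ g, c.1 g - c'.1 g = ρ g x - x := by
  rw [← sub_eq_zero, ← map_sub, H1.mk_eq_zero_iff]
  exact ⟨fun ⟨x, hx⟩ => ⟨x, fun g => by
      have h := congrFun (congrArg Subtype.val hx) g
      simpa [eq_comm] using h⟩,
    fun ⟨x, hx⟩ => ⟨x, Subtype.ext <| funext fun g => by simpa using (hx g).symm⟩⟩

section Functorial

variable {σ : Representation R G Y} {τ : Representation R G W}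

/-- A linear map commuting with two actions. -/
def IsEquiv (ρ : Representation R G X) (σ : Representation R G Y) (f : X →ₗ[R] Y) : Prop :=
  ∀ g x, f (ρ g x) = σ g (f x)

/-- The map on cocycles. -/
def mapZ (f : X →ₗ[R] Y) (hf : IsEquiv ρ σ f) : Z1 ρ →ₗ[R] Z1 σ where
  toFun c := ⟨fun g => f (c.1 g), fun g h => by simp only [Z1.map_mul, map_add, hf g]⟩
  map_add' c c' := Subtype.ext <| funext fun g => by simp
  map_smul' r c := Subtype.ext <| funext fun g => by simp

@[simp] lemma mapZ_apply (f : X →ₗ[R] Y) (hf : IsEquiv ρ σ f) (c : Z1 ρ) (g : G) :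
    (mapZ f hf c).1 g = f (c.1 g) := rfl

lemma mapZ_d0 (f : X →ₗ[R] Y) (hf : IsEquiv ρ σ f) (x : X) :
    mapZ f hf (d0 ρ x) = d0 σ (f x) := Subtype.ext <| funext fun g => by simp [hf g x]

/-- The map on first cohomology. -/
def H1.map (f : X →ₗ[R] Y) (hf : IsEquiv ρ σ f) : H1 ρ →ₗ[R] H1 σ :=
  Submodule.mapQ _ _ (mapZ f hf) (by
    rintro c ⟨x, rfl⟩
    exact ⟨f x, (mapZ_d0 f hf x).symm⟩)

/-- The induced map on classes is computed on cocycles. -/
@[simp] lemma H1.map_mk (f : X →ₗ[R] Y) (hf : IsEquiv ρ σ f) (c : Z1 ρ) :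
    H1.map f hf (H1.mk ρ c) = H1.mk σ (mapZ f hf c) := rfl

/-- A map acting as the scalar `r` acts as `r` on cohomology. -/
lemma H1.map_eq_smul (r : R) (f : X →ₗ[R] X) (hf : IsEquiv ρ ρ f) (hfr : ∀ x, f x = r • x)
    (z : H1 ρ) : H1.map f hf z = r • z := by
  induction z using H1.induction with
  | _ c =>
    rw [H1.map_mk, ← map_smul]
    exact congrArg _ (Subtype.ext <| funext fun g => by simp [hfr])

variable (f : X →ₗ[R] Y) (hf : IsEquiv ρ σ f) (g : Y →ₗ[R] W) (hg : IsEquiv σ τ g)

include hg in
/-- A class killed by an injective coefficient map comes from an element whose image in the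
cokernel is invariant. -/
lemma exists_of_map_eq_zero (hgf : Function.Exact f g) {c : Z1 ρ}
    (h : H1.map f hf (H1.mk ρ c) = 0) :
    ∃ y, d0 σ y = mapZ f hf c ∧ g y ∈ τ.invariants := by
  rw [H1.map_mk, H1.mk_eq_zero_iff] at h
  obtain ⟨y, hy⟩ := h
  refine ⟨y, hy, (Representation.mem_invariants τ (g y)).mpr fun a => ?_⟩
  have h1 : σ a y - y = f (c.1 a) := congrFun (congrArg Subtype.val hy) a
  rw [← hg a, ← sub_eq_zero, ← map_sub, h1]
  exact hgf.apply_apply_eq_zero _

/-- The long exact sequence at the middle term. -/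
theorem H1.map_exact (hgf : Function.Exact f g) (hfi : Function.Injective f)
    (hgs : Function.Surjective g) :
    Function.Exact (H1.map f hf) (H1.map g hg) := by
  intro z
  induction z using H1.induction with
  | _ c =>
    constructor
    · intro h
      rw [H1.map_mk, H1.mk_eq_zero_iff] at h
      obtain ⟨w, hw⟩ := h
      obtain ⟨y, rfl⟩ := hgs w
      have hc : ∀ a, g (c.1 a - (σ a y - y)) = 0 := fun a => by
        have := congrFun (congrArg Subtype.val hw) a
        simp only [d0_apply, mapZ_apply] at this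
        rw [map_sub, map_sub, hg a, this, sub_self]
      choose b hb using fun a => (hgf _).mp (hc a)
      have hbZ : b ∈ Z1 ρ := fun a a' => hfi <| by
        rw [map_add, hf a, hb, hb, hb, Z1.map_mul]
        simp only [_root_.map_mul, Module.End.mul_apply, map_sub]
        abel
      refine ⟨H1.mk ρ ⟨b, hbZ⟩, ?_⟩
      rw [H1.map_mk, H1.mk_eq_mk_iff]
      refine ⟨-y, fun a => ?_⟩
      simp only [mapZ_apply, hb, map_neg]
      abel
    · rintro ⟨z', hz'⟩
      rw [← hz']
      induction z' using H1.induction with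
      | _ c' =>
        rw [H1.map_mk, H1.map_mk]
        convert map_zero (H1.mk τ)
        exact Subtype.ext <| funext fun a => hgf.apply_apply_eq_zero _

end Functorial

/-- Cocycles of a finitely generated group are determined by the values on generators. -/
lemma Z1.ext_of_closure {S : Set G} (hS : Subgroup.closure S = ⊤) {c c' : Z1 ρ}
    (h : ∀ s ∈ S, c.1 s = c'.1 s) : c = c' := by
  refine Subtype.ext <| funext fun g => ?_
  have hg : g ∈ Subgroup.closure S := hS ▸ Subgroup.mem_top g
  induction hg using Subgroup.closure_induction with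
  | mem s hs => exact h s hs
  | one => rw [Z1.map_one, Z1.map_one]
  | mul a b _ _ ha hb => rw [Z1.map_mul, Z1.map_mul, ha, hb]
  | inv a _ ha => rw [Z1.map_inv, Z1.map_inv, ha]

/-- Evaluation at generators. -/
def Z1.evalGen (S : Finset G) : Z1 ρ →ₗ[R] (S → X) where
  toFun c s := c.1 s
  map_add' _ _ := rfl
  map_smul' _ _ := rfl

/-- A cocycle is determined by its values at generators. -/
lemma Z1.evalGen_injective (S : Finset G) (hS : Subgroup.closure (S : Set G) = ⊤) :
    Function.Injective (Z1.evalGen (ρ := ρ) S) :=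
  fun _ _ h => Z1.ext_of_closure hS fun s hs => congrFun h ⟨s, hs⟩

variable (ρ) in
/-- Cohomology of a finitely generated group with finite coefficients is finite. -/
theorem H1.module_finite [IsNoetherianRing R] [Module.Finite R X] [Group.FG G] :
    Module.Finite R (H1 ρ) := by
  obtain ⟨S, hS⟩ := Group.fg_def.mp ‹Group.FG G›
  have : IsNoetherian R (S → X) := isNoetherian_of_isNoetherianRing_of_finite R _
  have : IsNoetherian R (Z1 ρ) := isNoetherian_of_injective _ (Z1.evalGen_injective S hS)
  exact Module.Finite.of_surjective (H1.mk ρ) H1.mk_surjective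

end FermatAgent.HM
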