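import Fermat.Agent.HM.H1.TrivialChar
import Fermat.Agent.ES.Tate.Extend

/-!
# The Hecke algebra of the localised module with trivial nebentype

Characters of finite extensions, and the algebra of the Hecke polynomials on the localised module.
-/

set_option autoImplicit false

noncomputable section

open scoped MatrixGroups
open CongruenceSubgroup ModularCurve.Period MvPolynomial

namespace FermatAgent.HM

/-- A character of a finite extension into an algebraically closed field extends. -/
theorem exists_ringHom_extension {T₀ T : Type*} [CommRing T₀] [CommRing T] [Algebra T₀ T]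
    [FaithfulSMul T₀ T] [Algebra.IsIntegral T₀ T] {K : Type*} [Field K] [IsAlgClosed K]
    (f : T₀ →+* K) : ∃ g : T →+* K, g.comp (algebraMap T₀ T) = f :=
  ES.exists_ringHom_extend (FaithfulSMul.algebraMap_injective T₀ T) f

/-- `Γ₀(M') ≤ Γ₀(M)` for `M ∣ M'`. -/
lemma gamma0_le_of_dvd {M M' : ℕ} (h : M ∣ M') : Gamma0 M' ≤ Gamma0 M := fun γ hγ => by
  rw [Gamma0_mem, ZMod.intCast_zmod_eq_zero_iff_dvd] at hγ ⊢
  exact (Int.natCast_dvd_natCast.mpr h).trans hγ

variable {O : Type} [CommRing O] {L M : ℕ} [NeZero M] {ι : Type}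
variable (pr : ι → HPrime L) (𝔪 : Ideal (MvPolynomial ι O)) [𝔪.IsPrime]

/-- The localised module with trivial nebentype. -/
abbrev TrivLoc := HeckeLoc pr (one_dvd M) (thetaRep (1 : (ZMod 1)ˣ →* O) O) 𝔪

variable (M) in
/-- The algebra of the Hecke polynomials on the localised module. -/
def locAlgebra : Subalgebra O (Module.End O (TrivLoc (M := M) pr 𝔪)) :=
  (Algebra.lsmul O O (TrivLoc (M := M) pr 𝔪) :
    MvPolynomial ι O →ₐ[O] Module.End O (TrivLoc (M := M) pr 𝔪)).range

variable (M) in
/-- The action of a Hecke polynomial on the localised module. -/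
def locAct : MvPolynomial ι O →ₐ[O] locAlgebra M pr 𝔪 :=
  AlgHom.rangeRestrict _

omit [NeZero M] in
/-- The Hecke polynomials surject onto the Hecke algebra of the localised module. -/
lemma locAct_surjective : Function.Surjective (locAct M pr 𝔪) :=
  AlgHom.rangeRestrict_surjective _

instance instIsMulCommutativeLocAlgebra : IsMulCommutative (locAlgebra M pr 𝔪) :=
  ⟨⟨fun u v => by
    obtain ⟨x, rfl⟩ := locAct_surjective pr 𝔪 u
    obtain ⟨y, rfl⟩ := locAct_surjective pr 𝔪 v
    rw [← map_mul, mul_comm, map_mul]⟩⟩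

end FermatAgent.HM
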