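import Fermat.Agent.HM.H1.Functor
import Fermat.Prelude.Thm_Algebra_finite_maximalSpectrum_and_bijective_localization_of_module_finite

/-!
# Finiteness of the localised Hecke modules

For a Noetherian complete local coefficient ring the localisation is a quotient of the cohomology,
which is a finite module.
-/

set_option autoImplicit false

noncomputable section

open scoped MatrixGroups
open CongruenceSubgroup MvPolynomial

namespace FermatAgent.HM

/-- Endomorphism subalgebras of a finite module over a Noetherian ring are finite. -/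
theorem moduleFinite_subalgebra_end {R : Type*} [CommRing R] [IsNoetherianRing R] {H : Type*}
    [AddCommGroup H] [Module R H] [Module.Finite R H] (A : Subalgebra R (Module.End R H)) :
    Module.Finite R A := by
  obtain ⟨n, s, hs⟩ := Module.Finite.exists_fin (R := R) (M := H)
  let ev : A →ₗ[R] (Fin n → H) :=
    { toFun := fun a j => (a : Module.End R H) (s j)
      map_add' := fun a b => rfl
      map_smul' := fun r a => rfl }
  have hev : Function.Injective ev := fun a b hab =>
    Subtype.ext (LinearMap.ext_on_range hs fun j => congrFun hab j)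
  have : IsNoetherian R (Fin n → H) := isNoetherian_of_isNoetherianRing_of_finite R _
  have := isNoetherian_of_injective ev hev
  infer_instance

/-- Localisation at a maximal ideal of a finite module over a complete local ring is a quotient. -/
theorem localizedModule_mk_surjective {R : Type} [CommRing R] [IsLocalRing R] [IsNoetherianRing R]
    [IsAdicComplete (IsLocalRing.maximalIdeal R) R] {P : Type} [CommRing P] [Algebra R P]
    {H : Type} [AddCommGroup H] [Module R H] [Module P H] [IsScalarTower R P H]
    [Module.Finite R H] (𝔪 : Ideal P) [𝔪.IsMaximal] :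
    Function.Surjective (LocalizedModule.mkLinearMap 𝔪.primeCompl H) := by
  classical
  let φ : P →ₐ[R] Module.End R H := Algebra.lsmul R R H
  let A := φ.range
  have : Module.Finite R A := moduleFinite_subalgebra_end A
  let : CommRing A :=
    { (inferInstance : Ring A) with
      mul_comm := by
        rintro ⟨_, x, rfl⟩ ⟨_, y, rfl⟩
        exact Subtype.ext ((map_mul φ x y).symm.trans
          ((congrArg φ (mul_comm x y)).trans (map_mul φ y x))) }
  let ψ : P →+* A := φ.rangeRestrict.toRingHom
  have hψs : Function.Surjective ψ := φ.rangeRestrict_surjective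
  have hψ : ∀ t (x : H), ((ψ t : A) : Module.End R H) x = t • x := fun t x => rfl
  suffices key : ∀ (s : 𝔪.primeCompl) (z : H), ∃ (t : 𝔪.primeCompl) (y : H),
      (t : P) • ((s : P) • y) = (t : P) • z by
    intro x
    induction x using LocalizedModule.induction_on with
    | _ z s =>
      obtain ⟨t, y, hty⟩ := key s z
      refine ⟨y, ?_⟩
      rw [LocalizedModule.mkLinearMap_apply, LocalizedModule.mk_eq]
      exact ⟨t, by simpa [Submonoid.smul_def] using hty⟩
  intro s z
  rcases Ideal.map_eq_top_or_isMaximal_of_surjective ψ hψs ‹𝔪.IsMaximal› with htop | hmax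
  · obtain ⟨e, he, he1⟩ : ∃ e ∈ 𝔪, ψ e = 1 :=
      (Ideal.mem_map_iff_of_surjective ψ hψs).mp (htop ▸ Submodule.mem_top)
    refine ⟨⟨1 - e, fun h => ‹𝔪.IsMaximal›.ne_top
      ((Ideal.eq_top_iff_one _).mpr (by simpa using 𝔪.add_mem h he))⟩, 0, ?_⟩
    show (1 - e) • ((s : P) • (0 : H)) = (1 - e) • z
    have h2 : e • z = z := by rw [← hψ e z, he1]; rfl
    rw [smul_zero, smul_zero, sub_smul, one_smul, h2, sub_self]
  · obtain ⟨J, hJ⟩ : ∃ J : MaximalSpectrum A, J.asIdeal = 𝔪.map ψ := ⟨⟨_, hmax⟩, rfl⟩
    have hcomap : J.asIdeal.comap ψ = 𝔪 :=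
      (‹𝔪.IsMaximal›.eq_of_le (Ideal.comap_ne_top _ J.isMaximal.ne_top)
        (hJ ▸ Ideal.le_comap_map)).symm
    obtain ⟨-, hbij, -, -⟩ :=
      Algebra.finite_maximalSpectrum_and_bijective_localization_of_module_finite (𝒪 := R) A
    obtain ⟨e, he⟩ := hbij.2 (Pi.single J 1)
    have heJ : algebraMap A (Localization.AtPrime J.asIdeal) e = 1 :=
      (congrFun he J).trans (Pi.single_eq_same _ _)
    have hee : e * e = e := hbij.1 (by
      rw [map_mul, he]
      funext I
      rcases eq_or_ne J I with rfl | hIJ
      · rw [Pi.mul_apply, Pi.single_eq_same, one_mul]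
      · rw [Pi.mul_apply, Pi.single_eq_of_ne hIJ.symm, zero_mul])
    have heJ' : e ∉ J.asIdeal := fun hmem => by
      have h := (IsLocalization.AtPrime.isUnit_to_map_iff (Localization.AtPrime J.asIdeal)
        J.asIdeal e).mp (heJ ▸ isUnit_one)
      exact h hmem
    have hsJ : ψ s ∉ J.asIdeal := fun hmem => s.2 (hcomap ▸ hmem)
    obtain ⟨u, hu⟩ := (IsLocalization.AtPrime.isUnit_to_map_iff
      (Localization.AtPrime J.asIdeal) J.asIdeal (ψ s)).mpr hsJ
    obtain ⟨b, hb⟩ := hbij.2 (Pi.single J (↑u⁻¹ : Localization.AtPrime J.asIdeal))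
    have hbe : ψ s * b = e := hbij.1 (by
      rw [map_mul, he, hb]
      funext I
      rcases eq_or_ne J I with rfl | hIJ
      · have h1 : (RingHom.pi fun I : MaximalSpectrum A =>
            algebraMap A (Localization.AtPrime I.asIdeal)) (ψ s) J = u := hu.symm
        rw [Pi.mul_apply, Pi.single_eq_same, Pi.single_eq_same, h1, Units.mul_inv]
      · rw [Pi.mul_apply, Pi.single_eq_of_ne hIJ.symm, Pi.single_eq_of_ne hIJ.symm, mul_zero])
    obtain ⟨t, ht⟩ := hψs e
    obtain ⟨b', hb'⟩ := hψs b
    refine ⟨⟨t, fun hmem => heJ' (ht ▸ hJ ▸ Ideal.mem_map_of_mem ψ hmem)⟩, b' • z, ?_⟩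
    show t • ((s : P) • (b' • z)) = t • z
    have h2 : ψ (t * ((s : P) * b')) = ψ t := by rw [map_mul, map_mul, ht, hb', hbe, hee]
    rw [← mul_smul, ← mul_smul, mul_assoc, ← hψ, ← hψ, h2]

variable {R : Type} [CommRing R] [IsLocalRing R] [IsNoetherianRing R]
  [IsAdicComplete (IsLocalRing.maximalIdeal R) R] {N L M : ℕ} [NeZero M] {ι : Type}
  {hNM : N ∣ M} {θ : (ZMod N)ˣ →* R} {pr : ι → HPrime L}
  {𝔪 : Ideal (MvPolynomial ι R)} [𝔪.IsMaximal]

/-- The localised module of a finite coefficient module is finite. -/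
theorem moduleFinite_thetaLoc (X : Type) [AddCommGroup X] [Module R X] [Module.Finite R X] :
    Module.Finite R (ThetaLoc hNM θ pr 𝔪 X) := by
  have h1 : Module.Finite R (HeckeH1 hNM pr (thetaRep (L := L) θ X)) := by
    have := H1.module_finite (resRep (actsIn_gamma0 (L := L) hNM) (thetaRep θ X))
    exact this
  exact Module.Finite.of_surjective
    ((LocalizedModule.mkLinearMap 𝔪.primeCompl
      (HeckeH1 hNM pr (thetaRep (L := L) θ X))).restrictScalars R)
    (localizedModule_mk_surjective (R := R) 𝔪)

end FermatAgent.HM
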