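import Fermat.Agent.HM.H1.ChangeRing

/-!
# Transport of localised Hecke modules

Renaming the family of primes, rewriting the level and changing the level of the nebentype do
not change the localised Hecke module.
-/

set_option autoImplicit false

noncomputable section

open scoped MatrixGroups
open CongruenceSubgroup MvPolynomial

namespace FermatAgent.HM

/-- An equivariant linear equivalence passes to localisations. -/
theorem exists_localizedLinearEquiv {R A A' : Type*} [CommRing R] [CommRing A] [CommRing A']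
    [Algebra R A] [Algebra R A'] (ψ : A →ₐ[R] A') (hψ : Function.Surjective ψ)
    (S : Submonoid A) (S' : Submonoid A') (hS : ∀ a, a ∈ S ↔ ψ a ∈ S')
    {H H' : Type*} [AddCommGroup H] [Module A H] [Module R H] [IsScalarTower R A H]
    [AddCommGroup H'] [Module A' H'] [Module R H'] [IsScalarTower R A' H']
    (e : H ≃ₗ[R] H') (he : ∀ a z, e (a • z) = ψ a • e z) :
    ∃ E : LocalizedModule S H ≃ₗ[R] LocalizedModule S' H',
      (∀ z, E (LocalizedModule.mk z 1) = LocalizedModule.mk (e z) 1) ∧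
      ∀ (a : A) x, E (a • x) = ψ a • E x := by
  obtain ⟨E, hmk, hE⟩ := exists_localizedEquiv ψ.toRingHom hψ S S' hS e.toAddEquiv he
  refine ⟨{ E with map_smul' := fun r x => ?_ }, fun z => ?_, hE⟩
  · change E (r • x) = r • E x
    rw [← algebraMap_smul A r x, hE]
    change ψ (algebraMap R A r) • E x = _
    rw [AlgHom.commutes, algebraMap_smul]
  · change E (LocalizedModule.mk z 1) = _
    rw [hmk]
    congr 1
    exact Subtype.ext (map_one ψ)

variable {R : Type*} [CommRing R] {N L M : ℕ} {ι ι' : Type}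
variable {X : Type*} [AddCommGroup X] [Module R X]

section Reindex

variable (hNM : N ∣ M) (ρ : Representation R (sigma0 N L) X) (pr : ι → HPrime L) (g : ι' → ι)

/-- The Hecke module for the renamed family. -/
def reindexHecke : HeckeH1 hNM (pr ∘ g) ρ ≃ₗ[R] HeckeH1 hNM pr ρ :=
  (toHeckeH1 (pr ∘ g) hNM ρ).symm.trans (toHeckeH1 pr hNM ρ)

/-- Renaming the variables corresponds to reindexing the family of primes. -/
lemma heckeHom_rename (t : MvPolynomial ι' R) :
    heckeHom pr hNM ρ (rename g t) = heckeHom (pr ∘ g) hNM ρ t := by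
  have h : (heckeHom pr hNM ρ).comp (rename g) = heckeHom (pr ∘ g) hNM ρ :=
    MvPolynomial.algHom_ext fun i => by simp
  exact AlgHom.congr_fun h t

lemma reindexHecke_smul (t : MvPolynomial ι' R) (z : HeckeH1 hNM (pr ∘ g) ρ) :
    reindexHecke hNM ρ pr g (t • z) = rename g t • reindexHecke hNM ρ pr g z := by
  rw [mv_smul_def, mv_smul_def, heckeHom_rename]
  rfl

/-- Renaming by a bijection. -/
theorem exists_reindexEquiv (hg : Function.Bijective g) (𝔪 : Ideal (MvPolynomial ι R))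
    [𝔪.IsPrime] :
    ∃ E : HeckeLoc (pr ∘ g) hNM ρ (𝔪.comap (rename g)) ≃ₗ[R] HeckeLoc pr hNM ρ 𝔪,
      ∀ (t : MvPolynomial ι' R) x, E (t • x) = rename g t • E x := by
  obtain ⟨E, -, hE⟩ := exists_localizedLinearEquiv (rename g)
    (rename_surjective g hg.surjective) (𝔪.comap (rename g)).primeCompl 𝔪.primeCompl
    (fun a => by simp [Ideal.mem_primeCompl_iff]) (reindexHecke hNM ρ pr g)
    (reindexHecke_smul hNM ρ pr g)
  exact ⟨E, hE⟩

/-- Renaming by a bijection, with the renamed data given separately. -/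
theorem exists_reindexEquiv_of_eq (hg : Function.Bijective g) (pr' : ι' → HPrime L)
    (hpr : pr ∘ g = pr') (𝔪 : Ideal (MvPolynomial ι R)) [𝔪.IsPrime]
    (𝔫 : Ideal (MvPolynomial ι' R)) [𝔫.IsPrime] (h𝔫 : 𝔪.comap (rename g) = 𝔫) :
    ∃ E : HeckeLoc pr' hNM ρ 𝔫 ≃ₗ[R] HeckeLoc pr hNM ρ 𝔪,
      ∀ (t : MvPolynomial ι' R) x, E (t • x) = rename g t • E x := by
  subst hpr
  subst h𝔫
  exact exists_reindexEquiv hNM ρ pr g hg 𝔪

end Reindex

section Level

variable (hNM : N ∣ M) (ρ : Representation R (sigma0 N L) X) (pr : ι → HPrime L)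
  (𝔪 : Ideal (MvPolynomial ι R)) [𝔪.IsPrime]

/-- Rewriting the level. -/
theorem exists_levelCast {M' : ℕ} (hMM : M = M') (hNM' : N ∣ M') :
    ∃ E : HeckeLoc pr hNM ρ 𝔪 ≃ₗ[R] HeckeLoc pr hNM' ρ 𝔪,
      ∀ (t : MvPolynomial ι R) x, E (t • x) = t • E x := by
  subst hMM
  exact ⟨LinearEquiv.refl R _, fun t x => rfl⟩

end Level

section Agree

variable {R' : Type*} [CommRing R'] {N' L' M' : ℕ} [Module R' X]
variable {hNM : N ∣ M} {hN'M : N' ∣ M} {ρ : Representation R (sigma0 N L) X}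
  {ρ' : Representation R' (sigma0 N' L') X}
variable (hρ : ∀ (A : sigma0 N L) (B : sigma0 N' L'), (A : Mat2) = B → ∀ x, ρ A x = ρ' B x)

include hρ in
lemma resRep_agree (γ : Gamma0 M) (x : X) :
    resRep (actsIn_gamma0 (L := L) hNM) ρ γ x = resRep (actsIn_gamma0 (L := L') hN'M) ρ' γ x :=
  hρ _ _ rfl x

/-- Cocycles of agreeing systems, possibly over different rings. -/
def agreeAddZ1 : Z1 (resRep (actsIn_gamma0 (L := L) hNM) ρ) ≃+
    Z1 (resRep (actsIn_gamma0 (L := L') hN'M) ρ') where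
  toFun c := ⟨c.1, fun g h => by rw [← resRep_agree (hNM := hNM) (hN'M := hN'M) hρ]; exact c.2 g h⟩
  invFun c := ⟨c.1, fun g h => by rw [resRep_agree (hNM := hNM) (hN'M := hN'M) hρ]; exact c.2 g h⟩
  map_add' _ _ := rfl

/-- Cohomology of agreeing systems. -/
def agreeAdd : H1G (L := L) hNM ρ ≃+ H1G (L := L') hN'M ρ' :=
  QuotientAddGroup.congr _ _ (agreeAddZ1 (hNM := hNM) (hN'M := hN'M) hρ) (by
    ext c
    simp only [AddSubgroup.mem_map, Submodule.mem_toAddSubgroup, LinearMap.mem_range]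
    constructor
    · rintro ⟨_, ⟨x, rfl⟩, rfl⟩
      exact ⟨x, Subtype.ext <| funext fun g => by
        simp [agreeAddZ1, resRep_agree (hNM := hNM) (hN'M := hN'M) hρ]⟩
    · rintro ⟨x, rfl⟩
      exact ⟨d0 _ x, ⟨x, rfl⟩,
        Subtype.ext <| funext fun g => by
          simp [agreeAddZ1, resRep_agree (hNM := hNM) (hN'M := hN'M) hρ]⟩)

lemma agreeAdd_mk (c : Z1 (resRep (actsIn_gamma0 (L := L) hNM) ρ)) :
    agreeAdd (hNM := hNM) (hN'M := hN'M) hρ (H1.mk (resRep (actsIn_gamma0 (L := L) hNM) ρ) c) =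
      H1.mk (resRep (actsIn_gamma0 (L := L') hN'M) ρ')
        (agreeAddZ1 (hNM := hNM) (hN'M := hN'M) hρ c) :=
  rfl

/-- The comparison of the two Hecke modules is semilinear along the map of coefficients. -/
lemma agreeAdd_smul (f : R →+* R') (hf : ∀ (r : R) (x : X), r • x = f r • x) (r : R)
    (z : H1G (L := L) hNM ρ) :
    agreeAdd (hN'M := hN'M) hρ (r • z) = f r • agreeAdd (hN'M := hN'M) hρ z := by
  induction z using H1.induction with
  | _ c =>
    rw [← map_smul, agreeAdd_mk, agreeAdd_mk, ← map_smul]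
    exact congrArg _ (Subtype.ext <| funext fun g => hf r (c.1 g))

/-- Agreement commutes with every correspondence. -/
theorem agreeAdd_op {κ : Type} [Fintype κ] {hNM' : N ∣ M'} {hN'M' : N' ∣ M'}
    (C : Corr (sigma0 N L) (Gamma0 M') (Gamma0 M) κ)
    (C' : Corr (sigma0 N' L') (Gamma0 M') (Gamma0 M) κ) (hrep : C.rep = C'.rep)
    (hperm : C.perm = C'.perm) (z : H1G (L := L) hNM ρ) :
    agreeAdd (hNM := hNM') (hN'M := hN'M') hρ
        (C.op (actsIn_gamma0 hNM') (actsIn_gamma0 hNM) ρ z) =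
      C'.op (actsIn_gamma0 hN'M') (actsIn_gamma0 hN'M) ρ'
        (agreeAdd (hN'M := hN'M) hρ z) := by
  induction z using H1.induction with
  | _ c =>
    rw [Corr.op_mk, agreeAdd_mk, agreeAdd_mk, Corr.op_mk]
    refine congrArg _ (Subtype.ext <| funext fun g => ?_)
    simp only [agreeAddZ1, AddEquiv.coe_mk, Equiv.coe_fn_mk, Corr.opZ_apply]
    refine Finset.sum_congr rfl fun i _ => ?_
    have hfac : C.fac g i = C'.fac g i :=
      C.fac_unique (by rw [hrep, hperm]; exact C'.fac_spec g i)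
    rw [hfac]
    exact hρ _ _ (by simp [Corr.adj, hrep]) _

end Agree

section Nebentype

variable {N' L' : ℕ} (hNM : N ∣ M) (hNM' : N' ∣ M)
variable {ρ : Representation R (sigma0 N L) X} {ρ' : Representation R (sigma0 N' L') X}
variable (hρ : ∀ (A : sigma0 N L) (B : sigma0 N' L'), (A : Mat2) = B → ∀ x, ρ A x = ρ' B x)

include hρ in
/-- Agreeing coefficient systems give the same localised Hecke module. -/
theorem exists_agreeEquiv (pr : ι → HPrime L) (pr' : ι → HPrime L')
    (hpr : ∀ i, (pr i).1 = (pr' i).1) (𝔪 : Ideal (MvPolynomial ι R)) [𝔪.IsPrime] :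
    ∃ E : HeckeLoc pr hNM ρ 𝔪 ≃ₗ[R] HeckeLoc pr' hNM' ρ' 𝔪,
      ∀ (t : MvPolynomial ι R) x, E (t • x) = t • E x := by
  let e : HeckeH1 hNM pr ρ ≃ₗ[R] HeckeH1 hNM' pr' ρ' :=
    ((toHeckeH1 pr hNM ρ).symm.trans
      { agreeAdd (hNM := hNM) (hN'M := hNM') hρ with
        map_smul' := agreeAdd_smul hρ (RingHom.id R) fun _ _ => rfl }).trans
      (toHeckeH1 pr' hNM' ρ')
  have he : ∀ (t : MvPolynomial ι R) z, e (t • z) = AlgHom.id R _ t • e z := by
    intro t
    induction t using MvPolynomial.induction_on with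
    | C a => intro z; rw [AlgHom.id_apply, C_smul_eq, C_smul_eq, map_smul]
    | add t u ht hu =>
      intro z
      rw [AlgHom.id_apply] at *
      rw [add_smul, add_smul, map_add, ht, hu]
    | mul_X t i ht =>
      intro z
      rw [mul_smul, ht, AlgHom.id_apply, AlgHom.id_apply, mul_smul]
      congr 1
      rw [mv_smul_def, mv_smul_def, heckeHom_X, heckeHom_X]
      generalize hp : pr i = p, hp' : pr' i = p'
      have hpp : p.1 = p'.1 := hp ▸ hp' ▸ hpr i
      obtain ⟨p, hpL⟩ := p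
      obtain ⟨p', hpL'⟩ := p'
      obtain rfl : p = p' := hpp
      have : Fact p.1.Prime := ⟨p.2⟩
      exact agreeAdd_op hρ (heckeCorr hNM hpL) (heckeCorr hNM' hpL') rfl rfl _
  obtain ⟨E, -, hE⟩ := exists_localizedLinearEquiv (AlgHom.id R (MvPolynomial ι R))
    (fun a => ⟨a, rfl⟩) 𝔪.primeCompl 𝔪.primeCompl (fun a => Iff.rfl) e he
  exact ⟨E, fun t x => by simpa using hE t x⟩

end Nebentype

/-- The character at a higher level. -/
abbrev inflateChar {N' : ℕ} (h : N ∣ N') (θ : (ZMod N)ˣ →* R) : (ZMod N')ˣ →* R :=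
  θ.comp (ZMod.unitsMap h)

lemma thetaRep_inflate {N' L' : ℕ} (h : N ∣ N') (θ : (ZMod N)ˣ →* R) (A : sigma0 N' L')
    (B : sigma0 N L) (hAB : (A : Mat2) = B) (x : X) :
    thetaRep (inflateChar h θ) X A x = thetaRep θ X B x := by
  rw [thetaRep_apply, thetaRep_apply, MonoidHom.comp_apply]
  congr 2
  refine Units.ext ?_
  rw [ZMod.unitsMap_val, coe_lowerRightUnit, coe_lowerRightUnit, hAB, ZMod.cast_intCast h]

/-- Raising the level of the nebentype. -/
theorem exists_inflateEquiv {N' : ℕ} (h : N ∣ N') (hNM' : N' ∣ M) (θ : (ZMod N)ˣ →* R)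
    (pr : ι → HPrime L) (𝔪 : Ideal (MvPolynomial ι R)) [𝔪.IsPrime] :
    ∃ E : HeckeLoc pr hNM' (thetaRep (inflateChar h θ) X) 𝔪 ≃ₗ[R]
        HeckeLoc pr (h.trans hNM') (thetaRep θ X) 𝔪,
      ∀ (t : MvPolynomial ι R) x, E (t • x) = t • E x :=
  exists_agreeEquiv _ _ (fun A B hAB x => thetaRep_inflate h θ A B hAB x) pr pr (fun _ => rfl) 𝔪

end FermatAgent.HM
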