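import Fermat.Agent.HM.H1.DegeneracyIso
import Fermat.Agent.HM.H1.Transport

/-!
# Taylor–Wiles levels

Residual eigensystems as maximal ideals, and the identification of level `M ∏ q` at the chosen
roots with level `M`.
-/

set_option autoImplicit false

noncomputable section

open scoped MatrixGroups
open CongruenceSubgroup MvPolynomial IsLocalRing

namespace FermatAgent.HM

section ResIdeal

variable {R : Type*} [CommRing R] [IsLocalRing R] {ι : Type}

/-- The maximal ideal of a residual eigensystem. -/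
def resIdeal (a : ι → R) : Ideal (MvPolynomial ι R) :=
  (maximalIdeal R).comap (aeval a)

/-- Membership in the ideal of a residual eigensystem. -/
lemma mem_resIdeal {a : ι → R} {p : MvPolynomial ι R} :
    p ∈ resIdeal a ↔ aeval a p ∈ maximalIdeal R := Iff.rfl

instance instIsMaximalResIdeal (a : ι → R) : (resIdeal a).IsMaximal :=
  Ideal.comap_isMaximal_of_surjective _
    fun r => ⟨C r, by simp⟩

/-- The ideal depends only on the eigensystem modulo the maximal ideal. -/
lemma resIdeal_congr {a b : ι → R} (h : ∀ i, a i - b i ∈ maximalIdeal R) :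
    resIdeal a = resIdeal b := by
  ext p
  rw [mem_resIdeal, mem_resIdeal]
  have e : aeval a p - aeval b p ∈ maximalIdeal R := by
    have he : (Ideal.Quotient.mkₐ R (maximalIdeal R)).comp (aeval a) =
        (Ideal.Quotient.mkₐ R (maximalIdeal R)).comp (aeval b) :=
      MvPolynomial.algHom_ext fun i => by
        simpa using Ideal.Quotient.eq.mpr (h i)
    exact Ideal.Quotient.eq.mp (AlgHom.congr_fun he p)
  exact ⟨fun ha => by simpa using sub_mem ha e, fun hb => by simpa using add_mem e hb⟩

/-- The ideal of a subfamily is the preimage under renaming. -/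
lemma resIdeal_comap_rename {ι' : Type} (g : ι' → ι) (a : ι → R) :
    (resIdeal a).comap (rename g) = resIdeal (a ∘ g) := by
  ext p
  rw [Ideal.mem_comap, mem_resIdeal, mem_resIdeal, aeval_rename]

/-- Constants in the maximal ideal lie in the residual ideal. -/
lemma C_mem_resIdeal {a : ι → R} {r : R} (hr : r ∈ maximalIdeal R) : C r ∈ resIdeal a := by
  simpa [mem_resIdeal] using hr

/-- `X_i - r` lies in the ideal iff `r` reduces to the eigenvalue at `i`. -/
lemma X_sub_C_mem_resIdeal {a : ι → R} {i : ι} {r : R} :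
    MvPolynomial.X i - C r ∈ resIdeal a ↔ a i - r ∈ maximalIdeal R := by
  simp [mem_resIdeal]

end ResIdeal

variable {R : Type*} [CommRing R] {N : ℕ}

/-- The value of a character at a natural number, zero if not prime to the level. -/
def thetaAt (θ : (ZMod N)ˣ →* R) (n : ℕ) : R :=
  if h : n.Coprime N then θ (ZMod.unitOfCoprime n h) else 0

/-- The value `θ(q)` of the degeneracy data is `θ` at `q`. -/
lemma ALData.thetaQ_eq (D : ALData) (θ : (ZMod N)ˣ →* R) (hN : N ∣ D.L) :
    D.thetaQ θ hN = thetaAt θ D.q := by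
  have h : D.q.Coprime N :=
    (D.prime.coprime_iff_not_dvd).mpr fun h => D.not_dvd (h.trans hN)
  rw [thetaAt, dif_pos h, ALData.thetaQ]
  congr 1
  exact Units.ext (by simp [ALData.qUnit])

/-- Roots of `T² - a T + q θ(q)` with distinct residues, neither squaring to `θ(q)`. -/
structure TWRoots [IsLocalRing R] (θ : (ZMod N)ˣ →* R) (q : ℕ) (a α β : R) : Prop where
  sum_eq : a - (α + β) ∈ maximalIdeal R
  prod_eq : α * β = (q : R) * thetaAt θ q
  unit_alpha : IsUnit α
  distinct : IsUnit (α - β)
  not_new : IsUnit (α ^ 2 - thetaAt θ q)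

section Step

variable {R : Type} [CommRing R] [IsLocalRing R] [IsNoetherianRing R]
  [IsAdicComplete (maximalIdeal R) R] {N L : ℕ} {ι : Type}
  {X : Type} [AddCommGroup X] [Module R X] [Module.Finite R X]

/-- **One auxiliary prime.** Let `α + β ≡ a` and `α β = q θ(q)`, with `α - β` and `α² - θ(q)`
units. Level `L` at the eigenvalue `a` and level `L q` at the eigenvalue `α` have isomorphic
localised Hecke modules, compatibly with the operators away from `q`. -/
theorem exists_tw_step (D : ALData) [NeZero D.L] {θ : (ZMod N)ˣ →* R} (hN : N ∣ D.L)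
    (pr : ι → HPrime L) (i₀ : ι) (hi₀ : ((pr i₀).1.1 : ℕ) = D.q)
    (hne : ∀ i, i ≠ i₀ → ((pr i).1.1 : ℕ) ≠ D.q) (a : ι → R) (α β : R)
    (h : TWRoots θ D.q (a i₀) α β) [DecidableEq ι] :
    ∃ Φ : ThetaLoc hN θ pr (resIdeal a) X ≃ₗ[R]
        ThetaLoc (D.dvd_N hN) θ pr (resIdeal (Function.update a i₀ α)) X,
      ∀ (p : MvPolynomial {i // i ≠ i₀} R) z,
        Φ (rename Subtype.val p • z) = rename Subtype.val p • Φ z := by
  let g : Option {i // i ≠ i₀} → ι := fun o => o.elim i₀ Subtype.val
  have hg : Function.Bijective g := by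
    convert (Equiv.optionSubtypeNe i₀).bijective using 1
    funext o; cases o <;> simp [g]
  have hqL : D.q.Coprime L := hi₀ ▸ (pr i₀).2
  have hpr : pr ∘ g = D.extPr hqL (pr ∘ Subtype.val) := by
    funext o
    rcases o with _ | i
    · exact Subtype.ext (Subtype.ext hi₀)
    · rfl
  have hsr : D.SplitRoots θ hN (pr ∘ Subtype.val) (resIdeal (a ∘ g))
      (resIdeal (Function.update a i₀ α ∘ g)) α β :=
    { ne_q := fun i => hne i.1 i.2
      prod_eq := by rw [D.thetaQ_eq]; exact h.prod_eq
      unit_alpha := h.unit_alpha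
      distinct := h.distinct
      not_new := by rw [D.thetaQ_eq]; exact h.not_new
      low := X_sub_C_mem_resIdeal.mpr h.sum_eq
      high := X_sub_C_mem_resIdeal.mpr (by simp [g])
      others := fun p => by
        rw [mem_resIdeal, mem_resIdeal, aeval_rename, aeval_rename]
        have e : Function.update a i₀ α ∘ g ∘ some = a ∘ g ∘ some :=
          funext fun i => Function.update_of_ne i.2 _ _
        rw [Function.comp_assoc, Function.comp_assoc, e]
      maximal_low := fun r hr => C_mem_resIdeal hr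
      maximal_high := fun r hr => C_mem_resIdeal hr }
  obtain ⟨Φ, -, hΦ⟩ := ALData.exists_level_iso (X := X) (hqL := hqL) hsr
  obtain ⟨E, hE⟩ := exists_reindexEquiv_of_eq hN (thetaRep θ X) pr g hg _ hpr (resIdeal a)
    (resIdeal (a ∘ g)) (resIdeal_comap_rename g a)
  obtain ⟨E', hE'⟩ := exists_reindexEquiv_of_eq (D.dvd_N hN) (thetaRep θ X) pr g hg _ hpr
    (resIdeal (Function.update a i₀ α)) (resIdeal (Function.update a i₀ α ∘ g))
    (resIdeal_comap_rename g _)
  refine ⟨(E.symm.trans Φ).trans E', fun p z => ?_⟩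
  obtain ⟨y, rfl⟩ := E.surjective z
  have hp : rename Subtype.val p = rename g (rename some p) := by rw [rename_rename]; rfl
  simp only [LinearEquiv.trans_apply, LinearEquiv.symm_apply_apply]
  rw [hp, ← hE, LinearEquiv.symm_apply_apply, hΦ, hE']

end Step

section Iterate

variable {R : Type} [CommRing R] [IsLocalRing R] [IsNoetherianRing R]
  [IsAdicComplete (maximalIdeal R) R] {N L : ℕ} {ι : Type}
  {X : Type} [AddCommGroup X] [Module R X] [Module.Finite R X]

/-- **A finite set of auxiliary primes.** Under the root conditions at the primes of `Q`, the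
localisation at the eigensystem `a` of level `M` and that at the eigensystem equal to `α` on `Q` and
to `a` outside `Q`, of level `M ∏_{q ∈ Q} q`, are isomorphic, compatibly with the operators away
from `Q`. -/
theorem exists_tw_iso [DecidableEq ι] {θ : (ZMod N)ˣ →* R} {pr : ι → HPrime L} {M : ℕ}
    [NeZero M] (hNM : N ∣ M) (a α β : ι → R) (Q : Finset ι)
    (hq : ∀ i ∈ Q, ¬ ((pr i).1.1 : ℕ) ∣ M)
    (hinj : ∀ i ∈ Q, ∀ j, pr j = pr i → j = i)
    (hroots : ∀ i ∈ Q, TWRoots θ (pr i).1.1 (a i) (α i) (β i))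
    {M' : ℕ} (hM' : M' = M * ∏ i ∈ Q, ((pr i).1.1 : ℕ)) (hNM' : N ∣ M') :
    ∃ Φ : ThetaLoc hNM θ pr (resIdeal a) X ≃ₗ[R]
        ThetaLoc hNM' θ pr (resIdeal (Q.piecewise α a)) X,
      ∀ (p : MvPolynomial {i // i ∉ Q} R) z,
        Φ (rename Subtype.val p • z) = rename Subtype.val p • Φ z := by
  classical
  induction Q using Finset.induction_on generalizing M' with
  | empty =>
    obtain ⟨E, hE⟩ := exists_levelCast hNM (thetaRep (L := L) θ X) pr (resIdeal a)
      (M' := M') (by rw [hM']; simp) hNM'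
    rw [Finset.piecewise_empty]
    exact ⟨E, fun p z => hE _ z⟩
  | insert j Q hj ih =>
    rw [Finset.prod_insert hj] at hM'
    obtain ⟨Φ, hΦ⟩ := ih (fun i hi => hq i (Finset.mem_insert_of_mem hi))
      (fun i hi => hinj i (Finset.mem_insert_of_mem hi))
      (fun i hi => hroots i (Finset.mem_insert_of_mem hi))
      (M' := M * ∏ i ∈ Q, ((pr i).1.1 : ℕ)) rfl (hNM.mul_right _)
    set M₁ := M * ∏ i ∈ Q, ((pr i).1.1 : ℕ) with hM₁
    have hM₁0 : M₁ ≠ 0 :=
      mul_ne_zero (NeZero.ne M) (Finset.prod_ne_zero_iff.mpr fun i _ => (pr i).1.2.ne_zero)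
    have hjM : ¬ ((pr j).1.1 : ℕ) ∣ M₁ := by
      intro hd
      rcases (pr j).1.2.dvd_mul.mp hd with hd | hd
      · exact hq j (Finset.mem_insert_self j Q) hd
      · obtain ⟨i, hi, hid⟩ := (pr j).1.2.prime.exists_mem_finset_dvd hd
        exact hj (hinj j (Finset.mem_insert_self j Q) i (Subtype.ext (Subtype.ext
          ((Nat.prime_dvd_prime_iff_eq (pr j).1.2 (pr i).1.2).mp hid).symm)) ▸ hi)
    obtain ⟨D, hDq, hDL⟩ := ALData.exists_data (pr j).1.2 hjM hM₁0
    have hND : N ∣ D.L := hDL ▸ hNM.mul_right _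
    have : NeZero D.L := ⟨D.L_ne_zero⟩
    obtain ⟨E₁, hE₁⟩ := exists_levelCast (hNM.mul_right _) (thetaRep (L := L) θ X) pr
      (resIdeal (Q.piecewise α a)) (M' := D.L) hDL.symm hND
    have haj : Q.piecewise α a j = a j := Finset.piecewise_eq_of_notMem _ _ _ hj
    obtain ⟨S, hS⟩ := exists_tw_step (X := X) D hND pr j hDq.symm
      (fun i hi e => hi (hinj j (Finset.mem_insert_self j Q) i
        (Subtype.ext (Subtype.ext (e.trans hDq)))))
      (Q.piecewise α a) (α j) (β j)
      (by rw [hDq, haj]; exact hroots j (Finset.mem_insert_self j Q))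
    obtain ⟨E₂, hE₂⟩ := exists_levelCast (D.dvd_N hND) (thetaRep (L := L) θ X) pr
      (resIdeal (Function.update (Q.piecewise α a) j (α j))) (M' := M')
      (by rw [hM', show D.N = D.L * D.q from rfl, hDL, hDq, hM₁]; ring) hNM'
    rw [Finset.piecewise_insert]
    refine ⟨((Φ.trans E₁).trans S).trans E₂, fun p z => ?_⟩
    have h₁ : rename Subtype.val p = (rename Subtype.val
        (rename (fun i : {i // i ∉ insert j Q} =>
          (⟨i.1, fun hi => i.2 (Finset.mem_insert_of_mem hi)⟩ : {i // i ∉ Q})) p) :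
          MvPolynomial ι R) := by
      rw [rename_rename]; rfl
    have h₂ : rename Subtype.val p = (rename Subtype.val
        (rename (fun i : {i // i ∉ insert j Q} =>
          (⟨i.1, fun hi => i.2 (by rw [hi]; exact Finset.mem_insert_self j Q)⟩ : {i // i ≠ j})) p) :
          MvPolynomial ι R) := by
      rw [rename_rename]; rfl
    simp only [LinearEquiv.trans_apply]
    conv_lhs => rw [h₁, hΦ, hE₁, ← h₁, h₂, hS, hE₂, ← h₂]

end Iterate

end FermatAgent.HM
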