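import Fermat.Agent.HM.H1.Finite
import Mathlib.RingTheory.FiniteLength
import Mathlib.RingTheory.Length
import Mathlib.RingTheory.LocalRing.Module
import Mathlib.RingTheory.Nakayama
import Mathlib.RingTheory.Artinian.Module

/-!
# Freeness of the localised Hecke module over the coefficient ring

An exact functor takes a module of length `m` to one of length `d m`, so the value at `R` is free.
-/

set_option autoImplicit false

noncomputable section

open scoped MatrixGroups
open CongruenceSubgroup MvPolynomial IsLocalRing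

namespace FermatAgent.HM

variable {R : Type} [CommRing R] [IsLocalRing R] [IsNoetherianRing R]
  [IsAdicComplete (maximalIdeal R) R] {N L M : ℕ} [NeZero M] {ι : Type}
  {hNM : N ∣ M} {θ : (ZMod N)ˣ →* R} {pr : ι → HPrime L}
  {𝔪 : Ideal (MvPolynomial ι R)} [𝔪.IsMaximal]

omit [IsNoetherianRing R] [IsAdicComplete (maximalIdeal R) R] in
/-- The length of the value on a finite length module. -/
theorem length_thetaLoc (h : NonEis hNM θ pr 𝔪) (X : Type) [AddCommGroup X] [Module R X]
    (hX : IsFiniteLength R X) :
    Module.length R (ThetaLoc hNM θ pr 𝔪 X) =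
      Module.length R (ThetaLoc hNM θ pr 𝔪 (R ⧸ maximalIdeal R)) * Module.length R X := by
  induction hX with
  | @of_subsingleton Y _ _ _ =>
    have hid : ∀ z : ThetaLoc hNM θ pr 𝔪 Y, z = 0 := fun z => by
      rw [← thetaMap_id z, show (LinearMap.id : Y →ₗ[R] Y) = 0 from
        LinearMap.ext fun x => Subsingleton.elim _ _, thetaMap_zero]
    have : Subsingleton (ThetaLoc hNM θ pr 𝔪 Y) := ⟨fun a b => by rw [hid a, hid b]⟩
    simp [Module.length_eq_zero]
  | @of_simple_quotient Y _ _ N₀ _ _ ih =>
    obtain ⟨I, hI, ⟨e⟩⟩ := (isSimpleModule_iff_quot_maximal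
      (R := R) (M := Y ⧸ N₀)).mp inferInstance
    obtain rfl : I = maximalIdeal R := IsLocalRing.eq_maximalIdeal hI
    rw [Module.length_eq_add_of_exact (thetaMap hNM θ pr 𝔪 N₀.subtype)
        (thetaMap hNM θ pr 𝔪 N₀.mkQ) (thetaMap_injective h N₀.injective_subtype)
        (thetaMap_surjective h N₀.mkQ_surjective)
        (thetaMap_exact N₀.injective_subtype N₀.mkQ_surjective (LinearMap.exact_subtype_mkQ _)),
      Module.length_eq_add_of_exact N₀.subtype N₀.mkQ N₀.injective_subtype N₀.mkQ_surjective
        (LinearMap.exact_subtype_mkQ _),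
      Module.length_eq_one R (Y ⧸ N₀), ih,
      (thetaEquiv (hNM := hNM) (θ := θ) (pr := pr) (𝔪 := 𝔪) e).length_eq, mul_add, mul_one]

/-- Reduction commutes with the localised Hecke module: `Θ(R) / I Θ(R) = Θ(R / I)`. -/
def thetaQuotEquiv (h : NonEis hNM θ pr 𝔪) (I : Ideal R) :
    (ThetaLoc hNM θ pr 𝔪 R ⧸ I • (⊤ : Submodule R (ThetaLoc hNM θ pr 𝔪 R))) ≃ₗ[R]
      ThetaLoc hNM θ pr 𝔪 (R ⧸ I) :=
  (Submodule.quotEquivOfEq _ _ (ker_thetaMap_mkQ h (IsNoetherian.noetherian I)).symm).trans
    ((thetaMap hNM θ pr 𝔪 (Submodule.mkQ I)).quotKerEquivOfSurjective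
      (thetaMap_surjective h I.mkQ_surjective))

/-- The localised Hecke module with coefficients `R` has as many generators as the length of its
value on the residue field. -/
theorem exists_span_thetaLoc_eq_top (h : NonEis hNM θ pr 𝔪) :
    ∃ (d : ℕ) (s : Fin d → ThetaLoc hNM θ pr 𝔪 R), Submodule.span R (Set.range s) = ⊤ ∧
      Module.length R (ThetaLoc hNM θ pr 𝔪 (R ⧸ maximalIdeal R)) = d := by
  set F := ThetaLoc hNM θ pr 𝔪 R
  set I := maximalIdeal R
  have : Module.Finite R F := moduleFinite_thetaLoc R
  let K := R ⧸ I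
  let : Field K := Ideal.Quotient.field I
  have : Module.Finite K (F ⧸ I • (⊤ : Submodule R F)) :=
    Module.Finite.of_restrictScalars_finite R K _
  let bk := Module.finBasis K (F ⧸ I • (⊤ : Submodule R F))
  choose s hs using fun i => Submodule.mkQ_surjective (I • (⊤ : Submodule R F)) (bk i)
  refine ⟨_, s, ?_, ?_⟩
  · rw [← IsLocalRing.map_mkQ_eq_top, Submodule.map_span, ← Set.range_comp,
      show (I • (⊤ : Submodule R F)).mkQ ∘ s = bk from funext hs,
      ← Submodule.restrictScalars_span R K Ideal.Quotient.mk_surjective, bk.span_eq,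
      Submodule.restrictScalars_top]
  · rw [← (thetaQuotEquiv h I).length_eq, (bk.equivFun.restrictScalars R).length_eq,
      Module.length_pi]
    have : IsSimpleModule R K :=
      isSimpleModule_iff_quot_maximal.mpr ⟨I, inferInstance, ⟨LinearEquiv.refl R _⟩⟩
    rw [Module.length_eq_one R K, ENat.card_eq_coe_fintype_card, Fintype.card_fin, mul_one]

/-- **Freeness of the localised Hecke module.** For a complete Noetherian local ring `R`, a
non-Eisenstein maximal ideal, and a regular element `x` of the maximal ideal with `R / x` of finite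
length, the localised Hecke module with coefficients in `R` is free over `R`. It has `d` generators,
`d` its length at the residue field; they are independent modulo `x`, since the value at `R / x` has
`d` times the length of `R / x`, hence independent, `x` being regular. -/
theorem free_thetaLoc (h : NonEis hNM θ pr 𝔪) {x : R} (hx : x ∈ maximalIdeal R)
    (hreg : Function.Injective fun r : R => x * r)
    (hlen : IsFiniteLength R (R ⧸ Ideal.span {x})) :
    Module.Free R (ThetaLoc hNM θ pr 𝔪 R) := by
  set F := ThetaLoc hNM θ pr 𝔪 R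
  set J := Ideal.span {x}
  obtain ⟨d, s, hs, hlenk⟩ := exists_span_thetaLoc_eq_top h
  let φ : (Fin d → R) →ₗ[R] F := Fintype.linearCombination R s
  have hφ : Function.Surjective φ := by
    rw [← LinearMap.range_eq_top, Fintype.range_linearCombination, hs]
  -- multiplication by `x` is injective
  have hxF : Function.Injective fun z : F => x • z := fun a b hab => by
    refine thetaMap_injective (pr := pr) (𝔪 := 𝔪) h (f := (x • LinearMap.id : R →ₗ[R] R))
      hreg ?_
    rw [thetaMap_smul_id, thetaMap_smul_id]
    exact hab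
  -- the generators are independent modulo `x`
  let ψ : (Fin d → R ⧸ J) →ₗ[R] ThetaLoc hNM θ pr 𝔪 (R ⧸ J) :=
    (thetaQuotEquiv h J).toLinearMap ∘ₗ (Fintype.linearCombination (R ⧸ J)
      fun i => (Submodule.Quotient.mk (s i) : F ⧸ (J • (⊤ : Submodule R F)))).restrictScalars R
  have hψ : ∀ c : Fin d → R,
      ψ (fun i => Ideal.Quotient.mk J (c i)) = thetaMap hNM θ pr 𝔪 (Submodule.mkQ J) (φ c) := by
    intro c
    have h1 : Fintype.linearCombination (R ⧸ J)
        (fun i => (Submodule.Quotient.mk (s i) : F ⧸ (J • (⊤ : Submodule R F))))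
        (fun i => Ideal.Quotient.mk J (c i)) = Submodule.Quotient.mk (φ c) := by
      simp only [φ, Fintype.linearCombination_apply]
      rw [← Submodule.mkQ_apply, map_sum]
      exact Finset.sum_congr rfl fun i _ => by
        rw [map_smul, ← Ideal.Quotient.algebraMap_eq, algebraMap_smul]; rfl
    simp only [ψ, LinearMap.comp_apply, LinearMap.restrictScalars_apply, h1]
    rfl
  have hψs : Function.Surjective ψ := fun w => by
    obtain ⟨z, rfl⟩ := thetaMap_surjective h J.mkQ_surjective w
    obtain ⟨c, rfl⟩ := hφ z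
    exact ⟨_, hψ c⟩
  have hψi : Function.Injective ψ := by
    have hl := Module.length_eq_add_of_exact (LinearMap.ker ψ).subtype ψ
      (Submodule.injective_subtype _) hψs (LinearMap.exact_subtype_ker_map ψ)
    rw [length_thetaLoc h _ hlen, hlenk, Module.length_pi, ENat.card_eq_coe_fintype_card,
      Fintype.card_fin] at hl
    rw [← LinearMap.ker_eq_bot, ← Submodule.subsingleton_iff_eq_bot]
    refine (Module.length_eq_zero_iff (R := R)).mp ?_
    have hfin : ((d : ℕ∞) * Module.length R (R ⧸ J)) ≠ ⊤ :=
      WithTop.mul_ne_top (ENat.natCast_ne_top d) (Module.length_ne_top_iff.mpr hlen)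
    exact (ENat.addLECancellable_of_ne_top hfin).inj (a := _) (c := 0) |>.mp (by
      rw [add_zero, add_comm]; exact hl.symm)
  have hφi : Function.Injective φ := by
    rw [← LinearMap.ker_eq_bot]
    refine Submodule.eq_bot_of_le_smul_of_le_jacobson_bot (maximalIdeal R) _
      (IsNoetherian.noetherian _) ?_
      (IsLocalRing.jacobson_eq_maximalIdeal ⊥ bot_ne_top).ge
    intro c hc
    rw [LinearMap.mem_ker] at hc
    have h0 : ψ (fun i => Ideal.Quotient.mk J (c i)) = 0 := by rw [hψ, hc, map_zero]
    have hc0 := congrFun (hψi (h0.trans (map_zero ψ).symm))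
    have hdiv : ∀ i, ∃ w, x * w = c i := fun i => by
      obtain ⟨w, hw⟩ := Ideal.mem_span_singleton.mp (Ideal.Quotient.eq_zero_iff_mem.mp (hc0 i))
      exact ⟨w, hw.symm⟩
    choose w hw using hdiv
    have hcw : c = x • w := funext fun i => (hw i).symm
    have hw0 : φ w = 0 := hxF (by simp only [smul_zero, ← map_smul, ← hcw, hc])
    rw [hcw]
    exact Submodule.smul_mem_smul hx hw0
  exact Module.Free.of_equiv (LinearEquiv.ofBijective φ ⟨hφi, hφ⟩)

end FermatAgent.HM
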