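import Fermat.Agent.HM.H1.TaylorWiles
import Fermat.Agent.HM.H1.Free

/-!
# Modules of auxiliary level

The module of auxiliary level with diamond coefficients modulo the augmentation is the module of
the base level.
-/

set_option autoImplicit false

noncomputable section

open scoped MatrixGroups
open CongruenceSubgroup MvPolynomial IsLocalRing

namespace FermatAgent.HM

variable {R R' : Type} [CommRing R] [CommRing R'] [Algebra R R'] [IsLocalRing R] [IsLocalRing R']

lemma comap_maximalIdeal_of_surjective (hsurj : Function.Surjective (algebraMap R R')) :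
    (maximalIdeal R').comap (algebraMap R R') = maximalIdeal R :=
  IsLocalRing.eq_maximalIdeal (Ideal.comap_isMaximal_of_surjective _ hsurj)

lemma comap_map_resIdeal {ι : Type} (hsurj : Function.Surjective (algebraMap R R'))
    (a : ι → R) (b : ι → R') (hab : ∀ i, algebraMap R R' (a i) - b i ∈ maximalIdeal R') :
    (resIdeal b).comap (MvPolynomial.map (algebraMap R R')) = resIdeal a := by
  rw [← resIdeal_congr hab]
  ext p
  rw [Ideal.mem_comap, mem_resIdeal, mem_resIdeal, ← comap_maximalIdeal_of_surjective hsurj,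
    Ideal.mem_comap]
  rw [MvPolynomial.aeval_map_algebraMap, ← Function.comp_def, MvPolynomial.aeval_algebraMap_apply]

variable [IsNoetherianRing R] [IsNoetherianRing R'] [IsAdicComplete (maximalIdeal R') R']
variable {N N₀ L M M' : ℕ} {ι : Type}

/-- `M_Q` modulo the augmentation is `M`. -/
theorem exists_auxiliary_quotient [NeZero M] [NeZero M'] [DecidableEq ι]
    (hsurj : Function.Surjective (algebraMap R R'))
    {θ : (ZMod N)ˣ →* R} {θ₀ : (ZMod N₀)ˣ →* R'} (hN₀ : N₀ ∣ N)
    (hθ : pushChar R' θ = inflateChar hN₀ θ₀) {pr : ι → HPrime L}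
    (hN₀M : N₀ ∣ M) (hNM' : N ∣ M') (Q : Finset ι)
    (hq : ∀ i ∈ Q, ¬ ((pr i).1.1 : ℕ) ∣ M)
    (hinj : ∀ i ∈ Q, ∀ j, pr j = pr i → j = i)
    (hM' : M' = M * ∏ i ∈ Q, ((pr i).1.1 : ℕ))
    (a₀ α β : ι → R') (hroots : ∀ i ∈ Q, TWRoots θ₀ (pr i).1.1 (a₀ i) (α i) (β i))
    (a : ι → R) (ha : ∀ i, algebraMap R R' (a i) - Q.piecewise α a₀ i ∈ maximalIdeal R')
    (h : NonEis hNM' θ pr (resIdeal a)) :
    ∃ π : ThetaLoc hNM' θ pr (resIdeal a) R →+ ThetaLoc hN₀M θ₀ pr (resIdeal a₀) R',
      Function.Surjective π ∧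
      (∀ (r : R) x, π (r • x) = algebraMap R R' r • π x) ∧
      (∀ (p : MvPolynomial {i // i ∉ Q} R) x, π (rename Subtype.val p • x) =
        rename Subtype.val (MvPolynomial.map (algebraMap R R') p) • π x) ∧
      ∀ x, π x = 0 ↔ x ∈ RingHom.ker (algebraMap R R') •
        (⊤ : Submodule R (ThetaLoc hNM' θ pr (resIdeal a) R)) := by
  have hcm := comap_map_resIdeal hsurj a (Q.piecewise α a₀) ha
  have key : ∀ (I : Ideal (MvPolynomial ι R)) [I.IsPrime] (θ' : (ZMod N)ˣ →* R'),
      (resIdeal (Q.piecewise α a₀)).comap (MvPolynomial.map (algebraMap R R')) = I →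
      pushChar R' θ = θ' → NonEis hNM' θ pr I →
      ∃ π : ThetaLoc hNM' θ pr I R →+
          ThetaLoc hNM' θ' pr (resIdeal (Q.piecewise α a₀)) R',
        Function.Surjective π ∧
        (∀ (t : MvPolynomial ι R) x, π (t • x) = MvPolynomial.map (algebraMap R R') t • π x) ∧
        ∀ x, π x = 0 ↔ x ∈ RingHom.ker (algebraMap R R') •
          (⊤ : Submodule R (ThetaLoc hNM' θ pr I R)) := by
    intro I _ θ' hI hθ' hI'
    subst hI
    subst hθ'
    exact exists_baseChange hNM' hsurj _ hI' (IsNoetherian.noetherian _)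
  obtain ⟨π, hπs, hπ, hπk⟩ := key (resIdeal a) _ hcm hθ h
  obtain ⟨E, hE⟩ := exists_inflateEquiv (X := R') hN₀ hNM' θ₀ pr (resIdeal (Q.piecewise α a₀))
  obtain ⟨Φ, hΦ⟩ := exists_tw_iso (X := R') (θ := θ₀) hN₀M a₀ α β Q hq hinj hroots hM'
    (hN₀.trans hNM')
  refine ⟨(E.trans Φ.symm).toAddMonoidHom.comp π, (E.trans Φ.symm).surjective.comp hπs,
    fun r x => ?_, fun p x => ?_, fun x => ?_⟩
  · simp only [AddMonoidHom.comp_apply, LinearMap.toAddMonoidHom_coe, LinearEquiv.coe_coe]
    rw [← algebraMap_smul (MvPolynomial ι R) r x, hπ, algebraMap_eq, map_C, ← algebraMap_eq,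
      algebraMap_smul, map_smul]
  · simp only [AddMonoidHom.comp_apply, LinearMap.toAddMonoidHom_coe, LinearEquiv.coe_coe,
      LinearEquiv.trans_apply]
    rw [hπ, map_rename, hE]
    refine Φ.injective ?_
    rw [hΦ, LinearEquiv.apply_symm_apply, LinearEquiv.apply_symm_apply]
  · simp only [AddMonoidHom.comp_apply, LinearMap.toAddMonoidHom_coe, LinearEquiv.coe_coe,
      EmbeddingLike.map_eq_zero_iff, hπk]

end FermatAgent.HM
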