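import Mathlib.LinearAlgebra.Basis.Basic
import Mathlib.RingTheory.Ideal.Operations
import Mathlib.RingTheory.Ideal.Maps

/-!
# Bases and reduction

A semilinear reduction of a free module carries a basis to a basis.
-/

set_option autoImplicit false

noncomputable section

open Module

namespace FermatAgent.HM

variable {R : Type*} [CommRing R] {R' : Type*} [CommRing R'] (f : R →+* R')
variable {Mbar : Type*} [AddCommGroup Mbar] [Module R' Mbar]

/-- An additive map, semilinear along `f`, with kernel `I M`. -/
structure IsReduction {M : Type*} [AddCommGroup M] [Module R M] (π : M →+ Mbar) (I : Ideal R) :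
    Prop where
  surjective : Function.Surjective π
  map_smul : ∀ (r : R) x, π (r • x) = f r • π x
  ker : ∀ x, π x = 0 ↔ x ∈ I • (⊤ : Submodule R M)

variable {f} {M : Type*} [AddCommGroup M] [Module R M] {π : M →+ Mbar} {I : Ideal R}

/-- A reduction sends a combination to the combination of the reductions. -/
lemma IsReduction.map_sum (hπ : IsReduction f π I) {n : Type*} (s : Finset n) (c : n → R)
    (v : n → M) : π (∑ i ∈ s, c i • v i) = ∑ i ∈ s, f (c i) • π (v i) := by
  rw [_root_.map_sum]
  exact Finset.sum_congr rfl fun i _ => hπ.map_smul _ _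

lemma repr_mem_of_mem_smul_top {n : Type*} (b : Basis n R M) {x : M}
    (hx : x ∈ I • (⊤ : Submodule R M)) (i : n) : b.repr x i ∈ I := by
  refine Submodule.smul_induction_on hx (fun r hr y _ => ?_) fun x y hx hy => ?_
  · simpa using I.mul_mem_right (b.repr y i) hr
  · simpa using I.add_mem hx hy

/-- The images of a basis form a basis of the reduction. -/
theorem IsReduction.exists_basis (hπ : IsReduction f π I) (hf : Function.Surjective f)
    (hI : I = RingHom.ker f) {n : Type*} [Fintype n] (b : Basis n R M) :
    ∃ b' : Basis n R' Mbar, ∀ i, b' i = π (b i) := by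
  have hspan : ⊤ ≤ Submodule.span R' (Set.range fun i => π (b i)) := by
    intro y _
    obtain ⟨x, rfl⟩ := hπ.surjective y
    rw [← b.sum_repr x, hπ.map_sum]
    exact Submodule.sum_mem _ fun i _ =>
      Submodule.smul_mem _ _ (Submodule.subset_span ⟨i, rfl⟩)
  have hli : LinearIndependent R' fun i => π (b i) := by
    rw [Fintype.linearIndependent_iff]
    intro g hg i
    choose c hc using fun i => hf (g i)
    have h0 : π (∑ i, c i • b i) = 0 := by
      rw [hπ.map_sum]
      simpa [hc] using hg
    have h1 := repr_mem_of_mem_smul_top b ((hπ.ker _).mp h0) i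
    rw [b.repr_sum_self, hI, RingHom.mem_ker, hc] at h1
    exact h1
  exact ⟨Basis.mk hli hspan, fun i => Basis.mk_apply hli hspan i⟩

end FermatAgent.HM
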