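import Fermat.Agent.HM.H1.Levels
import Mathlib.RingTheory.MvPolynomial.Basic
import Mathlib.Algebra.Algebra.Subalgebra.Lattice
import Mathlib.Algebra.Module.LocalizedModule.Exact
import Mathlib.GroupTheory.Schreier
import Mathlib.RingTheory.Ideal.Maximal
import Mathlib.NumberTheory.ModularForms.CongruenceSubgroups

/-!
# Hecke modules and their localisations

The first cohomology of `Γ₀(M)` as a module over the polynomial ring in a family of Hecke
operators, and its localisation at a prime ideal.
-/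

set_option autoImplicit false

noncomputable section

open scoped MatrixGroups
open CongruenceSubgroup MvPolynomial

namespace FermatAgent.HM

instance instGroupFGSL2Z : Group.FG SL(2, ℤ) :=
  Group.fg_iff.mpr ⟨{ModularGroup.S, ModularGroup.T},
    SpecialLinearGroup.SL2Z_generators, (Set.finite_singleton _).insert _⟩

/-- Primes prime to `L`. -/
def HPrime (L : ℕ) := {p : Nat.Primes // p.1.Coprime L}

variable {R : Type*} [CommRing R] {N L M : ℕ}
variable {X : Type*} [AddCommGroup X] [Module R X]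

/-- First cohomology of `Γ₀(M)` with coefficients in `ρ`. -/
abbrev H1G (hNM : N ∣ M) (ρ : Representation R (sigma0 N L) X) :=
  H1 (resRep (actsIn_gamma0 (L := L) hNM) ρ)

/-- The operator at a prime. -/
def heckeEnd (hNM : N ∣ M) (ρ : Representation R (sigma0 N L) X) (p : HPrime L) :
    Module.End R (H1G hNM ρ) :=
  haveI : Fact p.1.1.Prime := ⟨p.1.2⟩
  (heckeCorr hNM p.2).op (actsIn_gamma0 hNM) (actsIn_gamma0 hNM) ρ

/-- The operator at a prime on invariants. -/
def hecke0 (_hNM : N ∣ M) (ρ : Representation R (sigma0 N L) X) (p : HPrime L) :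
    Module.End R X :=
  haveI : Fact p.1.1.Prime := ⟨p.1.2⟩
  (heckeCorr (M := M) _hNM p.2).op0 ρ

/-- Hecke operators commute on cohomology. -/
theorem heckeEnd_comm (hNM : N ∣ M) (ρ : Representation R (sigma0 N L) X) (p r : HPrime L) :
    Commute (heckeEnd hNM ρ p) (heckeEnd hNM ρ r) := by
  have : Fact p.1.1.Prime := ⟨p.1.2⟩
  have : Fact r.1.1.Prime := ⟨r.1.2⟩
  exact LinearMap.ext fun z => heckeCorr_op_comm hNM p.2 r.2 ρ z

variable {ι : Type} (pr : ι → HPrime L)

/-- First cohomology as a module over the abstract Hecke algebra. -/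
def HeckeH1 (hNM : N ∣ M) (_pr : ι → HPrime L) (ρ : Representation R (sigma0 N L) X) :=
  H1G hNM ρ

variable (hNM : N ∣ M) (ρ : Representation R (sigma0 N L) X)

instance instAddCommGroupHeckeH1 : AddCommGroup (HeckeH1 hNM pr ρ) :=
  inferInstanceAs (AddCommGroup (H1G hNM ρ))

instance instModuleHeckeH1 : Module R (HeckeH1 hNM pr ρ) :=
  inferInstanceAs (Module R (H1G hNM ρ))

/-- The identity to the twisted module. -/
def toHeckeH1 : H1G hNM ρ ≃ₗ[R] HeckeH1 hNM pr ρ := LinearEquiv.refl R _

/-- The action of the abstract Hecke algebra. -/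
def heckeHom : MvPolynomial ι R →ₐ[R] Module.End R (H1G hNM ρ) :=
  haveI := Algebra.isMulCommutative_adjoin R (s := Set.range fun i => heckeEnd hNM ρ (pr i))
    (by rintro _ ⟨i, rfl⟩ _ ⟨j, rfl⟩; exact heckeEnd_comm hNM ρ (pr i) (pr j))
  open scoped IsMulCommutative in
  (Algebra.adjoin R (Set.range fun i => heckeEnd hNM ρ (pr i))).val.comp
    (aeval fun i => ⟨heckeEnd hNM ρ (pr i), Algebra.subset_adjoin ⟨i, rfl⟩⟩)

/-- A variable acts as its Hecke operator. -/
@[simp] lemma heckeHom_X (i : ι) :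
    heckeHom pr hNM ρ (MvPolynomial.X i) = heckeEnd hNM ρ (pr i) := by
  simp [heckeHom]

instance instModuleMvHeckeH1 : Module (MvPolynomial ι R) (HeckeH1 hNM pr ρ) :=
  Module.compHom (H1G hNM ρ) (heckeHom pr hNM ρ).toRingHom

/-- The polynomial action on the Hecke module is the Hecke homomorphism. -/
lemma mv_smul_def (t : MvPolynomial ι R) (z : HeckeH1 hNM pr ρ) :
    t • z = toHeckeH1 pr hNM ρ (heckeHom pr hNM ρ t ((toHeckeH1 pr hNM ρ).symm z)) := rfl

/-- Constant polynomials act as scalars. -/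
lemma C_smul_eq (r : R) (z : HeckeH1 hNM pr ρ) : (C r : MvPolynomial ι R) • z = r • z := by
  rw [mv_smul_def, ← algebraMap_eq, AlgHom.commutes, Module.algebraMap_end_apply]
  rfl

instance instIsScalarTowerHeckeH1 : IsScalarTower R (MvPolynomial ι R) (HeckeH1 hNM pr ρ) where
  smul_assoc r t z := by
    rw [MvPolynomial.smul_eq_C_mul, mul_smul, C_smul_eq]

/-- A variable acts on the class of a cocycle through the Hecke correspondence. -/
lemma X_smul_mk (i : ι) (c : Z1 (resRep (actsIn_gamma0 (L := L) hNM) ρ)) :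
    haveI : Fact (pr i).1.1.Prime := ⟨(pr i).1.2⟩
    (MvPolynomial.X i : MvPolynomial ι R) • toHeckeH1 pr hNM ρ
        (H1.mk (resRep (actsIn_gamma0 (L := L) hNM) ρ) c) =
      toHeckeH1 pr hNM ρ (H1.mk (resRep (actsIn_gamma0 (L := L) hNM) ρ)
        ((heckeCorr hNM (pr i).2).opZ (actsIn_gamma0 hNM) (actsIn_gamma0 hNM) ρ c)) := by
  rw [mv_smul_def, LinearEquiv.symm_apply_apply, heckeHom_X]
  rfl

section Functorial

variable {Y : Type*} [AddCommGroup Y] [Module R Y] {σ : Representation R (sigma0 N L) Y}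
variable {W : Type*} [AddCommGroup W] [Module R W] {τ : Representation R (sigma0 N L) W}

/-- A coefficient map compatible with the monoid action. -/
def IsHeckeEquiv (ρ : Representation R (sigma0 N L) X) (σ : Representation R (sigma0 N L) Y)
    (f : X →ₗ[R] Y) : Prop :=
  ∀ s x, f (ρ s x) = σ s (f x)

/-- The map induced on cohomology, linear over the abstract Hecke algebra. -/
def heckeMap (f : X →ₗ[R] Y) (hf : IsHeckeEquiv ρ σ f) :
    HeckeH1 hNM pr ρ →ₗ[MvPolynomial ι R] HeckeH1 hNM pr σ where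
  toFun z := toHeckeH1 pr hNM σ
    (H1.map f (Corr.isEquiv_resRep ρ hf _) ((toHeckeH1 pr hNM ρ).symm z))
  map_add' z w := by simp only [map_add]
  map_smul' t z := by
    simp only [RingHom.id_apply, mv_smul_def, LinearEquiv.symm_apply_apply]
    congr 1
    induction t using MvPolynomial.induction_on generalizing z with
    | C a =>
      simp only [← algebraMap_eq, AlgHom.commutes, Module.algebraMap_end_apply, map_smul]
    | add t u ht hu => simp only [map_add, LinearMap.add_apply, ht, hu]
    | mul_X t i ht =>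
      have : Fact (pr i).1.1.Prime := ⟨(pr i).1.2⟩
      simp only [map_mul, heckeHom_X, Module.End.mul_apply]
      have h := ht (toHeckeH1 pr hNM ρ (heckeEnd hNM ρ (pr i) ((toHeckeH1 pr hNM ρ).symm z)))
      simp only [LinearEquiv.symm_apply_apply] at h
      rw [h]
      congr 1
      exact (heckeCorr hNM (pr i).2).op_natural (actsIn_gamma0 hNM) (actsIn_gamma0 hNM) ρ hf _

/-- The map of Hecke modules is computed on cocycles. -/
lemma heckeMap_mk (f : X →ₗ[R] Y) (hf : IsHeckeEquiv ρ σ f)
    (c : Z1 (resRep (actsIn_gamma0 (L := L) hNM) ρ)) :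
    heckeMap pr hNM ρ f hf (toHeckeH1 pr hNM ρ (H1.mk (resRep (actsIn_gamma0 (L := L) hNM) ρ) c)) =
      toHeckeH1 pr hNM σ
        (H1.mk (resRep (actsIn_gamma0 (L := L) hNM) σ) (mapZ f (Corr.isEquiv_resRep ρ hf _) c)) :=
  rfl

variable (f : X →ₗ[R] Y) (hf : IsHeckeEquiv ρ σ f) (g : Y →ₗ[R] W) (hg : IsHeckeEquiv σ τ g)

lemma heckeMap_exact (hfg : Function.Exact f g) (hfi : Function.Injective f)
    (hgs : Function.Surjective g) :
    Function.Exact (heckeMap pr hNM ρ f hf) (heckeMap pr hNM σ g hg) :=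
  fun z => H1.map_exact f (Corr.isEquiv_resRep ρ hf _) g (Corr.isEquiv_resRep σ hg _) hfg hfi hgs z

variable (𝔪 : Ideal (MvPolynomial ι R)) [𝔪.IsPrime]

/-- The localised cohomology. -/
abbrev HeckeLoc := LocalizedModule 𝔪.primeCompl (HeckeH1 hNM pr ρ)

/-- The map on localised cohomology. -/
def locMap : HeckeLoc pr hNM ρ 𝔪 →ₗ[MvPolynomial ι R] HeckeLoc pr hNM σ 𝔪 :=
  IsLocalizedModule.map 𝔪.primeCompl (LocalizedModule.mkLinearMap _ _)
    (LocalizedModule.mkLinearMap _ _) (heckeMap pr hNM ρ f hf)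

/-- The maps of localised Hecke modules induced by a short exact sequence are exact in the
middle. -/
lemma locMap_exact (hfg : Function.Exact f g) (hfi : Function.Injective f)
    (hgs : Function.Surjective g) :
    Function.Exact (locMap pr hNM ρ f hf 𝔪) (locMap pr hNM σ g hg 𝔪) :=
  LocalizedModule.map_exact 𝔪.primeCompl _ _
    (heckeMap_exact pr hNM ρ f hf g hg hfg hfi hgs)

/-- Surjective coefficient maps give surjective maps of localised cohomology. -/
lemma locMap_surjective (hs : Function.Surjective (heckeMap pr hNM ρ f hf)) :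
    Function.Surjective (locMap pr hNM ρ f hf 𝔪) :=
  IsLocalizedModule.map_surjective _ _ _ _ hs

/-- If `X_i - a` is outside `𝔪` and kills the invariants of the cokernel, the injective
coefficient map stays injective on localised cohomology. -/
theorem locMap_injective (hfg : Function.Exact f g) (hfi : Function.Injective f) (i : ι) (a : R)
    (hne : MvPolynomial.X i - C a ∉ 𝔪)
    (hEis : ∀ w ∈ (resRep (actsIn_gamma0 (L := L) hNM) τ).invariants,
      hecke0 hNM τ (pr i) w = a • w)
    (hg : IsHeckeEquiv σ τ g) :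
    Function.Injective (locMap pr hNM ρ f hf 𝔪) := by
  have : Fact (pr i).1.1.Prime := ⟨(pr i).1.2⟩
  rw [injective_iff_map_eq_zero]
  intro z
  induction z using LocalizedModule.induction_on with
  | _ z s =>
    intro hz
    rw [locMap, IsLocalizedModule.mk_eq_mk', IsLocalizedModule.map_mk',
      IsLocalizedModule.mk'_eq_zero'] at hz
    obtain ⟨u, hu⟩ := hz
    rw [Submonoid.smul_def, ← map_smul] at hu
    obtain ⟨c, hc⟩ := H1.mk_surjective ((toHeckeH1 pr hNM ρ).symm ((u : MvPolynomial ι R) • z))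
    have hc' : toHeckeH1 pr hNM ρ (H1.mk (resRep (actsIn_gamma0 (L := L) hNM) ρ) c) =
        (u : MvPolynomial ι R) • z := by
      rw [hc, LinearEquiv.apply_symm_apply]
    have hzero : H1.map f (Corr.isEquiv_resRep ρ hf _)
        (H1.mk (resRep (actsIn_gamma0 (L := L) hNM) ρ) c) = 0 := by
      rw [← hc', heckeMap_mk] at hu
      exact (toHeckeH1 pr hNM σ).map_eq_zero_iff.mp hu
    obtain ⟨y, hy, hinv⟩ := exists_of_map_eq_zero f _ g (Corr.isEquiv_resRep σ hg _) hfg hzero
    set D := heckeCorr hNM (pr i).2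
    obtain ⟨x, hx⟩ : ∃ x, f x = D.op0 σ y - a • y := by
      refine (hfg _).mp ?_
      rw [map_sub, map_smul, D.op0_natural σ hg, sub_eq_zero]
      exact hEis _ hinv
    have hkill : (MvPolynomial.X i - C a : MvPolynomial ι R) •
        toHeckeH1 pr hNM ρ (H1.mk (resRep (actsIn_gamma0 (L := L) hNM) ρ) c) = 0 := by
      rw [sub_smul, X_smul_mk, C_smul_eq, ← map_smul (toHeckeH1 pr hNM ρ), ← map_sub,
        LinearEquiv.map_eq_zero_iff, ← map_smul, ← map_sub, H1.mk_eq_zero_iff]
      refine ⟨x, Subtype.ext <| funext fun γ => hfi ?_⟩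
      have e1 : f ((D.opZ (actsIn_gamma0 hNM) (actsIn_gamma0 hNM) ρ c).1 γ) =
          resRep (actsIn_gamma0 hNM) σ γ (D.op0 σ y) - D.op0 σ y := by
        have := congrFun (congrArg Subtype.val
          (D.opZ_natural (actsIn_gamma0 hNM) (actsIn_gamma0 hNM) ρ hf c)) γ
        rw [← hy, D.opZ_d0] at this
        simpa using this
      have e2 : f (c.1 γ) = resRep (actsIn_gamma0 hNM) σ γ y - y :=
        (congrFun (congrArg Subtype.val hy) γ).symm
      simp only [d0_apply, Submodule.coe_sub, Submodule.coe_smul, Pi.sub_apply, Pi.smul_apply,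
        map_sub, map_smul, e2, Corr.isEquiv_resRep ρ hf _ γ x, hx]
      rw [e1, smul_sub]
      abel
    rw [IsLocalizedModule.mk_eq_mk', IsLocalizedModule.mk'_eq_zero']
    refine ⟨⟨_, hne⟩ * u, ?_⟩
    rw [Submonoid.smul_def, Submonoid.coe_mul, mul_smul, ← hc']
    exact hkill

end Functorial

end FermatAgent.HM
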