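import Fermat.Agent.HM.H1.DegeneracyComm
import Fermat.Agent.HM.H1.Localise

/-!
# Identities at the level of Hecke modules

Both levels as modules over the polynomial ring in `q` and the other primes.
-/

set_option autoImplicit false

noncomputable section

open scoped MatrixGroups
open CongruenceSubgroup MvPolynomial

namespace FermatAgent.HM

namespace ALData

variable (D : ALData) {N L : ℕ} {R : Type*} [CommRing R]
variable {X : Type*} [AddCommGroup X] [Module R X]
variable (θ : (ZMod N)ˣ →* R) (hN : N ∣ D.L) (hqL : D.q.Coprime L)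
variable {ι : Type} (pr : ι → HPrime L)

/-- The family of primes extended by `q`. -/
def extPr : Option ι → HPrime L := fun o => o.elim ⟨⟨D.q, D.prime⟩, hqL⟩ pr

/-- The Hecke module at level `L`. -/
abbrev LowMod (θ : (ZMod N)ˣ →* R) (X : Type*) [AddCommGroup X] [Module R X] :=
  HeckeH1 hN (D.extPr hqL pr) (thetaRep (L := L) θ X)

/-- The Hecke module at level `N`. -/
abbrev HighMod (θ : (ZMod N)ˣ →* R) (X : Type*) [AddCommGroup X] [Module R X] :=
  HeckeH1 (D.dvd_N hN) (D.extPr hqL pr) (thetaRep (L := L) θ X)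

/-- Restriction. -/
def resMod : D.LowMod hN hqL pr θ X →ₗ[R] D.HighMod hN hqL pr θ X := D.resOp θ hN

/-- Corestriction. -/
def corMod : D.HighMod hN hqL pr θ X →ₗ[R] D.LowMod hN hqL pr θ X := D.corOp θ hN

/-- Atkin–Lehner. -/
def wMod : D.HighMod hN hqL pr θ X →ₗ[R] D.HighMod hN hqL pr θ X := D.wOp θ hN hqL

/-- Corestriction after Atkin–Lehner. -/
def cwMod : D.HighMod hN hqL pr θ X →ₗ[R] D.LowMod hN hqL pr θ X :=
  (D.corMod θ hN hqL pr).comp (D.wMod θ hN hqL pr)

/-- The second degeneracy map. -/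
def degMod : D.LowMod hN hqL pr θ X →ₗ[R] D.HighMod hN hqL pr θ X :=
  (D.wMod θ hN hqL pr).comp (D.resMod θ hN hqL pr)

/-- The variable of `q`. -/
abbrev Xq (R : Type*) [CommRing R] (ι : Type) : MvPolynomial (Option ι) R := MvPolynomial.X none

variable {θ hN hqL pr}

lemma X_none_low (z : D.LowMod hN hqL pr θ X) :
    (Xq R ι) • z = D.tqOp (X := X) θ hN hqL z := by
  rw [mv_smul_def, heckeHom_X]; rfl

/-- At level `Lq` the variable of `q` acts as `U_q`. -/
lemma X_none_high (z : D.HighMod hN hqL pr θ X) :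
    (Xq R ι) • z = D.uqOp (X := X) θ hN hqL z := by
  rw [mv_smul_def, heckeHom_X]; rfl

/-- Corestriction after Atkin–Lehner after restriction is `T_q`. -/
lemma cwMod_res (a : D.LowMod hN hqL pr θ X) :
    D.cwMod θ hN hqL pr (D.resMod θ hN hqL pr a) = (Xq R ι) • a := by
  rw [X_none_low, cwMod, LinearMap.comp_apply]
  exact (congrArg (D.corOp (L := L) (X := X) θ hN) (D.wOp_resOp θ hN hqL a)).trans
    (D.corOp_degOp θ hN hqL a)

/-- Corestriction after restriction is `q + 1`. -/
lemma corMod_res (a : D.LowMod hN hqL pr θ X) :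
    D.corMod θ hN hqL pr (D.resMod θ hN hqL pr a) = ((D.q : R) + 1) • a :=
  D.corOp_resOp θ hN a

/-- The Atkin–Lehner operator squares to `θ(q)`. -/
lemma wMod_wMod (c : D.HighMod hN hqL pr θ X) :
    D.wMod θ hN hqL pr (D.wMod θ hN hqL pr c) = D.thetaQ θ hN • c :=
  D.wOp_wOp θ hN hqL c

/-- The relation `U_q ∘ W = θ(q) (res ∘ cor - 1)` at level `Lq`. -/
lemma X_none_wMod (c : D.HighMod hN hqL pr θ X) :
    (Xq R ι) • D.wMod θ hN hqL pr c =
      D.thetaQ θ hN • (D.resMod θ hN hqL pr (D.corMod θ hN hqL pr c) - c) := by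
  rw [X_none_high]
  exact D.uqOp_wOp θ hN hqL c

/-- Restriction is linear over the coefficients. -/
lemma resMod_smul_q (r : R) (a : D.LowMod hN hqL pr θ X) :
    D.resMod θ hN hqL pr (r • a) = r • D.resMod θ hN hqL pr a := map_smul _ r a

/-- The relation `U_q = res ∘ cor ∘ W - W` at level `Lq`. -/
lemma X_none_eq (c : D.HighMod hN hqL pr θ X) :
    (Xq R ι) • c = D.resMod θ hN hqL pr (D.cwMod θ hN hqL pr c) - D.wMod θ hN hqL pr c := by
  obtain ⟨u, hu⟩ := D.isUnit_thetaQ θ hN
  have h := D.X_none_wMod (D.wMod θ hN hqL pr c)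
  rw [D.wMod_wMod, ← hu, smul_comm, ← Units.smul_def, ← Units.smul_def] at h
  exact smul_left_cancel u h

/-- Corestriction after `U_q` is `q` times corestriction after Atkin–Lehner. -/
lemma corMod_X_none (c : D.HighMod hN hqL pr θ X) :
    D.corMod θ hN hqL pr ((Xq R ι) • c) = (D.q : R) • D.cwMod θ hN hqL pr c := by
  rw [D.X_none_eq, map_sub, D.corMod_res, add_smul, one_smul]
  exact add_sub_cancel_right _ _

/-- The composite `cor ∘ W` after `U_q` is `T_q ∘ cor ∘ W - θ(q) cor`. -/
lemma cwMod_X_none (c : D.HighMod hN hqL pr θ X) :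
    D.cwMod θ hN hqL pr ((Xq R ι) • c) = (Xq R ι) • D.cwMod θ hN hqL pr c -
      D.thetaQ θ hN • D.corMod θ hN hqL pr c := by
  rw [D.X_none_eq, map_sub, D.cwMod_res]
  congr 1
  rw [cwMod, LinearMap.comp_apply, D.wMod_wMod, map_smul]

/-- On old classes `U_q ∘ res = res ∘ T_q - deg`. -/
lemma X_none_res (a : D.LowMod hN hqL pr θ X) :
    (Xq R ι) • D.resMod θ hN hqL pr a =
      D.resMod θ hN hqL pr ((Xq R ι) • a) - D.degMod θ hN hqL pr a := by
  rw [D.X_none_eq, D.cwMod_res]; rfl

/-- On old classes `U_q ∘ deg = q θ(q) res`. -/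
lemma X_none_deg (a : D.LowMod hN hqL pr θ X) :
    (Xq R ι) • D.degMod θ hN hqL pr a =
      ((D.q : R) * D.thetaQ θ hN) • D.resMod θ hN hqL pr a := by
  rw [degMod, LinearMap.comp_apply, D.X_none_wMod, D.corMod_res, map_smul, add_smul, one_smul,
    add_sub_cancel_right, ← mul_smul, mul_comm]

section Others

variable (hpr : ∀ i, ((pr i).1.1 : ℕ) ≠ D.q)
include hpr

/-- Restriction commutes with the variables of the other primes. -/
lemma resMod_X_some (i : ι) (a : D.LowMod hN hqL pr θ X) :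
    D.resMod θ hN hqL pr ((MvPolynomial.X (some i) : MvPolynomial (Option ι) R) • a) =
      (MvPolynomial.X (some i) : MvPolynomial (Option ι) R) • D.resMod θ hN hqL pr a := by
  have : Fact (pr i).1.1.Prime := ⟨(pr i).1.2⟩
  rw [mv_smul_def, mv_smul_def, heckeHom_X, heckeHom_X]
  exact (D.resOp_comm θ hN (hpr i) (pr i).2 a).symm

/-- Corestriction commutes with the variables of the other primes. -/
lemma corMod_X_some (i : ι) (c : D.HighMod hN hqL pr θ X) :
    D.corMod θ hN hqL pr ((MvPolynomial.X (some i) : MvPolynomial (Option ι) R) • c) =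
      (MvPolynomial.X (some i) : MvPolynomial (Option ι) R) • D.corMod θ hN hqL pr c := by
  have : Fact (pr i).1.1.Prime := ⟨(pr i).1.2⟩
  rw [mv_smul_def, mv_smul_def, heckeHom_X, heckeHom_X]
  exact D.corOp_comm θ hN (hpr i) (pr i).2 c

/-- The composite `cor ∘ W` commutes with the variables of the other primes. -/
lemma cwMod_X_some (i : ι) (c : D.HighMod hN hqL pr θ X) :
    D.cwMod θ hN hqL pr ((MvPolynomial.X (some i) : MvPolynomial (Option ι) R) • c) =
      (MvPolynomial.X (some i) : MvPolynomial (Option ι) R) • D.cwMod θ hN hqL pr c := by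
  rw [cwMod, LinearMap.comp_apply, LinearMap.comp_apply, ← D.corMod_X_some hpr]
  congr 1
  have : Fact (pr i).1.1.Prime := ⟨(pr i).1.2⟩
  simp only [mv_smul_def, heckeHom_X]
  exact (D.wOp_comm θ hN hqL (hpr i) (pr i).2 c).symm

end Others

end ALData

end FermatAgent.HM
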