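import Fermat.Agent.HM.H1.DegeneracyMaps
import Fermat.Agent.HM.H1.Transfer
import Fermat.Agent.Period.HeckeAction

/-!
# The Hecke module of `Γ₀(M)` with trivial nebentype

It is the module of homomorphisms on `Γ₀(M)` with the transfer operators, in particular the
degeneracy maps are transfers, and at a non-Eisenstein prime its localisation is generated by the
parabolic ones.
-/

set_option autoImplicit false

noncomputable section

open scoped MatrixGroups OnePoint
open CongruenceSubgroup ModularCurve.Period MvPolynomial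

namespace FermatAgent.HM

variable {R : Type*} [CommRing R] {L M : ℕ} {ι : Type} (pr : ι → HPrime L)
variable (X : Type*) [AddCommGroup X] [Module R X]

/-- The Hecke module with trivial nebentype. -/
abbrev TrivH1 (R : Type*) [CommRing R] (M : ℕ) (pr : ι → HPrime L) (X : Type*) [AddCommGroup X]
    [Module R X] :=
  HeckeH1 (one_dvd M) pr (thetaRep (L := L) (1 : (ZMod 1)ˣ →* R) X)

lemma resRep_trivial (γ : Gamma0 M) (x : X) :
    resRep (actsIn_gamma0 (L := L) (one_dvd M)) (thetaRep (1 : (ZMod 1)ˣ →* R) X) γ x = x := by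
  rw [resRep_apply, thetaRep_apply, MonoidHom.one_apply, one_smul]

/-- Cocycles for the trivial action are homomorphisms. -/
def trivCocycleEquiv : Z1 (resRep (actsIn_gamma0 (L := L) (one_dvd M))
    (thetaRep (1 : (ZMod 1)ˣ →* R) X)) ≃ₗ[R] (Additive (Gamma0 M) →+ X) where
  toFun c :=
    { toFun := fun γ => c.1 (Additive.toMul γ)
      map_zero' := Z1.map_one c
      map_add' := fun γ δ => by rw [toMul_add, Z1.map_mul, resRep_trivial] }
  invFun φ := ⟨fun γ => φ (Additive.ofMul γ), fun γ δ => by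
    simp [resRep_trivial]⟩
  map_add' _ _ := rfl
  map_smul' _ _ := rfl

variable (R M) in
/-- The trivial-character Hecke module as homomorphisms. -/
def trivHom : TrivH1 R M pr X ≃ₗ[R] (Additive (Gamma0 M) →+ X) :=
  (toHeckeH1 pr (one_dvd M) _).symm ≪≫ₗ
    (Submodule.quotEquivOfEqBot _ (by
      rw [LinearMap.range_eq_bot]
      refine LinearMap.ext fun x => Subtype.ext <| funext fun γ => ?_
      simp [d0_apply, resRep_trivial])) ≪≫ₗ trivCocycleEquiv X

variable {X}

lemma trivHom_mk (c : Z1 (resRep (actsIn_gamma0 (L := L) (one_dvd M))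
    (thetaRep (1 : (ZMod 1)ˣ →* R) X))) :
    trivHom R M pr X (toHeckeH1 pr (one_dvd M) (thetaRep (1 : (ZMod 1)ˣ →* R) X)
      (H1.mk (resRep (actsIn_gamma0 (L := L) (one_dvd M))
      (thetaRep (1 : (ZMod 1)ˣ →* R) X)) c)) = trivCocycleEquiv X c := rfl

/-- A transfer of cocycles for the trivial action is the transfer of homomorphisms. -/
lemma trivCocycleEquiv_opZ {M' : ℕ} {κ : Type} [Fintype κ]
    (C : Corr (sigma0 1 L) (Gamma0 M') (Gamma0 M) κ) (c : Z1 (resRep
      (actsIn_gamma0 (L := L) (one_dvd M)) (thetaRep (1 : (ZMod 1)ˣ →* R) X))) :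
    trivCocycleEquiv X (C.opZ (actsIn_gamma0 (one_dvd M')) (actsIn_gamma0 (one_dvd M))
      (thetaRep (1 : (ZMod 1)ˣ →* R) X) c) = C.homOp (trivCocycleEquiv X c) := by
  refine AddMonoidHom.ext fun γ => ?_
  obtain ⟨γ, rfl⟩ := Additive.ofMul.surjective γ
  rw [Corr.homOp_apply]
  change (C.opZ (actsIn_gamma0 (one_dvd M')) (actsIn_gamma0 (one_dvd M))
    (thetaRep (1 : (ZMod 1)ˣ →* R) X) c).1 γ = _
  rw [Corr.opZ_apply]
  exact Finset.sum_congr rfl fun x _ => by
    rw [thetaRep_apply, MonoidHom.one_apply, one_smul]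
    rfl

/-- A transfer of classes is the transfer of homomorphisms. -/
theorem trivHom_op {M' : ℕ} {κ : Type} [Fintype κ]
    (C : Corr (sigma0 1 L) (Gamma0 M') (Gamma0 M) κ) (z : TrivH1 R M pr X) :
    trivHom R M' pr X (toHeckeH1 pr (one_dvd M') (thetaRep (1 : (ZMod 1)ˣ →* R) X)
      (C.op (actsIn_gamma0 (one_dvd M')) (actsIn_gamma0 (one_dvd M))
        (thetaRep (1 : (ZMod 1)ˣ →* R) X)
        ((toHeckeH1 pr (one_dvd M) (thetaRep (1 : (ZMod 1)ˣ →* R) X)).symm z))) =
      C.homOp (trivHom R M pr X z) := by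
  obtain ⟨c, hc⟩ := H1.mk_surjective
    ((toHeckeH1 pr (one_dvd M) (thetaRep (1 : (ZMod 1)ˣ →* R) X)).symm z)
  obtain rfl := (LinearEquiv.eq_symm_apply _).mp hc
  rw [LinearEquiv.symm_apply_apply, Corr.op_mk, trivHom_mk, trivHom_mk, trivCocycleEquiv_opZ]

/-- With trivial nebentype a variable acts as the transfer of homomorphisms. -/
lemma trivHom_X (i : ι) (z : TrivH1 R M pr X) :
    haveI : Fact (pr i).1.1.Prime := ⟨(pr i).1.2⟩
    trivHom R M pr X ((MvPolynomial.X i : MvPolynomial ι R) • z) =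
      (heckeCorr (N := 1) (L := L) (one_dvd M) (pr i).2).homOp (trivHom R M pr X z) := by
  have : Fact (pr i).1.1.Prime := ⟨(pr i).1.2⟩
  rw [mv_smul_def, heckeHom_X]
  exact trivHom_op pr _ z

section Degeneracy

variable {pr} {D : ALData} {hqL : D.q.Coprime L}

/-- Restriction is a transfer of homomorphisms. -/
lemma trivHom_res (z : D.LowMod (one_dvd D.L) hqL pr (1 : (ZMod 1)ˣ →* R) X) :
    trivHom R D.N (D.extPr hqL pr) X (D.resMod (1 : (ZMod 1)ˣ →* R) (one_dvd D.L) hqL pr z) =
      (D.resCorr 1 L).homOp (trivHom R D.L (D.extPr hqL pr) X z) :=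
  trivHom_op _ _ z

/-- Corestriction is a transfer of homomorphisms. -/
lemma trivHom_cor (z : D.HighMod (one_dvd D.L) hqL pr (1 : (ZMod 1)ˣ →* R) X) :
    trivHom R D.L (D.extPr hqL pr) X (D.corMod (1 : (ZMod 1)ˣ →* R) (one_dvd D.L) hqL pr z) =
      (D.corCorr (L := L) (one_dvd D.L)).homOp (trivHom R D.N (D.extPr hqL pr) X z) :=
  trivHom_op _ _ z

/-- The Atkin–Lehner map is a transfer of homomorphisms. -/
lemma trivHom_w (z : D.HighMod (one_dvd D.L) hqL pr (1 : (ZMod 1)ˣ →* R) X) :
    trivHom R D.N (D.extPr hqL pr) X (D.wMod (1 : (ZMod 1)ˣ →* R) (one_dvd D.L) hqL pr z) =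
      (D.wCorr (L := L) (one_dvd D.L) hqL).homOp (trivHom R D.N (D.extPr hqL pr) X z) :=
  trivHom_op _ _ z

variable {A : Type*} [AddCommGroup A] {p : ℕ} [Fact p.Prime]

/-- Corestriction of homomorphisms commutes with the Hecke transfers away from `q`. -/
theorem homOp_cor_comm (hpq : p ≠ D.q) (hpL : p.Coprime L) (φ : Additive (Gamma0 D.N) →+ A) :
    (D.corCorr (L := L) (one_dvd D.L)).homOp ((heckeCorr (N := 1) (one_dvd D.N) hpL).homOp φ) =
      (heckeCorr (N := 1) (one_dvd D.L) hpL).homOp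
        ((D.corCorr (L := L) (one_dvd D.L)).homOp φ) := by
  obtain ⟨e⟩ := D.exists_related_cor (N := 1) (one_dvd D.L) hpq hpL
  rw [← Corr.homOp_comp, ← Corr.homOp_comp]
  exact e.homOp_eq φ

/-- The Atkin–Lehner transfer of homomorphisms commutes with the Hecke transfers away from `q`. -/
theorem homOp_w_comm (hqL : D.q.Coprime L) (hpq : p ≠ D.q) (hpL : p.Coprime L)
    (φ : Additive (Gamma0 D.N) →+ A) :
    (heckeCorr (N := 1) (one_dvd D.N) hpL).homOp
        ((D.wCorr (L := L) (one_dvd D.L) hqL).homOp φ) =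
      (D.wCorr (L := L) (one_dvd D.L) hqL).homOp
        ((heckeCorr (N := 1) (one_dvd D.N) hpL).homOp φ) := by
  obtain ⟨e⟩ := D.exists_related_w (N := 1) (one_dvd D.L) hqL hpq hpL
  rw [← Corr.homOp_comp, ← Corr.homOp_comp]
  exact e.homOp_eq φ

end Degeneracy

/-- A correspondence with the representatives of a transfer datum has its transfer. -/
theorem Corr.homOp_eq_op {T : Submonoid Mat2} {Γ : Subgroup SL(2, ℤ)} {κ κ' : Type} [Fintype κ]
    [Fintype κ'] (C : Corr T Γ Γ κ) (hC : C.IsIrredundant) (E : Period.TransferData Γ κ')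
    (e : κ ≃ κ') (h : ∀ i, (E.rep (e i)).val = (C.rep i).map (Int.cast : ℤ → ℝ))
    {S : Type*} [CommRing S] {A : Type*} [AddCommGroup A] [Module S A]
    (φ : Additive Γ →+ A) : C.homOp φ = E.op S φ := by
  refine AddMonoidHom.ext fun γ => ?_
  obtain ⟨γ, rfl⟩ := Additive.ofMul.surjective γ
  rw [Corr.homOp_apply, Period.TransferData.op_apply]
  refine Fintype.sum_equiv e _ _ fun x => ?_
  congr 2
  have h1 := congrArg Units.val (E.factor_spec γ (e x))
  rw [Units.val_mul, Units.val_mul, ← e.apply_symm_apply (E.perm γ (e x)), h, h] at h1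
  refine (C.perm_fac_of_eq hC (j := e.symm (E.perm γ (e x)))
    (Matrix.map_injective (f := (Int.cast : ℤ → ℝ)) Int.cast_injective ?_)).2
  change (C.rep x * _).map (Int.castRingHom ℝ) = (_ * C.rep _).map (Int.castRingHom ℝ)
  rw [Matrix.map_mul, Matrix.map_mul]
  simpa using h1

/-- At a prime not dividing the level the transfer is the operator `T_p` of the period theory. -/
theorem homOp_heckeCorr_eq [NeZero M] {S : Type*} [CommRing S] {A : Type*} [AddCommGroup A]
    [Module S A] {p : ℕ} [hp : Fact p.Prime] (hpL : p.Coprime L) (hpM : ¬ p ∣ M)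
    (φ : Additive (Gamma0 M) →+ A) :
    (heckeCorr (N := 1) (one_dvd M) hpL).homOp φ = Period.heckeOp S M hp.out φ := by
  unfold Period.heckeOp
  rw [dif_neg hpM]
  refine Corr.homOp_eq_op _ (isIrredundant_heckeCorr (one_dvd M) hpL) _
    (Equiv.subtypeUnivEquiv fun x _ => hpM) (fun x => ?_) φ
  obtain ⟨z, hz⟩ := x
  induction z using OnePoint.rec with
  | infty =>
    change (ModularForm.heckeDiagMatrix p).val = _
    ext i j
    fin_cases i <;> fin_cases j <;> simp [hRep, hp.out.ne_zero]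
  | coe j =>
    change (ModularForm.heckeMatrix p j.val).val = _
    rw [ModularForm.val_heckeMatrix hp.out.ne_zero]
    ext i j'
    fin_cases i <;> fin_cases j' <;> simp [hRep]

variable (R M X) in
/-- The parabolic classes with trivial nebentype. -/
def trivParSub : Submodule (MvPolynomial ι R) (TrivH1 R M pr X) where
  carrier := {z | trivHom R M pr X z ∈ parabolicHoms R (Gamma0 M) X}
  zero_mem' := by simp
  add_mem' {z w} hz hw := by
    simp only [Set.mem_ofPred_eq, map_add]
    exact add_mem hz hw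
  smul_mem' t z hz := by
    induction t using MvPolynomial.induction_on generalizing z with
    | C a =>
      simp only [Set.mem_ofPred_eq, C_smul_eq, map_smul] at hz ⊢
      exact Submodule.smul_mem _ a hz
    | add t t' ht ht' =>
      simp only [Set.mem_ofPred_eq, add_smul, map_add] at *
      exact add_mem (ht z hz) (ht' z hz)
    | mul_X t i ht =>
      rw [mul_smul]
      refine ht _ ?_
      have : Fact (pr i).1.1.Prime := ⟨(pr i).1.2⟩
      simp only [Set.mem_ofPred_eq, trivHom_X]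
      exact (heckeCorr (N := 1) (L := L) (one_dvd M) (pr i).2).homOp_parabolic hz

/-- A class with trivial nebentype is parabolic iff its homomorphism is. -/
lemma mem_trivParSub {z : TrivH1 R M pr X} :
    z ∈ trivParSub R M pr X ↔ trivHom R M pr X z ∈ parabolicHoms R (Gamma0 M) X := Iff.rfl

/-- A prime `ℓ ≡ 1` modulo the level kills the boundary. -/
theorem sub_smul_mem_trivParSub (i : ι) (hi : (((pr i).1.1 : ℕ) : ZMod M) = 1)
    (z : TrivH1 R M pr X) :
    (MvPolynomial.X i - C (((pr i).1.1 : ℕ) + 1 : R) : MvPolynomial ι R) • z ∈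
      trivParSub R M pr X := by
  have : Fact (pr i).1.1.Prime := ⟨(pr i).1.2⟩
  have hnd : ¬ ((pr i).1.1 : ℕ) ∣ M := by
    intro hd
    have h1 := congrArg (ZMod.castHom hd (ZMod (pr i).1.1)) hi
    rw [map_natCast, map_one, ZMod.natCast_self] at h1
    exact zero_ne_one h1
  have hu : IsUnitRootHecke (heckeCorr (N := 1) (L := L) (one_dvd M) (pr i).2) M (pr i).1.1 := by
    refine ⟨fun g hg => (gammaClass_eq_one_of_mem_gamma (Δ := Unit) (δ := 1) (hNM := one_dvd M)
      hg).choose, neg_one_mem_gamma0 M, (pr i).1.2, hi, card_hIdx hnd,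
      isIrredundant_heckeCorr _ _, fun A hdet hA => ?_⟩
    have hc : (M : ℤ) ∣ A 1 0 := by
      have := congrFun (congrFun hA 1) 0
      simpa [ZMod.intCast_zmod_eq_zero_iff_dvd] using this
    have ha : IsCoprime (A 0 0) (M : ℤ) := by
      have := congrFun (congrFun hA 0) 0
      rw [Matrix.map_apply, Matrix.one_apply_eq] at this
      exact ((ZMod.coe_int_isUnit_iff_isCoprime _ _).mp (this ▸ isUnit_one)).symm
    obtain ⟨el, j, hj⟩ := exists_eq_coe_mul_hRep (p := (pr i).1.1) A hdet hc ha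
    exact ⟨j, el, hj⟩
  rw [mem_trivParSub, sub_smul, map_sub, trivHom_X, C_smul_eq, ← Nat.cast_one (R := R),
    ← Nat.cast_add, Nat.cast_smul_eq_nsmul, map_nsmul]
  exact hu.isParabolicHom _

/-- At a non-Eisenstein prime the parabolic classes generate. -/
theorem exists_unit_smul_mem (𝔪 : Ideal (MvPolynomial ι R)) [𝔪.IsPrime] (i : ι)
    (hi : (((pr i).1.1 : ℕ) : ZMod M) = 1)
    (hne : MvPolynomial.X i - C (((pr i).1.1 : ℕ) + 1 : R) ∉ 𝔪)
    (x : HeckeLoc pr (one_dvd M) (thetaRep (1 : (ZMod 1)ˣ →* R) X) 𝔪) :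
    ∃ (s : MvPolynomial ι R) (z : TrivH1 R M pr X), s ∉ 𝔪 ∧ z ∈ trivParSub R M pr X ∧
      s • x = LocalizedModule.mk z 1 := by
  induction x using LocalizedModule.induction_on with
  | _ z s =>
    refine ⟨(MvPolynomial.X i - C (((pr i).1.1 : ℕ) + 1 : R)) * s.1, _,
      fun h => (Ideal.IsPrime.mem_or_mem inferInstance h).elim hne s.2,
      sub_smul_mem_trivParSub pr i hi z, ?_⟩
    rw [mul_smul, LocalizedModule.smul'_mk, ← Submonoid.smul_def, LocalizedModule.mk_cancel,
      LocalizedModule.smul'_mk]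

end FermatAgent.HM
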