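import Fermat.Agent.HM.H1.DegeneracyMaps

/-!
# The polynomial ring at an auxiliary prime

The Hecke polynomial ring in `q` and the other primes, and the substitution of a value for the
variable of `q`.
-/

set_option autoImplicit false

noncomputable section

open MvPolynomial

namespace FermatAgent.HM

namespace ALData

/-- The polynomial ring in `q` and the other primes. -/
abbrev HPoly (R : Type) [CommRing R] (ι : Type) : Type := MvPolynomial (Option ι) R

variable {R : Type} [CommRing R] {ι : Type}

/-- Substitution of a constant for the variable of `q`. -/
def subst (c : HPoly R ι) :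
    HPoly R ι →ₐ[R] HPoly R ι :=
  aeval fun o => o.elim c fun i => MvPolynomial.X (some i)

/-- Substitution sends the variable of `q` to the constant substituted. -/
lemma subst_none (c : HPoly R ι) : subst c (MvPolynomial.X none) = c := by
  simp [subst]

/-- Substitution fixes the variables of the other primes. -/
lemma subst_some (c : HPoly R ι) (i : ι) :
    subst c (MvPolynomial.X (some i)) = MvPolynomial.X (some i) := by simp [subst]

/-- An ideal containing `X_q - c` contains `p - p|_{X_q = c}` for every `p`. -/
lemma sub_subst_mem (J : Ideal (HPoly R ι)) {c : HPoly R ι}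
    (hc : MvPolynomial.X none - c ∈ J) (p : HPoly R ι) :
    p - subst c p ∈ J := by
  have h : (Ideal.Quotient.mkₐ R J).comp (subst c) = Ideal.Quotient.mkₐ R J := by
    refine MvPolynomial.algHom_ext fun o => ?_
    rcases o with _ | i
    · simp only [AlgHom.comp_apply, subst_none]
      exact (Ideal.Quotient.eq.mpr hc).symm
    · simp [AlgHom.comp_apply, subst_some]
  exact Ideal.Quotient.eq.mp (AlgHom.congr_fun h p).symm

/-- Substituting a scalar for the variable of `q` leaves a polynomial in the other primes. -/
lemma exists_rename_eq_subst (r : R) (p : HPoly R ι) :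
    ∃ p₀ : MvPolynomial ι R, subst (C r) p = rename some p₀ := by
  refine ⟨aeval (fun o => o.elim (C r) MvPolynomial.X) p, ?_⟩
  have h : (subst (C r) : HPoly R ι →ₐ[R] _) =
      (rename some).comp (aeval fun o => o.elim (C r) MvPolynomial.X) := by
    refine MvPolynomial.algHom_ext fun o => ?_
    rcases o with _ | i
    · simp [subst]
    · simp [subst]
  exact AlgHom.congr_fun h p

/-- A unit constant lies in no maximal ideal. -/
lemma C_not_mem {J : Ideal (HPoly R ι)} [J.IsMaximal] {r : R} (hr : IsUnit r) :
    (C r : HPoly R ι) ∉ J := fun h =>
  ‹J.IsMaximal›.ne_top (Ideal.eq_top_of_isUnit_mem _ h (hr.map C))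

end ALData

end FermatAgent.HM
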