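import Fermat.Agent.HM.H1.Finite
import Fermat.Prelude.Thm_IsLocalRing_isAdicComplete_of_module_finite
import Mathlib.RingTheory.Henselian
import Mathlib.RingTheory.Finiteness.Nakayama
import Mathlib.RingTheory.LocalRing.Basic

/-!
# A root of a quadratic equation in a localised finite module

If a ring `P` acts on a finite module over a complete local ring so that everything outside a
maximal ideal acts bijectively, a simple root modulo that ideal lifts to an element of `P` that
is an exact root on the module.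
-/

set_option autoImplicit false

noncomputable section

open Polynomial

namespace FermatAgent.HM

variable {R : Type} [CommRing R] [IsLocalRing R] [IsNoetherianRing R]
  [IsAdicComplete (IsLocalRing.maximalIdeal R) R] {P : Type} [CommRing P] [Algebra R P]
  {Z : Type} [AddCommGroup Z] [Module R Z] [Module P Z] [IsScalarTower R P Z] [Module.Finite R Z]

/-- Lifting a simple root of `Y² - b Y + c`. -/
theorem exists_quad_root (𝔪 : Ideal P) [𝔪.IsMaximal]
    (hR : ∀ r ∈ IsLocalRing.maximalIdeal R, algebraMap R P r ∈ 𝔪)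
    (hbij : ∀ s : P, s ∉ 𝔪 → Function.Bijective fun z : Z => s • z) (b c α : P)
    (hroot : α ^ 2 - b * α + c ∈ 𝔪) (hsimple : 2 * α - b ∉ 𝔪) :
    ∃ t : P, t - α ∈ 𝔪 ∧ ∀ z : Z, (t ^ 2 - b * t + c) • z = 0 := by
  classical
  rcases subsingleton_or_nontrivial Z with hZ | hZ
  · exact ⟨α, by simp, fun z => Subsingleton.elim _ _⟩
  let φ : P →ₐ[R] Module.End R Z := Algebra.lsmul R R Z
  let A := φ.range
  have : Module.Finite R A := moduleFinite_subalgebra_end A
  let : CommRing A :=
    { (inferInstance : Ring A) with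
      mul_comm := by
        rintro ⟨_, x, rfl⟩ ⟨_, y, rfl⟩
        exact Subtype.ext ((map_mul φ x y).symm.trans
          ((congrArg φ (mul_comm x y)).trans (map_mul φ y x))) }
  let ψ : P →+* A := φ.rangeRestrict.toRingHom
  have hψs : Function.Surjective ψ := φ.rangeRestrict_surjective
  have hψ : ∀ t (x : Z), ((ψ t : A) : Module.End R Z) x = t • x := fun t x => rfl
  have hψR : ∀ r : R, ψ (algebraMap R P r) = algebraMap R A r :=
    fun r => φ.rangeRestrict.commutes r
  -- units
  have hunit : ∀ s : P, s ∉ 𝔪 → IsUnit (ψ s) := by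
    intro s hs
    have hsm : ∀ (a : A) (z : Z), a • z = (a : Module.End R Z) z := fun a z => rfl
    have : IsScalarTower R A Z := ⟨fun r a z => by simp [hsm]⟩
    have : Module.Finite A Z := Module.Finite.of_restrictScalars_finite R A Z
    obtain ⟨e, he, hez⟩ := Submodule.exists_sub_one_mem_and_smul_eq_zero_of_fg_of_le_smul
      (Ideal.span {ψ s}) (⊤ : Submodule A Z) Module.Finite.fg_top (fun z _ => by
        obtain ⟨y, rfl⟩ := (hbij s hs).2 z
        rw [show (fun z : Z => s • z) y = ψ s • y from rfl]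
        exact Submodule.smul_mem_smul (Ideal.mem_span_singleton_self _) Submodule.mem_top)
    have he0 : e = 0 := Subtype.ext (LinearMap.ext fun z => hez z Submodule.mem_top)
    rw [he0, zero_sub, neg_mem_iff, Ideal.mem_span_singleton] at he
    exact isUnit_of_dvd_one he
  have hnonunit : ∀ s : P, s ∈ 𝔪 → ¬ IsUnit (ψ s) := by
    intro s hs hu
    obtain ⟨a', ha'⟩ := hψs ↑(hu.unit⁻¹)
    have h1 : ψ (s * a') = 1 := by
      rw [map_mul, ha']
      exact hu.mul_val_inv
    have h2 : (1 : P) - s * a' ∉ 𝔪 := fun hm => ‹𝔪.IsMaximal›.ne_top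
      ((Ideal.eq_top_iff_one _).mpr (by simpa using 𝔪.add_mem hm (𝔪.mul_mem_right a' hs)))
    obtain ⟨z, hz⟩ := exists_ne (0 : Z)
    refine hz ((hbij _ h2).1 ?_)
    show ((1 : P) - s * a') • z = ((1 : P) - s * a') • (0 : Z)
    rw [sub_smul, one_smul, ← hψ (s * a'), h1, smul_zero]
    exact sub_self z
  have hiff : ∀ s : P, IsUnit (ψ s) ↔ s ∉ 𝔪 :=
    fun s => ⟨fun hu hs => hnonunit s hs hu, hunit s⟩
  have : Nontrivial A := by
    refine ⟨⟨ψ 1, ψ 0, fun h => hnonunit 0 (zero_mem _) ?_⟩⟩
    rw [← h, map_one]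
    exact isUnit_one
  have : IsLocalRing A := IsLocalRing.of_nonunits_add fun a b ha hb => by
    obtain ⟨x, rfl⟩ := hψs a
    obtain ⟨y, rfl⟩ := hψs b
    rw [mem_nonunits_iff, hiff, not_not] at ha hb
    rw [mem_nonunits_iff, ← map_add, hiff, not_not]
    exact add_mem ha hb
  have : IsLocalHom (algebraMap R A) := ⟨fun r hr => by
    by_contra hr'
    rw [← hψR, hiff] at hr
    exact hr (hR r hr')⟩
  have : IsAdicComplete (IsLocalRing.maximalIdeal A) A :=
    IsLocalRing.isAdicComplete_of_module_finite (𝒪 := R)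
  have hmem : ∀ s : P, ψ s ∈ IsLocalRing.maximalIdeal A ↔ s ∈ 𝔪 := fun s => by
    rw [IsLocalRing.mem_maximalIdeal, mem_nonunits_iff, hiff, not_not]
  set f : A[X] := X ^ 2 - Polynomial.C (ψ b) * X + Polynomial.C (ψ c) with hf
  have hmonic : f.Monic := by
    rw [hf]; monicity!
  have hder : f.derivative.eval (ψ α) = ψ (2 * α - b) := by
    simp [hf, map_ofNat, one_add_one_eq_two]
  obtain ⟨a, ha, ha'⟩ := HenselianRing.is_henselian (I := IsLocalRing.maximalIdeal A) f hmonic
    (ψ α) (by
      have : f.eval (ψ α) = ψ (α ^ 2 - b * α + c) := by simp [hf]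
      rw [this, hmem]
      exact hroot)
    (by
      rw [hder]
      exact ((hiff _).mpr hsimple).map _)
  obtain ⟨t, rfl⟩ := hψs a
  refine ⟨t, (hmem _).mp (by rwa [map_sub]), fun z => ?_⟩
  rw [← hψ]
  have : ψ (t ^ 2 - b * t + c) = 0 := by
    have := ha.eq_zero
    simpa [hf] using this
  rw [this]
  rfl

end FermatAgent.HM
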