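import Fermat.Agent.HM.H1.Diamond
import Fermat.Agent.HM.Trace

/-!
# Degeneracy correspondences between levels `M` and `Mq`

Restriction, corestriction, the Atkin–Lehner correspondence, and their relations on cohomology.
-/

set_option autoImplicit false

noncomputable section

open scoped MatrixGroups OnePoint
open CongruenceSubgroup

namespace FermatAgent.HM

variable {S : Submonoid Mat2} {Γ Γ' : Subgroup SL(2, ℤ)}

/-- The correspondence with a single representative. -/
def Corr.single (A : Mat2) (hdet : A.det ≠ 0) (hA : A.adjugate ∈ S)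
    (h : ∀ γ : Γ', ∃ el : Γ, A * ((γ : SL(2, ℤ)) : Mat2) = ((el : SL(2, ℤ)) : Mat2) * A) :
    Corr S Γ' Γ Unit where
  rep _ := A
  det_ne _ := hdet
  adj_mem _ := hA
  perm _ := 1
  perm_mul _ _ := by simp
  exists_fac γ _ := h γ

variable {R : Type*} [CommRing R] {X : Type*} [AddCommGroup X] [Module R X]
  {ρ : Representation R S X}

/-- A correspondence whose representatives lie in `Γ` is multiplication by their number. -/
theorem Corr.op_eq_card_smul {ι : Type} [Fintype ι] (D : Corr S Γ Γ ι) (hΓ : ActsIn S Γ)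
    (g : ι → Γ) (hg : ∀ i, D.rep i = ((g i : SL(2, ℤ)) : Mat2)) (z : H1 (resRep hΓ ρ)) :
    D.op hΓ hΓ ρ z = (Fintype.card ι : R) • z := by
  induction z using H1.induction with
  | _ c =>
    rw [Corr.op_mk, ← map_smul, H1.mk_eq_mk_iff]
    refine ⟨-∑ i, ρ (D.adj i) (c.1 (g i)), fun γ => ?_⟩
    have hfac : ∀ i, D.fac γ i = g i * γ * (g (D.perm γ i))⁻¹ := fun i => D.fac_unique (by
      rw [hg, hg, ← Matrix.SpecialLinearGroup.coe_mul, ← Matrix.SpecialLinearGroup.coe_mul,
        ← Subgroup.coe_mul, ← Subgroup.coe_mul]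
      simp)
    have hadj : ∀ i, ρ (D.adj i) = resRep hΓ ρ (g i)⁻¹ := fun i => by
      rw [resRep_apply]
      congr 1
      apply Subtype.ext
      simp [Corr.adj, hg, Matrix.SpecialLinearGroup.coe_inv]
    rw [Corr.opZ_apply, Submodule.coe_smul, Pi.smul_apply, Nat.cast_smul_eq_nsmul,
      ← Finset.card_univ, ← Finset.sum_const (c.1 γ), ← Finset.sum_sub_distrib, map_neg, map_sum]
    rw [← Equiv.sum_comp (D.perm γ) fun i => resRep hΓ ρ γ (ρ (D.adj i) (c.1 (g i))),
      sub_neg_eq_add, ← sub_eq_neg_add, ← Finset.sum_sub_distrib]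
    refine Finset.sum_congr rfl fun i _ => ?_
    rw [hadj, hadj, hfac, Z1.map_mul, Z1.map_mul, Z1.map_inv]
    simp only [map_add, map_neg]
    rw [← Module.End.mul_apply, ← map_mul, ← Module.End.mul_apply, ← map_mul,
      ← Module.End.mul_apply, ← map_mul, ← Module.End.mul_apply, ← map_mul]
    have e1 : (g i)⁻¹ * g i = 1 := inv_mul_cancel _
    have e2 : resRep hΓ ρ (g i)⁻¹ (c.1 (g i)) = -c.1 (g i)⁻¹ := by
      rw [Z1.map_inv, neg_neg]
    simp only [← mul_assoc, e1, one_mul, map_one, Module.End.one_apply, e2]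
    abel

namespace ALData

variable (D : ALData) {N L : ℕ}

/-- The nebentype modulus divides the higher level `Lq`. -/
lemma dvd_N (hN : N ∣ D.L) : N ∣ D.N := hN.trans D.L_dvd_N

/-- `q` is prime to the nebentype modulus. -/
lemma coprime_q (hN : N ∣ D.L) : IsCoprime (D.q : ℤ) (N : ℤ) :=
  Nat.isCoprime_iff_coprime.mpr
    ((D.prime.coprime_iff_not_dvd).mpr fun h => D.not_dvd (h.trans hN))

/-- `Γ₀(Lq) ≤ Γ₀(L)`. -/
lemma gamma0_le : Gamma0 D.N ≤ Gamma0 D.L := fun γ hγ => by
  rw [Gamma0_mem, ZMod.intCast_zmod_eq_zero_iff_dvd] at hγ ⊢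
  exact (Int.natCast_dvd_natCast.mpr D.L_dvd_N).trans hγ

/-- Restriction from level `L` to level `N = Lq`. -/
def resCorr (N L : ℕ) : Corr (sigma0 N L) (Gamma0 D.N) (Gamma0 D.L) Unit :=
  Corr.single 1 (by simp) (by simp) fun γ => ⟨⟨γ, D.gamma0_le γ.2⟩, by simp⟩

/-- The index set of the corestriction. -/
abbrev PLine := OnePoint (ZMod D.q)

instance instFintypePLine : Fintype D.PLine := Fintype.ofFinite _

/-- Corestriction from level `N = Lq` to level `L`. -/
def corCorr (hN : N ∣ D.L) : Corr (sigma0 N L) (Gamma0 D.L) (Gamma0 D.N) D.PLine :=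
  Corr.ofSystem (fun x => ((D.transversal x : SL(2, ℤ)) : Mat2))
    (fun i j el h => by
      have h' : D.transversal i = (el : SL(2, ℤ)) * D.transversal j :=
        Subtype.ext (by simpa using h)
      have := congrArg D.rowClass h'
      rwa [D.rowClass_transversal, D.rowClass_mul_left el.2, D.rowClass_transversal] at this)
    (fun γ x => ⟨D.rowClass (D.transversal x * (γ : SL(2, ℤ))),
      ⟨D.transversal x * (γ : SL(2, ℤ)) *
          (D.transversal (D.rowClass (D.transversal x * (γ : SL(2, ℤ)))))⁻¹,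
        D.mul_inv_mem (mul_mem (D.transversal_mem x) γ.2) (D.transversal_mem _)
          (D.rowClass_transversal _).symm⟩, by
      rw [← Matrix.SpecialLinearGroup.coe_mul, ← Matrix.SpecialLinearGroup.coe_mul,
        inv_mul_cancel_right]⟩)
    (fun x => by simp)
    (fun x => by
      rw [← Matrix.SpecialLinearGroup.coe_inv]
      exact actsIn_gamma0 hN _ (inv_mem (D.transversal_mem x)))

/-- The Atkin–Lehner correspondence. -/
def wCorr (hN : N ∣ D.L) (hqL : D.q.Coprime L) :
    Corr (sigma0 N L) (Gamma0 D.N) (Gamma0 D.N) Unit :=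
  Corr.single D.mat D.det_mat_ne_zero
    (adjugate_mem_sigma0 (by
        simpa [ALData.mat] using Int.natCast_dvd_natCast.mpr (D.dvd_N hN))
      (by simpa [ALData.mat] using D.coprime_q hN)
      (by rw [D.det_mat]; exact Nat.isCoprime_iff_coprime.mpr hqL))
    fun γ => by
      obtain ⟨δ, hδ, he⟩ := D.exists_sl_conj γ.2
      exact ⟨⟨δ, hδ⟩, he⟩

/-- The matrix `diag(q, 1)`. -/
def diagQ : Mat2 := !![(D.q : ℤ), 0; 0, 1]

/-- The matrix `diag(q, 1)` has determinant `q`. -/
lemma det_diagQ : D.diagQ.det = D.q := by simp [diagQ]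

lemma adjugate_diagQ_mem (hN : N ∣ D.L) (hqL : D.q.Coprime L) :
    D.diagQ.adjugate ∈ sigma0 N L :=
  adjugate_mem_sigma0 (by simp [diagQ]) (by simpa [diagQ] using D.coprime_q hN)
    (by rw [D.det_diagQ]; exact Nat.isCoprime_iff_coprime.mpr hqL)

/-- The second degeneracy correspondence. -/
def diagCorr (hN : N ∣ D.L) (hqL : D.q.Coprime L) :
    Corr (sigma0 N L) (Gamma0 D.N) (Gamma0 D.L) Unit :=
  Corr.single D.diagQ (by rw [D.det_diagQ]; exact D.q_ne_zero) (D.adjugate_diagQ_mem hN hqL)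
    fun γ => by
      obtain ⟨c, hc⟩ := (ZMod.intCast_zmod_eq_zero_iff_dvd _ _).mp (Gamma0_mem.mp γ.2)
      simp only [show D.N = D.L * D.q from rfl] at hc
      push_cast at hc
      have hdet := (γ : SL(2, ℤ)).det_coe
      rw [Matrix.det_fin_two, hc] at hdet
      refine ⟨⟨⟨!![(γ : SL(2, ℤ)) 0 0, (D.q : ℤ) * (γ : SL(2, ℤ)) 0 1; (D.L : ℤ) * c,
        (γ : SL(2, ℤ)) 1 1], by rw [Matrix.det_fin_two_of]; linear_combination hdet⟩,
        Gamma0_mem.mpr (by simp)⟩, ?_⟩
      ext i j
      fin_cases i <;> fin_cases j <;>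
        simp [diagQ, Matrix.mul_apply, Fin.sum_univ_two, hc] <;> ring

/-- The element carrying `W` to `diag(q, 1)`. -/
def wSL : Gamma0 D.L :=
  ⟨⟨!![1, D.y; (D.L : ℤ), (D.q : ℤ) * D.w], by
    rw [Matrix.det_fin_two_of]; linear_combination D.rel⟩, Gamma0_mem.mpr (by simp)⟩

variable (θ : (ZMod N)ˣ →* R)

/-- The unit `q mod N`. -/
def qUnit (hN : N ∣ D.L) : (ZMod N)ˣ :=
  ((ZMod.coe_int_isUnit_iff_isCoprime (D.q : ℤ) N).mpr (D.coprime_q hN).symm).unit

/-- The value of the character at `q`. -/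
def thetaQ (hN : N ∣ D.L) : R := θ (D.qUnit hN)

/-- The value `θ(q)` is a unit. -/
lemma isUnit_thetaQ (hN : N ∣ D.L) : IsUnit (D.thetaQ θ hN) := (Group.isUnit (D.qUnit hN)).map θ

/-- An element of `Σ₀` which is `q` times another acts as `θ(q)` times it. -/
lemma thetaRep_adjugate_scalar (hN : N ∣ D.L) (A : sigma0 N L) (B : sigma0 N L)
    (h : (A : Mat2) = (D.q : ℤ) • (B : Mat2)) (x : X) :
    thetaRep θ X A x = D.thetaQ θ hN • thetaRep θ X B x := by
  rw [thetaRep_apply, thetaRep_apply, ← mul_smul, thetaQ, ← map_mul]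
  congr 2
  refine Units.ext ?_
  rw [Units.val_mul, coe_lowerRightUnit, coe_lowerRightUnit, h, Matrix.smul_apply, smul_eq_mul,
    Int.cast_mul, qUnit, IsUnit.unit_spec]

variable (hN : N ∣ D.L) (hqL : D.q.Coprime L)

/-- Cohomology at level `L`. -/
abbrev HLow (θ : (ZMod N)ˣ →* R) (X : Type*) [AddCommGroup X] [Module R X] (L : ℕ)
    (D : ALData) (hN : N ∣ D.L) :=
  H1G (L := L) hN (thetaRep θ X)

/-- Cohomology at level `N = Lq`. -/
abbrev HHigh (θ : (ZMod N)ˣ →* R) (X : Type*) [AddCommGroup X] [Module R X] (L : ℕ)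
    (D : ALData) (hN : N ∣ D.L) :=
  H1G (L := L) (D.dvd_N hN) (thetaRep θ X)

/-- Restriction. -/
def resOp : HLow θ X L D hN →ₗ[R] HHigh θ X L D hN :=
  (D.resCorr N L).op (actsIn_gamma0 (D.dvd_N hN)) (actsIn_gamma0 hN) (thetaRep θ X)

/-- The second degeneracy map. -/
def degOp : HLow θ X L D hN →ₗ[R] HHigh θ X L D hN :=
  (D.diagCorr hN hqL).op (actsIn_gamma0 (D.dvd_N hN)) (actsIn_gamma0 hN) (thetaRep θ X)

/-- Corestriction. -/
def corOp : HHigh θ X L D hN →ₗ[R] HLow θ X L D hN :=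
  (D.corCorr hN).op (actsIn_gamma0 hN) (actsIn_gamma0 (D.dvd_N hN)) (thetaRep θ X)

/-- The Atkin–Lehner operator. -/
def wOp : HHigh θ X L D hN →ₗ[R] HHigh θ X L D hN :=
  (D.wCorr hN hqL).op (actsIn_gamma0 (D.dvd_N hN)) (actsIn_gamma0 (D.dvd_N hN)) (thetaRep θ X)

/-- Corestriction after restriction is multiplication by the index `q + 1`. -/
theorem corOp_resOp (z : HLow θ X L D hN) :
    D.corOp (L := L) (X := X) θ hN (D.resOp (L := L) (X := X) θ hN z) = ((D.q : R) + 1) • z := by
  rw [corOp, resOp, ← Corr.op_comp,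
    Corr.op_eq_card_smul _ _ (fun p => ⟨D.transversal p.1, D.transversal_mem p.1⟩) fun p => by
      simp [Corr.comp, resCorr, corCorr, Corr.single, Corr.ofSystem]]
  congr 1
  rw [Fintype.card_prod, Fintype.card_unit, mul_one, ← Nat.card_eq_fintype_card,
    show D.PLine = Option (ZMod D.q) from rfl, Finite.card_option, Nat.card_zmod]
  push_cast
  rfl

/-- Atkin–Lehner after restriction is the second degeneracy operator. -/
theorem wOp_resOp (z : HLow θ X L D hN) :
    D.wOp (X := X) θ hN hqL (D.resOp (L := L) (X := X) θ hN z) = D.degOp (X := X) θ hN hqL z := by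
  rw [wOp, resOp, ← Corr.op_comp, degOp]
  exact Corr.Related.op_eq _ _ _ _
    { idx := Equiv.punitProd Unit
      shift := fun _ => D.wSL
      rep_eq := fun k => by
        ext i j
        fin_cases i <;> fin_cases j <;>
          simp [Corr.comp, resCorr, wCorr, diagCorr, Corr.single, wSL, ALData.mat, diagQ,
            ALData.N, Matrix.mul_apply, Fin.sum_univ_two]
      perm_eq := fun _ _ => Subsingleton.elim _ _ } z

end ALData

end FermatAgent.HM
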