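import Fermat.Agent.HM.H1.Functor
import Mathlib.RingTheory.MvPolynomial.Basic

/-!
# Changing the coefficient ring

If `R'` is a quotient of `R` and `X` is an `R'`-module, the localised Hecke module does not depend
on whether `X` is regarded over `R` or over `R'`. Hence `M_R ⊗ R' = M_{R'}`.
-/

set_option autoImplicit false

noncomputable section

open scoped MatrixGroups
open CongruenceSubgroup MvPolynomial

namespace FermatAgent.HM

/-- Localisation is insensitive to surjective changes of the acting ring. -/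
theorem exists_localizedEquiv {A A' : Type*} [CommRing A] [CommRing A'] (ψ : A →+* A')
    (hψ : Function.Surjective ψ) (S : Submonoid A) (S' : Submonoid A')
    (hS : ∀ a, a ∈ S ↔ ψ a ∈ S') {H H' : Type*} [AddCommGroup H] [Module A H] [AddCommGroup H']
    [Module A' H'] (e : H ≃+ H') (he : ∀ a z, e (a • z) = ψ a • e z) :
    ∃ E : LocalizedModule S H ≃+ LocalizedModule S' H',
      (∀ z (s : S), E (LocalizedModule.mk z s) = LocalizedModule.mk (e z) ⟨ψ s, (hS s).mp s.2⟩) ∧
      ∀ (a : A) x, E (a • x) = ψ a • E x := by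
  let f : LocalizedModule S H → LocalizedModule S' H' := fun x =>
    x.liftOn (fun p => LocalizedModule.mk (e p.1) ⟨ψ p.2, (hS p.2).mp p.2.2⟩) (by
      rintro ⟨m, s⟩ ⟨m', s'⟩ ⟨u, hu⟩
      refine LocalizedModule.mk_eq.mpr ⟨⟨ψ u, (hS u).mp u.2⟩, ?_⟩
      simp only [Submonoid.smul_def] at hu ⊢
      rw [← he, ← he, ← he, ← he]
      exact congrArg e hu)
  have hmk : ∀ z (s : S), f (LocalizedModule.mk z s) =
      LocalizedModule.mk (e z) ⟨ψ s, (hS s).mp s.2⟩ := fun z s => LocalizedModule.liftOn_mk _ _ _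
  have hadd : ∀ x y, f (x + y) = f x + f y := by
    refine fun x y => LocalizedModule.induction_on₂ (fun m m' s s' => ?_) x y
    rw [LocalizedModule.mk_add_mk, hmk, hmk, hmk, LocalizedModule.mk_add_mk]
    congr 1
    · simp only [Submonoid.smul_def, map_add, he]
    · exact Subtype.ext (map_mul ψ _ _)
  have hinj : Function.Injective f := by
    refine (injective_iff_map_eq_zero (AddMonoidHom.mk' f hadd)).mpr fun x => ?_
    induction x using LocalizedModule.induction_on with
    | _ z s =>
      intro hx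
      rw [AddMonoidHom.mk'_apply, hmk, ← LocalizedModule.zero_mk ⟨ψ s, (hS s).mp s.2⟩,
        LocalizedModule.mk_eq] at hx
      obtain ⟨⟨u', hu'⟩, hu⟩ := hx
      obtain ⟨u, rfl⟩ := hψ u'
      simp only [Submonoid.smul_def, smul_zero] at hu
      rw [← he, ← he] at hu
      rw [← LocalizedModule.zero_mk s, LocalizedModule.mk_eq]
      exact ⟨⟨u, (hS u).mpr hu'⟩, by simpa [Submonoid.smul_def] using hu⟩
  have hsurj : Function.Surjective f := fun x => by
    induction x using LocalizedModule.induction_on with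
    | _ z s =>
      obtain ⟨s', hs'⟩ := s
      obtain ⟨t, rfl⟩ := hψ s'
      exact ⟨LocalizedModule.mk (e.symm z) ⟨t, (hS t).mpr hs'⟩, by rw [hmk]; simp⟩
  refine ⟨AddEquiv.ofBijective (AddMonoidHom.mk' f hadd) ⟨hinj, hsurj⟩, hmk, fun a x => ?_⟩
  induction x using LocalizedModule.induction_on with
  | _ z s =>
    change f (a • LocalizedModule.mk z s) = ψ a • f (LocalizedModule.mk z s)
    rw [LocalizedModule.smul'_mk, hmk, hmk, LocalizedModule.smul'_mk, he]

variable {R R' : Type*} [CommRing R] [CommRing R'] [Algebra R R'] {N L M : ℕ} {ι : Type}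
variable {hNM : N ∣ M} {θ : (ZMod N)ˣ →* R} {pr : ι → HPrime L}
variable (X : Type*) [AddCommGroup X] [Module R X] [Module R' X] [IsScalarTower R R' X]

/-- The character pushed to the new ring. -/
abbrev pushChar (R' : Type*) [CommRing R'] [Algebra R R'] (θ : (ZMod N)ˣ →* R) :
    (ZMod N)ˣ →* R' :=
  (algebraMap R R').toMonoidHom.comp θ

lemma thetaRep_push (s : sigma0 N L) (x : X) :
    thetaRep (pushChar R' θ) X s x = thetaRep θ X s x := by
  rw [thetaRep_apply, thetaRep_apply]
  exact algebraMap_smul R' _ x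

section

variable (hNM)

/-- Cocycles do not depend on the ring of scalars. -/
def pushZ1 : Z1 (resRep (actsIn_gamma0 (L := L) hNM) (thetaRep θ X)) ≃+
    Z1 (resRep (actsIn_gamma0 (L := L) hNM) (thetaRep (pushChar R' θ) X)) where
  toFun c := ⟨c.1, fun g h => by rw [resRep_apply, thetaRep_push]; exact c.2 g h⟩
  invFun c := ⟨c.1, fun g h => by
    have := c.2 g h
    rwa [resRep_apply, thetaRep_push] at this⟩
  map_add' _ _ := rfl

/-- Cohomology does not depend on the ring of scalars. -/
def pushH1 : H1G (L := L) hNM (thetaRep θ X) ≃+ H1G (L := L) hNM (thetaRep (pushChar R' θ) X) :=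
  QuotientAddGroup.congr _ _ (pushZ1 hNM X) (by
    ext c
    simp only [AddSubgroup.mem_map, Submodule.mem_toAddSubgroup, LinearMap.mem_range]
    constructor
    · rintro ⟨_, ⟨x, rfl⟩, rfl⟩
      exact ⟨x, Subtype.ext <| funext fun g => by simp [pushZ1, resRep_apply, thetaRep_push]⟩
    · rintro ⟨x, rfl⟩
      exact ⟨d0 _ x, ⟨x, rfl⟩,
        Subtype.ext <| funext fun g => by simp [pushZ1, resRep_apply, thetaRep_push]⟩)

lemma pushH1_mk (c : Z1 (resRep (actsIn_gamma0 (L := L) hNM) (thetaRep θ X))) :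
    pushH1 (R' := R') hNM X (H1.mk (resRep (actsIn_gamma0 (L := L) hNM) (thetaRep θ X)) c) =
      H1.mk (resRep (actsIn_gamma0 (L := L) hNM) (thetaRep (pushChar R' θ) X)) (pushZ1 hNM X c) :=
  rfl

lemma pushH1_smul (r : R) (z : H1G (L := L) hNM (thetaRep θ X)) :
    pushH1 (R' := R') hNM X (r • z) = algebraMap R R' r • pushH1 hNM X z := by
  induction z using H1.induction with
  | _ c =>
    rw [← map_smul, pushH1_mk, pushH1_mk, ← map_smul]
    exact congrArg _ (Subtype.ext <| funext fun g => (algebraMap_smul R' r (c.1 g)).symm)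

lemma pushH1_hecke (p : HPrime L) (z : H1G (L := L) hNM (thetaRep θ X)) :
    pushH1 (R' := R') hNM X (heckeEnd hNM (thetaRep θ X) p z) =
      heckeEnd hNM (thetaRep (pushChar R' θ) X) p (pushH1 hNM X z) := by
  induction z using H1.induction with
  | _ c =>
    have : Fact p.1.1.Prime := ⟨p.1.2⟩
    simp only [heckeEnd, Corr.op_mk, pushH1_mk]
    exact congrArg _ (Subtype.ext <| funext fun g => by
      simp [pushZ1, Corr.opZ_apply, thetaRep_push])

/-- The identification of the Hecke modules. -/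
def pushHecke : HeckeH1 hNM pr (thetaRep (L := L) θ X) ≃+
    HeckeH1 hNM pr (thetaRep (L := L) (pushChar R' θ) X) :=
  pushH1 (θ := θ) hNM X

lemma pushHecke_smul (t : MvPolynomial ι R)
    (z : HeckeH1 hNM pr (thetaRep (L := L) θ X)) :
    pushHecke (R' := R') hNM X (t • z) =
      MvPolynomial.map (algebraMap R R') t • pushHecke hNM X z := by
  induction t using MvPolynomial.induction_on generalizing z with
  | C a =>
    rw [MvPolynomial.map_C, C_smul_eq, C_smul_eq]
    exact pushH1_smul hNM X a z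
  | add t u ht hu => simp only [add_smul, map_add, ht, hu]
  | mul_X t i ht =>
    rw [mul_smul, ht, map_mul, MvPolynomial.map_X, mul_smul]
    congr 1
    rw [mv_smul_def, mv_smul_def, heckeHom_X, heckeHom_X]
    exact pushH1_hecke hNM X (pr i) _

/-- The localised modules agree. -/
theorem exists_thetaLoc_change (hsurj : Function.Surjective (algebraMap R R'))
    (𝔪' : Ideal (MvPolynomial ι R')) [𝔪'.IsPrime] :
    ∃ E : ThetaLoc hNM θ pr (𝔪'.comap (MvPolynomial.map (algebraMap R R'))) X ≃+
        ThetaLoc hNM (pushChar R' θ) pr 𝔪' X,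
      ∀ (t : MvPolynomial ι R) x, E (t • x) = MvPolynomial.map (algebraMap R R') t • E x := by
  obtain ⟨E, -, hE⟩ := exists_localizedEquiv (MvPolynomial.map (algebraMap R R'))
    (MvPolynomial.map_surjective _ hsurj)
    (𝔪'.comap (MvPolynomial.map (algebraMap R R'))).primeCompl 𝔪'.primeCompl
    (fun a => by simp [Ideal.mem_primeCompl_iff]) (pushHecke (pr := pr) (θ := θ) hNM X)
    (pushHecke_smul hNM X)
  exact ⟨E, hE⟩

/-- `M_R / ker · M_R = M_{R'}`. -/
theorem exists_baseChange [NeZero M] (hsurj : Function.Surjective (algebraMap R R'))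
    (𝔪' : Ideal (MvPolynomial ι R')) [𝔪'.IsPrime]
    (h : NonEis hNM θ pr (𝔪'.comap (MvPolynomial.map (algebraMap R R'))))
    (hfg : (RingHom.ker (algebraMap R R')).FG) :
    ∃ π : ThetaLoc hNM θ pr (𝔪'.comap (MvPolynomial.map (algebraMap R R'))) R →+
        ThetaLoc hNM (pushChar R' θ) pr 𝔪' R',
      Function.Surjective π ∧
      (∀ (t : MvPolynomial ι R) x, π (t • x) = MvPolynomial.map (algebraMap R R') t • π x) ∧
      ∀ x, π x = 0 ↔ x ∈ RingHom.ker (algebraMap R R') •
        (⊤ : Submodule R (ThetaLoc hNM θ pr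
          (𝔪'.comap (MvPolynomial.map (algebraMap R R'))) R)) := by
  set 𝔪 := 𝔪'.comap (MvPolynomial.map (algebraMap R R'))
  set I := RingHom.ker (algebraMap R R')
  let f : R →ₗ[R] R' := Algebra.linearMap R R'
  obtain ⟨E, hE⟩ := exists_thetaLoc_change (θ := θ) (pr := pr) hNM R' hsurj 𝔪'
  refine ⟨E.toAddMonoidHom.comp (thetaMap hNM θ pr 𝔪 f).toAddMonoidHom,
    E.surjective.comp (thetaMap_surjective h hsurj), fun t x => ?_, fun x => ?_⟩
  · simp only [AddMonoidHom.comp_apply, LinearMap.toAddMonoidHom_coe, AddEquiv.coe_toAddMonoidHom]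
    rw [show thetaMap hNM θ pr 𝔪 f (t • x) = t • thetaMap hNM θ pr 𝔪 f x from
      (locMap pr hNM _ f _ 𝔪).map_smul t x, hE]
  · simp only [AddMonoidHom.comp_apply, LinearMap.toAddMonoidHom_coe, AddEquiv.coe_toAddMonoidHom,
      EmbeddingLike.map_eq_zero_iff]
    have hI : LinearMap.ker f = I := rfl
    let g : (R ⧸ I) →ₗ[R] R' := Submodule.liftQ I f hI.ge
    have hg : Function.Injective g :=
      LinearMap.ker_eq_bot.mp (Submodule.ker_liftQ_eq_bot _ _ _ hI.le)
    have hgf : g ∘ₗ Submodule.mkQ I = f := Submodule.liftQ_mkQ _ _ _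
    rw [← ker_thetaMap_mkQ h hfg, LinearMap.mem_ker, ← hgf, thetaMap_comp]
    exact (map_eq_zero_iff _ (thetaMap_injective h hg))

end

end FermatAgent.HM
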