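import Fermat.Agent.HM.H1.Basic
import Mathlib.LinearAlgebra.Matrix.SpecialLinearGroup
import Mathlib.Logic.Equiv.Prod

/-!
# Hecke correspondences on first cohomology

A correspondence is a finite family of integral matrices permuted by right multiplication. It acts
on cocycles through the adjugate matrices.
-/

set_option autoImplicit false

noncomputable section

open scoped MatrixGroups

namespace FermatAgent.HM

/-- Integral two by two matrices. -/
abbrev Mat2 := Matrix (Fin 2) (Fin 2) ℤ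

variable {S : Submonoid Mat2}

lemma mat2_adjugate_mul_coe (γ : SL(2, ℤ)) :
    (γ : Mat2) * Matrix.adjugate (γ : Mat2) = 1 := by
  rw [Matrix.mul_adjugate, γ.det_coe, one_smul]

/-- Right cancellation of a matrix of nonzero determinant in `SL(2, ℤ)`. -/
lemma mat2_coe_mul_inj {a b : SL(2, ℤ)} {M : Mat2} (hM : M.det ≠ 0)
    (h : (a : Mat2) * M = (b : Mat2) * M) : a = b := by
  apply Subtype.ext
  have h1 := congrArg (· * M.adjugate) h
  simp only [mul_assoc, Matrix.mul_adjugate, mul_smul_comm, mul_one] at h1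
  exact smul_right_injective _ hM h1

/-- `Γ` is contained in the monoid of matrices that act. -/
def ActsIn (S : Submonoid Mat2) (Γ : Subgroup SL(2, ℤ)) : Prop :=
  ∀ γ ∈ Γ, ((γ : SL(2, ℤ)) : Mat2) ∈ S

/-- The inclusion of `Γ` in the monoid. -/
def ActsIn.incl {Γ : Subgroup SL(2, ℤ)} (h : ActsIn S Γ) : Γ →* S where
  toFun γ := ⟨((γ : SL(2, ℤ)) : Mat2), h γ γ.2⟩
  map_one' := Subtype.ext rfl
  map_mul' _ _ := Subtype.ext rfl

@[simp] lemma ActsIn.coe_incl {Γ : Subgroup SL(2, ℤ)} (h : ActsIn S Γ) (γ : Γ) :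
    ((h.incl γ : S) : Mat2) = ((γ : SL(2, ℤ)) : Mat2) := rfl

variable {R : Type*} [CommRing R] {X : Type*} [AddCommGroup X] [Module R X]
variable {Γ Γ' Γ'' : Subgroup SL(2, ℤ)}

/-- The representation of `Γ` given by a representation of the monoid. -/
def resRep (h : ActsIn S Γ) (ρ : Representation R S X) : Representation R Γ X :=
  MonoidHom.comp ρ h.incl

/-- The restricted representation acts through the inclusion into `S`. -/
lemma resRep_apply (h : ActsIn S Γ) (ρ : Representation R S X) (γ : Γ) :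
    resRep h ρ γ = ρ (h.incl γ) := rfl

/-- A Hecke correspondence from `Γ` to `Γ'`. -/
structure Corr (S : Submonoid Mat2) (Γ' Γ : Subgroup SL(2, ℤ)) (ι : Type) where
  /-- The matrices. -/
  rep : ι → Mat2
  det_ne : ∀ i, (rep i).det ≠ 0
  adj_mem : ∀ i, (rep i).adjugate ∈ S
  /-- The permutation induced by right multiplication. -/
  perm : Γ' → Equiv.Perm ι
  perm_mul : ∀ a b, perm (a * b) = perm b * perm a
  exists_fac : ∀ (γ : Γ') (i : ι), ∃ el : Γ,
    rep i * ((γ : SL(2, ℤ)) : Mat2) = ((el : SL(2, ℤ)) : Mat2) * rep (perm γ i)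

namespace Corr

variable {ι κ : Type} (D : Corr S Γ' Γ ι)

/-- The adjugate of a representative, as an element of the monoid. -/
def adj (i : ι) : S := ⟨(D.rep i).adjugate, D.adj_mem i⟩

/-- The element moved to the left of a representative. -/
def fac (γ : Γ') (i : ι) : Γ := (D.exists_fac γ i).choose

/-- The defining identity `α_i γ = γ_i α_{π i}` of the factors of a correspondence. -/
lemma fac_spec (γ : Γ') (i : ι) :
    D.rep i * ((γ : SL(2, ℤ)) : Mat2) = ((D.fac γ i : SL(2, ℤ)) : Mat2) * D.rep (D.perm γ i) :=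
  (D.exists_fac γ i).choose_spec

/-- The factor is determined by its defining identity. -/
lemma fac_unique {γ : Γ'} {i : ι} {el : Γ}
    (h : D.rep i * ((γ : SL(2, ℤ)) : Mat2) = ((el : SL(2, ℤ)) : Mat2) * D.rep (D.perm γ i)) :
    D.fac γ i = el :=
  Subtype.ext (mat2_coe_mul_inj (D.det_ne _) ((D.fac_spec γ i).symm.trans h))

/-- The identity permutes the representatives trivially. -/
lemma perm_one : D.perm 1 = 1 := by
  have h := D.perm_mul 1 1
  rw [one_mul] at h
  exact left_eq_mul.mp h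

/-- The factors of the identity are trivial. -/
lemma fac_one (i : ι) : D.fac 1 i = 1 := D.fac_unique (by simp [D.perm_one])

/-- The factors form a cocycle over the permutation action. -/
lemma fac_mul (γ δ : Γ') (i : ι) : D.fac (γ * δ) i = D.fac γ i * D.fac δ (D.perm γ i) := by
  apply D.fac_unique
  rw [D.perm_mul, Equiv.Perm.mul_apply]
  simp only [Subgroup.coe_mul, Matrix.SpecialLinearGroup.coe_mul]
  rw [← mul_assoc, D.fac_spec, mul_assoc, D.fac_spec, ← mul_assoc]

/-- The defining identity of the factors, read through adjugates in `S`. -/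
lemma adj_mul_fac (hΓ' : ActsIn S Γ') (hΓ : ActsIn S Γ) (γ : Γ') (i : ι) :
    D.adj i * hΓ.incl (D.fac γ i) = hΓ'.incl γ * D.adj (D.perm γ i) := by
  apply Subtype.ext
  simp only [Submonoid.coe_mul, ActsIn.coe_incl, adj]
  have h := congrArg Matrix.adjugate (D.fac_spec γ i)
  rw [Matrix.adjugate_mul_distrib, Matrix.adjugate_mul_distrib] at h
  set g : SL(2, ℤ) := (γ : SL(2, ℤ))
  set e : SL(2, ℤ) := (D.fac γ i : SL(2, ℤ))
  have he : Matrix.adjugate (e : Mat2) * (e : Mat2) = 1 := by
    rw [Matrix.adjugate_mul, e.det_coe, one_smul]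
  calc (D.rep i).adjugate * (e : Mat2)
      = ((g : Mat2) * Matrix.adjugate (g : Mat2)) * ((D.rep i).adjugate * (e : Mat2)) := by
        rw [mat2_adjugate_mul_coe, one_mul]
    _ = (g : Mat2) * ((Matrix.adjugate (g : Mat2) * (D.rep i).adjugate) * (e : Mat2)) := by
        simp only [mul_assoc]
    _ = _ := by rw [h, mul_assoc, he, mul_one]

variable [Fintype ι] [Fintype κ] (hΓ'' : ActsIn S Γ'') (hΓ' : ActsIn S Γ') (hΓ : ActsIn S Γ)
  (ρ : Representation R S X)

/-- The action on coefficients (the operator on invariants). -/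
def op0 : X →ₗ[R] X := ∑ i, ρ (D.adj i)

/-- The operator in degree zero is the sum of the adjugates. -/
lemma op0_apply (x : X) : D.op0 ρ x = ∑ i, ρ (D.adj i) x := by simp [op0]

omit [Fintype ι] in
lemma rho_adj_fac (γ : Γ') (i : ι) (x : X) :
    ρ (D.adj i) (resRep hΓ ρ (D.fac γ i) x) = resRep hΓ' ρ γ (ρ (D.adj (D.perm γ i)) x) := by
  rw [resRep_apply, resRep_apply, ← Module.End.mul_apply, ← map_mul, D.adj_mul_fac hΓ' hΓ,
    map_mul, Module.End.mul_apply]

/-- The action on cocycles. -/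
def opZ : Z1 (resRep hΓ ρ) →ₗ[R] Z1 (resRep hΓ' ρ) where
  toFun c := ⟨fun γ => ∑ i, ρ (D.adj i) (c.1 (D.fac γ i)), fun γ δ => by
    simp only [D.fac_mul, Z1.map_mul, map_add, Finset.sum_add_distrib,
      D.rho_adj_fac hΓ' hΓ ρ, map_sum]
    congr 1
    exact Equiv.sum_comp (D.perm γ)
      fun i => resRep hΓ' ρ γ (ρ (D.adj i) (c.1 (D.fac δ i)))⟩
  map_add' c c' := Subtype.ext <| funext fun γ => by simp [Finset.sum_add_distrib]
  map_smul' r c := Subtype.ext <| funext fun γ => by simp [Finset.smul_sum]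

/-- The value of a transferred cocycle. -/
lemma opZ_apply (c : Z1 (resRep hΓ ρ)) (γ : Γ') :
    (D.opZ hΓ' hΓ ρ c).1 γ = ∑ i, ρ (D.adj i) (c.1 (D.fac γ i)) := rfl

/-- The operator on cocycles commutes with coboundaries. -/
lemma opZ_d0 (x : X) :
    D.opZ hΓ' hΓ ρ (d0 (resRep hΓ ρ) x) = d0 (resRep hΓ' ρ) (D.op0 ρ x) := by
  refine Subtype.ext <| funext fun γ => ?_
  rw [opZ_apply, d0_apply, op0_apply, map_sum]
  simp only [d0_apply, map_sub, Finset.sum_sub_distrib, D.rho_adj_fac hΓ' hΓ ρ]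
  congr 1
  exact Equiv.sum_comp (D.perm γ) fun i => resRep hΓ' ρ γ (ρ (D.adj i) x)

/-- The action on cohomology. -/
def op : H1 (resRep hΓ ρ) →ₗ[R] H1 (resRep hΓ' ρ) :=
  Submodule.mapQ _ _ (D.opZ hΓ' hΓ ρ) (by
    rintro c ⟨x, rfl⟩
    exact ⟨D.op0 ρ x, (D.opZ_d0 hΓ' hΓ ρ x).symm⟩)

/-- The operator on classes is computed on cocycles. -/
@[simp] lemma op_mk (c : Z1 (resRep hΓ ρ)) :
    D.op hΓ' hΓ ρ (H1.mk (resRep hΓ ρ) c) = H1.mk (resRep hΓ' ρ) (D.opZ hΓ' hΓ ρ c) := rfl

section Natural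

variable {Y : Type*} [AddCommGroup Y] [Module R Y] {σ : Representation R S Y}

/-- An `S`-equivariant map is equivariant for the restricted actions. -/
lemma isEquiv_resRep {f : X →ₗ[R] Y} (hf : ∀ s x, f (ρ s x) = σ s (f x)) (h : ActsIn S Γ) :
    IsEquiv (resRep h ρ) (resRep h σ) f := fun g x => hf (h.incl g) x

/-- The operator in degree zero is natural in equivariant maps. -/
lemma op0_natural {f : X →ₗ[R] Y} (hf : ∀ s x, f (ρ s x) = σ s (f x)) (x : X) :
    f (D.op0 ρ x) = D.op0 σ (f x) := by simp [op0_apply, hf]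

/-- The operator on cocycles is natural in equivariant maps. -/
lemma opZ_natural {f : X →ₗ[R] Y} (hf : ∀ s x, f (ρ s x) = σ s (f x)) (c : Z1 (resRep hΓ ρ)) :
    mapZ f (isEquiv_resRep ρ hf hΓ') (D.opZ hΓ' hΓ ρ c) =
      D.opZ hΓ' hΓ σ (mapZ f (isEquiv_resRep ρ hf hΓ) c) :=
  Subtype.ext <| funext fun γ => by simp [opZ_apply, hf]

/-- Correspondences commute with coefficient maps. -/
theorem op_natural {f : X →ₗ[R] Y} (hf : ∀ s x, f (ρ s x) = σ s (f x))
    (z : H1 (resRep hΓ ρ)) :
    H1.map f (isEquiv_resRep ρ hf hΓ') (D.op hΓ' hΓ ρ z) =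
      D.op hΓ' hΓ σ (H1.map f (isEquiv_resRep ρ hf hΓ) z) := by
  induction z using H1.induction with
  | _ c => simp only [op_mk, H1.map_mk, D.opZ_natural hΓ' hΓ ρ hf]

end Natural

section Comp

variable (E : Corr S Γ'' Γ' κ)

/-- The composite correspondence. -/
def comp : Corr S Γ'' Γ (κ × ι) where
  rep p := D.rep p.2 * E.rep p.1
  det_ne p := by rw [Matrix.det_mul]; exact mul_ne_zero (D.det_ne _) (E.det_ne _)
  adj_mem p := by
    rw [Matrix.adjugate_mul_distrib]
    exact mul_mem (E.adj_mem _) (D.adj_mem _)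
  perm γ := Equiv.prodShear (E.perm γ) fun k => D.perm (E.fac γ k)
  perm_mul a b := by
    ext p
    · simp [E.perm_mul]
    · simp [E.fac_mul, D.perm_mul]
  exists_fac γ p := ⟨D.fac (E.fac γ p.1) p.2, by
    simp only [Equiv.prodShear_apply]
    rw [mul_assoc, E.fac_spec, ← mul_assoc, D.fac_spec, mul_assoc]⟩

omit [Fintype ι] [Fintype κ] in
/-- The factors of a composite correspondence. -/
lemma comp_fac (γ : Γ'') (p : κ × ι) : (D.comp E).fac γ p = D.fac (E.fac γ p.1) p.2 :=
  (D.comp E).fac_unique (by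
    simp only [comp, Equiv.prodShear_apply]
    rw [mul_assoc, E.fac_spec, ← mul_assoc, D.fac_spec, mul_assoc])

omit [Fintype ι] [Fintype κ] in
lemma adj_comp (p : κ × ι) : (D.comp E).adj p = E.adj p.1 * D.adj p.2 :=
  Subtype.ext (Matrix.adjugate_mul_distrib _ _)

/-- The operator of a composite correspondence is the composite of the operators. -/
theorem op_comp (z : H1 (resRep hΓ ρ)) :
    (D.comp E).op hΓ'' hΓ ρ z = E.op hΓ'' hΓ' ρ (D.op hΓ' hΓ ρ z) := by
  induction z using H1.induction with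
  | _ c =>
    simp only [op_mk]
    refine congrArg _ (Subtype.ext <| funext fun γ => ?_)
    rw [opZ_apply, opZ_apply, Fintype.sum_prod_type]
    refine Finset.sum_congr rfl fun k _ => ?_
    rw [opZ_apply, map_sum]
    exact Finset.sum_congr rfl fun i _ => by
      rw [D.adj_comp, D.comp_fac, map_mul, Module.End.mul_apply]

end Comp

/-- The representatives are inequivalent. -/
def IsIrredundant : Prop :=
  ∀ (i j : ι) (el : Γ), D.rep i = ((el : SL(2, ℤ)) : Mat2) * D.rep j → i = j

/-- Two correspondences with the same representatives up to the left action. -/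
structure Related (D' : Corr S Γ' Γ κ) where
  /-- The bijection of index sets. -/
  idx : κ ≃ ι
  /-- The change of representatives. -/
  shift : κ → Γ
  rep_eq : ∀ k, D'.rep k = ((shift k : SL(2, ℤ)) : Mat2) * D.rep (idx k)
  perm_eq : ∀ γ k, idx (D'.perm γ k) = D.perm γ (idx k)

omit [Fintype ι] [Fintype κ] in
/-- For an irredundant correspondence, one with translated representatives is permuted
compatibly. -/
lemma perm_eq_of_irredundant (hD : D.IsIrredundant) (D' : Corr S Γ' Γ κ) (idx : κ → ι)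
    (shift : κ → Γ) (h : ∀ k, D'.rep k = ((shift k : SL(2, ℤ)) : Mat2) * D.rep (idx k))
    (γ : Γ') (k : κ) : idx (D'.perm γ k) = D.perm γ (idx k) := by
  have h1 := D'.fac_spec γ k
  rw [h, h, mul_assoc, D.fac_spec, ← mul_assoc, ← mul_assoc] at h1
  symm
  refine hD _ _ ((D.fac γ (idx k))⁻¹ * (shift k)⁻¹ *
    (D'.fac γ k * shift (D'.perm γ k))) ?_
  have h2 := congrArg (fun M : Mat2 =>
    (((D.fac γ (idx k))⁻¹ * (shift k)⁻¹ : Γ) : SL(2, ℤ)).1 * M) h1
  simp only [← mul_assoc, Subgroup.coe_mul, Subgroup.coe_inv,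
    ← Matrix.SpecialLinearGroup.coe_mul] at h2 ⊢
  group at h2 ⊢
  simpa using h2

omit [Fintype ι] [Fintype κ] in
/-- The elements moved to the left by related correspondences. -/
lemma Related.fac_eq {D : Corr S Γ' Γ ι} {D' : Corr S Γ' Γ κ} (e : D.Related D') (γ : Γ') (k : κ) :
    D'.fac γ k = e.shift k * D.fac γ (e.idx k) * (e.shift (D'.perm γ k))⁻¹ :=
  D'.fac_unique <| by
    rw [e.rep_eq, e.rep_eq, e.perm_eq, mul_assoc, D.fac_spec, ← mul_assoc, ← mul_assoc]
    congr 1
    rw [← Matrix.SpecialLinearGroup.coe_mul, ← Matrix.SpecialLinearGroup.coe_mul]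
    simp

/-- Two irredundant correspondences with equally many representatives, those of one equivalent to
some of the other, are related. -/
theorem exists_related {D' : Corr S Γ' Γ κ} (hD : D.IsIrredundant) (hD' : D'.IsIrredundant)
    (h : ∀ k, ∃ i, ∃ el : Γ, D'.rep k = ((el : SL(2, ℤ)) : Mat2) * D.rep i)
    (hcard : Fintype.card κ = Fintype.card ι) : Nonempty (D.Related D') := by
  choose f g hfg using h
  have hinj : Function.Injective f := fun k k' hk => hD' k k' (g k * (g k')⁻¹) (by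
    rw [hfg k, hfg k', hk, ← mul_assoc, ← Matrix.SpecialLinearGroup.coe_mul]
    simp)
  exact ⟨{
    idx := Equiv.ofBijective f ((Fintype.bijective_iff_injective_and_card f).mpr ⟨hinj, hcard⟩)
    shift := g
    rep_eq := hfg
    perm_eq := D.perm_eq_of_irredundant hD D' f g hfg }⟩

/-- Related correspondences act in the same way on cohomology. -/
theorem Related.op_eq {D' : Corr S Γ' Γ κ} (e : D.Related D') (z : H1 (resRep hΓ ρ)) :
    D'.op hΓ' hΓ ρ z = D.op hΓ' hΓ ρ z := by
  induction z using H1.induction with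
  | _ c =>
    rw [op_mk, op_mk, H1.mk_eq_mk_iff]
    refine ⟨-∑ k, ρ (D'.adj k) (c.1 (e.shift k)), fun γ => ?_⟩
    have hadj : ∀ (k : κ) (x : X),
        ρ (D'.adj k) (resRep hΓ ρ (e.shift k) x) = ρ (D.adj (e.idx k)) x := fun k x => by
      rw [resRep_apply, ← Module.End.mul_apply, ← map_mul]
      congr 2
      apply Subtype.ext
      simp only [adj, Submonoid.coe_mul, ActsIn.coe_incl, e.rep_eq, Matrix.adjugate_mul_distrib,
        mul_assoc, Matrix.adjugate_mul, Matrix.SpecialLinearGroup.det_coe, one_smul, mul_one]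
    rw [opZ_apply, opZ_apply,
      ← Equiv.sum_comp e.idx fun i => ρ (D.adj i) (c.1 (D.fac γ i)), ← Finset.sum_sub_distrib]
    simp only [map_neg, map_sum]
    rw [← Equiv.sum_comp (D'.perm γ)
      (fun k => resRep hΓ' ρ γ (ρ (D'.adj k) (c.1 (e.shift k))))]
    rw [sub_neg_eq_add, ← sub_eq_neg_add, ← Finset.sum_sub_distrib]
    refine Finset.sum_congr rfl fun k _ => ?_
    rw [← D'.rho_adj_fac hΓ' hΓ ρ, e.fac_eq γ k, Z1.map_mul, Z1.map_mul, map_add, map_add, hadj,
      map_mul, Module.End.mul_apply, Z1.map_inv, map_neg, map_neg, map_neg]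
    simp only [map_mul, Module.End.mul_apply]
    abel

end Corr

end FermatAgent.HM
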