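import Fermat.Agent.HM.H1.DegeneracyRel

/-!
# The degeneracy correspondences commute with Hecke operators at the other primes
-/

set_option autoImplicit false

noncomputable section

open scoped MatrixGroups OnePoint
open CongruenceSubgroup

namespace FermatAgent.HM

/-- **A trace commutes with the Hecke correspondences prime to its index**: for a trace `T` from
`Γ₀(M k)` to `Γ₀(M)` and a prime `p ∤ k`. -/
theorem exists_related_trace {M M' k N L p : ℕ} [Fact p.Prime] {ι : Type} [Fintype ι]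
    (hk : M' = M * k) (hpk : p.Coprime k) (hN : N ∣ M) (hN' : N ∣ M') (hpL : p.Coprime L)
    {T : Corr (sigma0 N L) (Gamma0 M) (Gamma0 M') ι}
    (hT : ∀ i, ∃ g : Gamma0 M, T.rep i = ((g : SL(2, ℤ)) : Mat2))
    (hsurj : ∀ g : Gamma0 M, ∃ el : Gamma0 M', ∃ i,
      ((g : SL(2, ℤ)) : Mat2) = ((el : SL(2, ℤ)) : Mat2) * T.rep i)
    (hirr : T.IsIrredundant) :
    Nonempty ((T.comp (heckeCorr hN hpL)).Related ((heckeCorr hN' hpL).comp T)) := by
  classical
  choose t ht using hT
  have hMM : (M : ℤ) ∣ (M' : ℤ) := Int.natCast_dvd_natCast.mpr ⟨k, hk⟩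
  have hdvd : p ∣ M' ↔ p ∣ M := by
    rw [hk]
    exact ⟨fun h => hpk.dvd_of_dvd_mul_right h, (·.mul_right k)⟩
  refine Corr.exists_related _ (isIrredundant_comp_heckeCorr hirr (fun i => by
    rw [ht, Matrix.SpecialLinearGroup.det_coe]; exact isCoprime_one_left) hN hpL) ?_ ?_ ?_
  · rintro ⟨j, x⟩ ⟨j', x'⟩ el h
    simp only [Corr.comp, heckeCorr_rep, ht] at h
    set G : Gamma0 M := t j * (t j')⁻¹ with hG
    have h4 : hRep M' p x * ((G : SL(2, ℤ)) : Mat2) =
        ((el : SL(2, ℤ)) : Mat2) * hRep M' p x' := by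
      rw [hG, Subgroup.coe_mul, Subgroup.coe_inv, Matrix.SpecialLinearGroup.coe_mul, ← mul_assoc,
        h, mul_assoc, mul_assoc, ← Matrix.SpecialLinearGroup.coe_mul, mul_inv_cancel,
        Matrix.SpecialLinearGroup.coe_one, mul_one]
    have hG' : (G : SL(2, ℤ)) ∈ Gamma0 M' := by
      have h5 := congrFun (congrFun h4 1) 0
      rw [Matrix.mul_apply, Matrix.mul_apply, Fin.sum_univ_two, Fin.sum_univ_two, hRep_ten,
        hRep_ten, zero_mul, zero_add, mul_zero, add_zero] at h5
      obtain ⟨g, hg⟩ := (ZMod.intCast_zmod_eq_zero_iff_dvd _ _).mp (Gamma0_mem.mp G.2)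
      have h6 : (M' : ℤ) ∣ hRep M' p x 1 1 * (G : SL(2, ℤ)) 1 0 := by
        rw [h5]
        exact ((ZMod.intCast_zmod_eq_zero_iff_dvd _ _).mp (Gamma0_mem.mp el.2)).mul_right _
      have hkx : IsCoprime (k : ℤ) (hRep M' p x 1 1) := by
        obtain ⟨x, hx⟩ := x
        induction x using OnePoint.rec with
        | infty => simp [hRep, isCoprime_one_right]
        | coe i => simpa [hRep] using Nat.isCoprime_iff_coprime.mpr hpk.symm
      rw [Gamma0_mem, ZMod.intCast_zmod_eq_zero_iff_dvd, hg]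
      rw [hg] at h6
      have hk' : (M' : ℤ) = M * k := by rw [hk, Nat.cast_mul]
      rcases eq_or_ne (M : ℤ) 0 with hM | hM
      · rw [hM, zero_mul]
        exact dvd_zero _
      have h7 : (M : ℤ) * k ∣ M * (hRep M' p x 1 1 * g) := by
        rw [← hk', mul_left_comm]
        exact h6
      rw [hk']
      exact mul_dvd_mul_left _ (hkx.dvd_of_dvd_mul_left ((mul_dvd_mul_iff_left hM).mp h7))
    obtain rfl : j = j' := hirr j j' ⟨G, hG'⟩ (by
      rw [ht, ht, ← Matrix.SpecialLinearGroup.coe_mul]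
      exact congrArg Subtype.val (inv_mul_cancel_right (t j).1 (t j').1).symm)
    rw [hG, mul_inv_cancel, OneMemClass.coe_one, Matrix.SpecialLinearGroup.coe_one, mul_one] at h4
    rw [show x = x' from Subtype.ext (repMat_unique (γ := (el : SL(2, ℤ))) h4)]
  · rintro ⟨j, x⟩
    obtain ⟨c, hc⟩ := (ZMod.intCast_zmod_eq_zero_iff_dvd _ _).mp (Gamma0_mem.mp (t j).2)
    have ha : IsCoprime ((t j : SL(2, ℤ)) 0 0) (M : ℤ) := by
      have h := (t j : SL(2, ℤ)).det_coe
      rw [Matrix.det_fin_two, hc] at h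
      exact ⟨(t j : SL(2, ℤ)) 1 1, -((t j : SL(2, ℤ)) 0 1 * c), by linear_combination h⟩
    obtain ⟨el, y, h⟩ := exists_eq_coe_mul_hRep (p := p) (M := M)
      (hRep M' p x * ((t j : SL(2, ℤ)) : Mat2))
      (by rw [Matrix.det_mul, det_hRep, Matrix.SpecialLinearGroup.det_coe, mul_one])
      (by
        rw [Matrix.mul_apply, Fin.sum_univ_two, hRep_ten, zero_mul, zero_add, hc]
        exact (dvd_mul_right _ _).mul_left _)
      (by
        rw [Matrix.mul_apply, Fin.sum_univ_two, hc, mul_left_comm]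
        exact (((isCoprime_hRep x).of_isCoprime_of_dvd_right hMM).mul_left ha).add_mul_left_left _)
    obtain ⟨el', i, h'⟩ := hsurj el
    refine ⟨(y, i), el', ?_⟩
    simp only [Corr.comp, heckeCorr_rep]
    rw [ht j, h, h', mul_assoc]
  · rw [Fintype.card_prod, Fintype.card_prod, mul_comm,
      Fintype.card_congr (α := HIdx M' p) (β := HIdx M p)
        (Equiv.subtypeEquivRight fun _ => by rw [hdvd])]

namespace ALData

variable (D : ALData) {N L : ℕ} {R : Type*} [CommRing R]
variable {X : Type*} [AddCommGroup X] [Module R X]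
variable (θ : (ZMod N)ˣ →* R) (hN : N ∣ D.L) (hqL : D.q.Coprime L)
variable {p : ℕ} [Fact p.Prime] (hpq : p ≠ D.q) (hpL : p.Coprime L)

include hpq in
lemma dvd_N_iff : p ∣ D.N ↔ p ∣ D.L := by
  rw [show D.N = D.L * D.q from rfl, (Fact.out : p.Prime).dvd_mul]
  exact ⟨fun h => h.resolve_right fun h' =>
    hpq ((Nat.prime_dvd_prime_iff_eq Fact.out D.prime).mp h'), Or.inl⟩

include hpq in
/-- The index sets at the two levels agree. -/
def idxLow : HIdx D.N p ≃ HIdx D.L p :=
  Equiv.subtypeEquivRight fun x => by rw [D.dvd_N_iff hpq]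

/-- The operator at `p` on level `L`. -/
abbrev lowOp : HLow θ X L D hN →ₗ[R] HLow θ X L D hN :=
  (heckeCorr hN hpL).op (actsIn_gamma0 hN) (actsIn_gamma0 hN) (thetaRep θ X)

/-- The operator at `p` on level `N`. -/
abbrev highOp : HHigh θ X L D hN →ₗ[R] HHigh θ X L D hN :=
  (heckeCorr (D.dvd_N hN) hpL).op (actsIn_gamma0 (D.dvd_N hN)) (actsIn_gamma0 (D.dvd_N hN))
    (thetaRep θ X)

include hpq in
/-- Restriction commutes with the Hecke operator at a prime `p ≠ q`. -/
theorem resOp_comm (z : HLow θ X L D hN) :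
    D.highOp (X := X) θ hN hpL (D.resOp (L := L) (X := X) θ hN z) =
      D.resOp (L := L) (X := X) θ hN (D.lowOp (X := X) θ hN hpL z) := by
  rw [highOp, lowOp, resOp, ← Corr.op_comp, ← Corr.op_comp]
  let e : HIdx D.N p × Unit ≃ Unit × HIdx D.L p :=
    (Equiv.prodComm _ _).trans (Equiv.prodCongr (Equiv.refl _) (D.idxLow hpq))
  have hrep : ∀ k, ((D.resCorr N L).comp (heckeCorr (D.dvd_N hN) hpL)).rep k =
      (((1 : Gamma0 D.L) : SL(2, ℤ)) : Mat2) *
        ((heckeCorr hN hpL).comp (D.resCorr N L)).rep (e k) := fun k => by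
    simp [e, Corr.comp, resCorr, Corr.single, idxLow, hRep]
  exact Corr.Related.op_eq _ _ _ _
    { idx := e
      shift := fun _ => 1
      rep_eq := hrep
      perm_eq := Corr.perm_eq_of_irredundant _
        (fun i j el h => by
          obtain ⟨⟨⟩, i⟩ := i
          obtain ⟨⟨⟩, j⟩ := j
          simp only [Corr.comp, resCorr, Corr.single, mul_one] at h
          rw [isIrredundant_heckeCorr hN hpL i j el h])
        _ e (fun _ => 1) hrep } z

include hpq in
lemma exists_mat_hRep (x : HIdx D.N p) : ∃ (el : Gamma0 D.N) (y : HIdx D.N p),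
    D.mat * hRep D.N p x = ((el : SL(2, ℤ)) : Mat2) * hRep D.N p y * D.mat := by
  obtain ⟨A, hdet, hc, he⟩ := D.exists_conj (hRep D.N p x) (by rw [hRep_ten]; exact dvd_zero _)
  rw [det_hRep] at hdet
  have hq : IsCoprime (hRep D.N p x 1 1) (D.q : ℤ) := by
    obtain ⟨x, hx⟩ := x
    induction x using OnePoint.rec with
    | infty => simp [hRep, isCoprime_one_left]
    | coe j =>
      simpa [hRep] using Nat.isCoprime_iff_coprime.mpr
        ((Nat.coprime_primes Fact.out D.prime).mpr hpq)
  have ha : IsCoprime (A 0 0) (D.N : ℤ) := by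
    obtain ⟨c, hc'⟩ := hc
    have h00 := congrFun (congrFun he 0) 0
    have h01 := congrFun (congrFun he 0) 1
    simp [ALData.mat, Matrix.mul_apply, Fin.sum_univ_two, hRep_ten] at h00 h01
    have hrel := D.rel
    have hA : A 0 0 = D.w * (D.q : ℤ) * hRep D.N p x 0 0 -
        D.L * (D.q * hRep D.N p x 0 1 + D.y * hRep D.N p x 1 1) := by
      have hNN : (D.N : ℤ) = D.L * D.q := by simp [ALData.N]
      rw [hNN] at h00
      have hq0 := D.q_ne_zero
      have : (D.q : ℤ) * (A 0 0) = (D.q : ℤ) * (D.w * (D.q : ℤ) * hRep D.N p x 0 0 -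
          D.L * (D.q * hRep D.N p x 0 1 + D.y * hRep D.N p x 1 1)) := by
        linear_combination (-(D.q : ℤ) * D.w) * h00 + (D.L * D.q : ℤ) * h01 -
          (D.q : ℤ) * A 0 0 * hrel
      exact mul_left_cancel₀ hq0 this
    rw [show (D.N : ℤ) = D.L * D.q by simp [ALData.N]]
    refine IsCoprime.mul_right ?_ ?_
    · have hwq : IsCoprime (D.w * (D.q : ℤ)) (D.L : ℤ) := ⟨1, -D.y, by linear_combination hrel⟩
      have hax : IsCoprime (hRep D.N p x 0 0) (D.L : ℤ) :=
        (isCoprime_hRep x).of_isCoprime_of_dvd_right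
          (Int.natCast_dvd_natCast.mpr D.L_dvd_N)
      rw [hA, sub_eq_add_neg, neg_mul_eq_mul_neg]
      exact (hwq.mul_left hax).add_mul_left_left _
    · have hLy : IsCoprime (-(D.L : ℤ) * D.y) (D.q : ℤ) := ⟨1, D.w, by linear_combination hrel⟩
      have := (hLy.mul_left hq).add_mul_left_left
        (D.w * hRep D.N p x 0 0 - D.L * hRep D.N p x 0 1)
      obtain ⟨u, v, huv⟩ := this
      exact ⟨u, v, by rw [hA]; linear_combination huv⟩
  obtain ⟨el, y, hy⟩ := exists_eq_coe_mul_hRep A hdet hc ha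
  exact ⟨el, y, by rw [he, hy]⟩

include hpq in
/-- The Atkin–Lehner correspondence commutes with the Hecke correspondences away from `q`. -/
theorem exists_related_w :
    Nonempty (((heckeCorr (p := p) (D.dvd_N hN) hpL).comp (D.wCorr (L := L) hN hqL)).Related
      ((D.wCorr hN hqL).comp (heckeCorr (D.dvd_N hN) hpL))) := by
  classical
  refine Corr.exists_related _ ?_ (isIrredundant_comp_heckeCorr (fun _ _ _ _ => rfl) (fun _ => by
    rw [show (D.wCorr hN hqL).rep _ = D.mat from rfl, D.det_mat]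
    exact Nat.isCoprime_iff_coprime.mpr ((Nat.coprime_primes D.prime Fact.out).mpr hpq.symm))
    (D.dvd_N hN) hpL) (fun k => ?_) (by rw [Fintype.card_prod, Fintype.card_prod, mul_comm])
  · rintro ⟨⟨⟩, i⟩ ⟨⟨⟩, j⟩ el h
    simp only [Corr.comp, wCorr, Corr.single, heckeCorr_rep] at h
    rw [← mul_assoc] at h
    have h' := congrArg (· * D.mat.adjugate) h
    simp only [mul_assoc, Matrix.mul_adjugate, mul_smul_comm, mul_one] at h'
    rw [isIrredundant_heckeCorr (D.dvd_N hN) hpL i j el
      (smul_right_injective _ D.det_mat_ne_zero h')]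
  · obtain ⟨el, y, h⟩ := D.exists_mat_hRep hpq k.1
    exact ⟨((), y), el, by simpa [Corr.comp, wCorr, Corr.single, mul_assoc] using h⟩

include hpq in
/-- The Atkin–Lehner operator commutes with the Hecke operator at a prime `p ≠ q`. -/
theorem wOp_comm (z : HHigh θ X L D hN) :
    D.highOp (X := X) θ hN hpL (D.wOp (X := X) θ hN hqL z) =
      D.wOp (X := X) θ hN hqL (D.highOp (X := X) θ hN hpL z) := by
  obtain ⟨e⟩ := D.exists_related_w hN hqL hpq hpL
  rw [highOp, wOp, ← Corr.op_comp, ← Corr.op_comp]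
  exact e.op_eq _ _ _ _ z

include hpq in
/-- Corestriction commutes with the Hecke correspondences away from `q`. -/
theorem exists_related_cor :
    Nonempty (((D.corCorr (N := N) (L := L) hN).comp (heckeCorr (p := p) hN hpL)).Related
      ((heckeCorr (D.dvd_N hN) hpL).comp (D.corCorr hN))) :=
  exists_related_trace rfl ((Nat.coprime_primes Fact.out D.prime).mpr hpq) hN (D.dvd_N hN) hpL
    (fun i => ⟨⟨D.transversal i, D.transversal_mem i⟩, rfl⟩)
    (fun g => ⟨⟨_, D.mul_inv_mem g.2 (D.transversal_mem (D.rowClass (g : SL(2, ℤ))))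
        (D.rowClass_transversal _).symm⟩, D.rowClass (g : SL(2, ℤ)), by
      simp [corCorr, Corr.ofSystem, ← Matrix.SpecialLinearGroup.coe_mul]⟩)
    fun i j el h => by
      have h' : D.transversal i = (el : SL(2, ℤ)) * D.transversal j :=
        Subtype.ext (by simpa [corCorr, Corr.ofSystem] using h)
      have := congrArg D.rowClass h'
      rwa [D.rowClass_transversal, D.rowClass_mul_left el.2, D.rowClass_transversal] at this

include hpq in
/-- Corestriction commutes with the Hecke operator at a prime `p ≠ q`. -/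
theorem corOp_comm (z : HHigh θ X L D hN) :
    D.corOp (L := L) (X := X) θ hN (D.highOp (X := X) θ hN hpL z) =
      D.lowOp (X := X) θ hN hpL (D.corOp (L := L) (X := X) θ hN z) := by
  obtain ⟨e⟩ := D.exists_related_cor hN hpq hpL
  rw [highOp, lowOp, corOp, ← Corr.op_comp, ← Corr.op_comp]
  exact e.op_eq _ _ _ _ z

end ALData

end FermatAgent.HM
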