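import Fermat.Agent.RT.Ladder.SiteMaps

/-!
# Raising the level at an auxiliary prime

If the residual roots of `T² - a_q T + q θ(q)` are distinct and do not square to `θ(q)`, the
`U_q = α` part of level `Mq` is level `M`: the composites of the degeneracy maps are
`t² - θ(q)` and `U_q² - θ(q)`, both units.
-/

set_option autoImplicit false

noncomputable section

open MvPolynomial FermatAgent.RT.Ladder

namespace FermatAgent.HM

namespace ALData

variable (D : ALData) {N L : ℕ} {R : Type} [CommRing R]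
variable {X : Type} [AddCommGroup X] [Module R X]
variable (θ : (ZMod N)ˣ →* R) (hN : N ∣ D.L) (hqL : D.q.Coprime L)
variable {ι : Type} (pr : ι → HPrime L)

/-- Residual data at the auxiliary prime. -/
structure SplitRoots (D : ALData) {N L : ℕ} {R : Type} [CommRing R] [IsLocalRing R]
    (θ : (ZMod N)ˣ →* R) (hN : N ∣ D.L) {ι : Type} (pr : ι → HPrime L)
    (𝔪 𝔫 : Ideal (HPoly R ι)) (α β : R) : Prop where
  ne_q : ∀ i, ((pr i).1.1 : ℕ) ≠ D.q
  prod_eq : α * β = (D.q : R) * D.thetaQ θ hN
  unit_alpha : IsUnit α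
  distinct : IsUnit (α - β)
  not_new : IsUnit (α ^ 2 - D.thetaQ θ hN)
  low : MvPolynomial.X none - C (α + β) ∈ 𝔪
  high : MvPolynomial.X none - C α ∈ 𝔫
  others : ∀ p : MvPolynomial ι R, rename some p ∈ 𝔪 ↔ rename some p ∈ 𝔫
  maximal_low : ∀ r ∈ IsLocalRing.maximalIdeal R, C r ∈ 𝔪
  maximal_high : ∀ r ∈ IsLocalRing.maximalIdeal R, C r ∈ 𝔫

variable {θ hN hqL pr} [IsLocalRing R] {𝔪 𝔫 : Ideal (HPoly R ι)} {α β : R}
variable {D}
variable [𝔪.IsMaximal] [𝔫.IsMaximal] [IsNoetherianRing R]
  [IsAdicComplete (IsLocalRing.maximalIdeal R) R]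
  [Module.Finite R X]

/-- The localised Hecke module of level `L` is the `U_q = α` part of level `Lq`. -/
theorem exists_level_iso [NeZero D.L] (h : SplitRoots D θ hN pr 𝔪 𝔫 α β) :
    ∃ Φ : LocalizedModule 𝔪.primeCompl (D.LowMod hN hqL pr θ X) ≃ₗ[R]
        LocalizedModule 𝔫.primeCompl (D.HighMod hN hqL pr θ X),
      (∀ a, Φ (LocalizedModule.mk a 1) =
        LocalizedModule.mk (D.resMod θ hN hqL pr a) 1) ∧
      ∀ (p : MvPolynomial ι R) z, Φ (rename some p • z) = rename some p • Φ z := by
  have h' : PairRoots D θ hN pr 𝔪 𝔫 α β :=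
    ⟨h.ne_q, h.prod_eq, h.unit_alpha, h.distinct, h.low, h.high, h.others, h.maximal_low,
      h.maximal_high⟩
  obtain ⟨t, ht⟩ := exists_siteRoot (hqL := hqL) (X := X) h'
  obtain ⟨f, hf, hfsm⟩ := exists_siteUp h' ht
  obtain ⟨g, hg, -⟩ := exists_siteDown h' ht
  have key : ∀ {J : Ideal (HPoly R ι)} [J.IsMaximal] {c : HPoly R ι}, c - C α ∈ J →
      c ^ 2 - C (D.thetaQ θ hN) ∉ J := fun {J} _ {c} hc hmem =>
    C_not_mem (J := J) h.not_new (by
      have h5 := J.sub_mem hmem (J.mul_mem_left (c + C α) hc)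
      convert h5 using 1
      simp only [map_sub, map_pow]; ring)
  have hinj : Function.Injective f := fun x y hxy => (bijective_of_notMem (key ht.1)).1 (by
    simpa only [siteDown_siteUp hf hg ht] using congrArg g hxy)
  have hsurj : Function.Surjective f := fun y => by
    obtain ⟨z, rfl⟩ := (bijective_of_notMem (key h.high)).2 y
    exact ⟨g z, siteUp_siteDown hf hg hfsm z⟩
  refine ⟨LinearEquiv.ofBijective f ⟨hinj, hsurj⟩, hf, fun p z => ?_⟩
  have hs : subst t (rename some p) = rename some p := by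
    have he : (subst t : HPoly R ι →ₐ[R] _).comp (rename some) = rename some :=
      MvPolynomial.algHom_ext fun i => by simp [subst]
    exact AlgHom.congr_fun he p
  show f (rename some p • z) = rename some p • f z
  rw [hfsm, hs]

end ALData

end FermatAgent.HM
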