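import Fermat.Agent.HM.H1.DegeneracyOps

/-!
# Relations between the degeneracy correspondences and `U_q`
-/

set_option autoImplicit false

noncomputable section

open scoped MatrixGroups OnePoint
open CongruenceSubgroup

namespace FermatAgent.HM

namespace Corr

variable {S : Submonoid Mat2} {Γ Γ' : Subgroup SL(2, ℤ)} {ι : Type}
variable {R : Type*} [CommRing R] {X : Type*} [AddCommGroup X] [Module R X]
variable [Fintype ι] {hΓ' : ActsIn S Γ'} {hΓ : ActsIn S Γ} {ρ : Representation R S X}

/-- Representatives scaled by a matrix acting as a scalar give a scalar multiple. -/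
theorem op_eq_smul_op {κ : Type} [Fintype κ] (D : Corr S Γ' Γ ι) (D' : Corr S Γ' Γ κ) (e : κ ≃ ι)
    (g : κ → Γ) (n : ℤ) (hn : n ≠ 0)
    (hrep : ∀ k, D'.rep k = n • (((g k : SL(2, ℤ)) : Mat2) * D.rep (e k)))
    (hD : D.IsIrredundant) (a : R)
    (hscal : ∀ A B : S, (A : Mat2) = n • (B : Mat2) → ∀ x, ρ A x = a • ρ B x)
    (z : H1 (resRep hΓ ρ)) : D'.op hΓ' hΓ ρ z = a • D.op hΓ' hΓ ρ z := by
  have hadj : ∀ k, (D'.rep k).adjugate =
      n • (((g k : SL(2, ℤ)) : Mat2) * D.rep (e k)).adjugate := fun k => by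
    rw [hrep, Matrix.adjugate_smul, Fintype.card_fin]
    simp
  let D'' : Corr S Γ' Γ κ :=
    { rep := fun k => ((g k : SL(2, ℤ)) : Mat2) * D.rep (e k)
      det_ne := fun k => by
        rw [Matrix.det_mul, Matrix.SpecialLinearGroup.det_coe, one_mul]; exact D.det_ne _
      adj_mem := fun k => by
        rw [Matrix.adjugate_mul_distrib, ← Matrix.SpecialLinearGroup.coe_inv]
        exact mul_mem (D.adj_mem _) (hΓ _ (inv_mem (g k).2))
      perm := D'.perm
      perm_mul := D'.perm_mul
      exists_fac := fun γ k => ⟨D'.fac γ k, by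
        have h := D'.fac_spec γ k
        rw [hrep, hrep, smul_mul_assoc, mul_smul_comm] at h
        exact smul_right_injective _ hn h⟩ }
  have he : D''.op hΓ' hΓ ρ z = D.op hΓ' hΓ ρ z :=
    Related.op_eq (D := D) (D' := D'') hΓ' hΓ ρ
      { idx := e, shift := g, rep_eq := fun k => rfl
        perm_eq := D.perm_eq_of_irredundant hD D'' e g fun k => rfl } z
  rw [← he]
  clear he
  induction z using H1.induction with
  | _ c =>
    rw [op_mk, op_mk, ← map_smul]
    refine congrArg _ (Subtype.ext <| funext fun γ => ?_)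
    rw [opZ_apply, Submodule.coe_smul, Pi.smul_apply, opZ_apply, Finset.smul_sum]
    refine Finset.sum_congr rfl fun k _ => ?_
    have hfac : D''.fac γ k = D'.fac γ k := D''.fac_unique (by
      have h := D'.fac_spec γ k
      rw [hrep, hrep, smul_mul_assoc, mul_smul_comm] at h
      exact smul_right_injective _ hn h)
    rw [hfac]
    exact hscal (D'.adj k) (D''.adj k) (hadj k) _

omit [Fintype ι] in
/-- A correspondence split in two stable parts. -/
theorem op_eq_add {κ₁ κ₂ : Type} [Fintype κ₁] [Fintype κ₂] [Fintype ι] (D : Corr S Γ' Γ ι)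
    (D₁ : Corr S Γ' Γ κ₁) (D₂ : Corr S Γ' Γ κ₂) (e : κ₁ ⊕ κ₂ ≃ ι)
    (h₁ : ∀ k, D₁.rep k = D.rep (e (Sum.inl k))) (h₂ : ∀ k, D₂.rep k = D.rep (e (Sum.inr k)))
    (hD : D.IsIrredundant) (z : H1 (resRep hΓ ρ)) :
    D.op hΓ' hΓ ρ z = D₁.op hΓ' hΓ ρ z + D₂.op hΓ' hΓ ρ z := by
  induction z using H1.induction with
  | _ c =>
    rw [op_mk, op_mk, op_mk, ← map_add]
    refine congrArg _ (Subtype.ext <| funext fun γ => ?_)
    rw [opZ_apply, Submodule.coe_add, Pi.add_apply, opZ_apply, opZ_apply,
      ← Equiv.sum_comp e fun i => ρ (D.adj i) (c.1 (D.fac γ i)), Fintype.sum_sum_type]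
    congr 1
    · refine Finset.sum_congr rfl fun k _ => ?_
      have hp := D.perm_eq_of_irredundant hD D₁ (fun k => e (Sum.inl k)) (fun _ => 1)
        (fun k => by simp [h₁]) γ k
      have hf : D₁.fac γ k = D.fac γ (e (Sum.inl k)) := D₁.fac_unique (by
        rw [h₁, h₁, hp, D.fac_spec])
      rw [hf]
      exact congrArg₂ (fun s x => ρ s x) (Subtype.ext (by simp [adj, h₁])) rfl
    · refine Finset.sum_congr rfl fun k _ => ?_
      have hp := D.perm_eq_of_irredundant hD D₂ (fun k => e (Sum.inr k)) (fun _ => 1)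
        (fun k => by simp [h₂]) γ k
      have hf : D₂.fac γ k = D.fac γ (e (Sum.inr k)) := D₂.fac_unique (by
        rw [h₂, h₂, hp, D.fac_spec])
      rw [hf]
      exact congrArg₂ (fun s x => ρ s x) (Subtype.ext (by simp [adj, h₂])) rfl

end Corr

namespace ALData

variable (D : ALData) {N L : ℕ} {R : Type*} [CommRing R]
variable {X : Type*} [AddCommGroup X] [Module R X]
variable (θ : (ZMod N)ˣ →* R) (hN : N ∣ D.L) (hqL : D.q.Coprime L)

/-- The Hecke operator at `q` on level `L`. -/
abbrev tqOp : HLow θ X L D hN →ₗ[R] HLow θ X L D hN :=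
  (heckeCorr (p := D.q) hN hqL).op (actsIn_gamma0 hN) (actsIn_gamma0 hN) (thetaRep θ X)

/-- The Hecke operator at `q` on level `N`. -/
abbrev uqOp : HHigh θ X L D hN →ₗ[R] HHigh θ X L D hN :=
  (heckeCorr (p := D.q) (D.dvd_N hN) hqL).op (actsIn_gamma0 (D.dvd_N hN))
    (actsIn_gamma0 (D.dvd_N hN)) (thetaRep θ X)

/-- The Atkin–Lehner operator squares to `θ(q)`. -/
theorem wOp_wOp (z : HHigh θ X L D hN) :
    D.wOp (X := X) θ hN hqL (D.wOp (X := X) θ hN hqL z) = D.thetaQ θ hN • z := by
  rw [wOp, ← Corr.op_comp]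
  let I : Corr (sigma0 N L) (Gamma0 D.N) (Gamma0 D.N) Unit :=
    Corr.single 1 (by simp) (by simp) fun γ => ⟨γ, by simp⟩
  rw [Corr.op_eq_smul_op I _ (Equiv.punitProd Unit) (fun _ => ⟨D.sqSL, D.sqSL_mem⟩) (D.q : ℤ)
    D.q_ne_zero (fun k => by simp [Corr.comp, I, wCorr, Corr.single, D.mat_sq])
    (fun _ _ _ _ => Subsingleton.elim _ _) _
    (fun A B h x => D.thetaRep_adjugate_scalar θ hN A B h x) z,
    Corr.op_eq_card_smul I _ (fun _ => 1) (fun _ => by simp [I, Corr.single]) z]
  simp

/-- Multiplying `diag(q, 1)` by the transversal gives representatives of `T_q`. -/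
lemma exists_diag_transversal (x : D.PLine) : ∃ (el : Gamma0 D.L) (y : HIdx D.L D.q),
    D.diagQ * ((D.transversal x : SL(2, ℤ)) : Mat2) =
      ((el : SL(2, ℤ)) : Mat2) * hRep D.L D.q y := by
  have hc : (D.L : ℤ) ∣ (D.transversal x) 1 0 :=
    (ZMod.intCast_zmod_eq_zero_iff_dvd _ _).mp (Gamma0_mem.mp (D.transversal_mem x))
  refine exists_eq_coe_mul_hRep _ ?_ ?_ ?_
  · rw [Matrix.det_mul, det_diagQ, Matrix.SpecialLinearGroup.det_coe, mul_one]
  · simpa [diagQ, Matrix.mul_apply, Fin.sum_univ_two] using hc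
  · have ha : IsCoprime ((D.transversal x) 0 0) (D.L : ℤ) := by
      have h := (D.transversal x).det_coe
      rw [Matrix.det_fin_two] at h
      obtain ⟨c, hc⟩ := hc
      rw [hc] at h
      exact ⟨(D.transversal x) 1 1, -((D.transversal x) 0 1 * c), by linear_combination h⟩
    simpa [diagQ, Matrix.mul_apply, Fin.sum_univ_two] using
      (D.coprime_q dvd_rfl).mul_left ha

/-- Corestriction after the second degeneracy operator is `T_q`. -/
theorem corOp_degOp (z : HLow θ X L D hN) :
    D.corOp (L := L) (X := X) θ hN (D.degOp (X := X) θ hN hqL z) = D.tqOp (X := X) θ hN hqL z := by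
  classical
  set T := heckeCorr (N := N) (L := L) (p := D.q) hN hqL
  set E := (D.diagCorr (L := L) hN hqL).comp (D.corCorr hN) with hE
  have hex : ∀ p : D.PLine × Unit, ∃ y : HIdx D.L D.q, ∃ el : Gamma0 D.L,
      E.rep p = ((el : SL(2, ℤ)) : Mat2) * T.rep y := fun p => by
    obtain ⟨el, y, h⟩ := D.exists_diag_transversal p.1
    exact ⟨y, el, h⟩
  choose f g hfg using hex
  have hinj : Function.Injective f := by
    rintro ⟨x, ⟨⟩⟩ ⟨x', ⟨⟩⟩ hxx
    have h1 := hfg (x, ())
    have h2 := hfg (x', ())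
    rw [← hxx] at h2
    set el := g (x, ()) * (g (x', ()))⁻¹ with hel
    have h3 : D.diagQ * ((D.transversal x : SL(2, ℤ)) : Mat2) =
        ((el : SL(2, ℤ)) : Mat2) * (D.diagQ * ((D.transversal x' : SL(2, ℤ)) : Mat2)) := by
      change E.rep (x, ()) = _ * E.rep (x', ())
      rw [h1, h2, ← mul_assoc, ← Matrix.SpecialLinearGroup.coe_mul, hel]
      simp
    have hG : D.transversal x * (D.transversal x')⁻¹ ∈ Gamma0 D.N := by
      have h4 : D.diagQ * ((D.transversal x * (D.transversal x')⁻¹ : SL(2, ℤ)) : Mat2) =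
          ((el : SL(2, ℤ)) : Mat2) * D.diagQ := by
        rw [Matrix.SpecialLinearGroup.coe_mul, ← mul_assoc, h3, mul_assoc, mul_assoc,
          ← Matrix.SpecialLinearGroup.coe_mul, mul_inv_cancel,
          Matrix.SpecialLinearGroup.coe_one, mul_one]
      have h5 := congrFun (congrFun h4 1) 0
      simp [diagQ, Matrix.mul_apply, Fin.sum_univ_two] at h5
      obtain ⟨c, hc⟩ := (ZMod.intCast_zmod_eq_zero_iff_dvd _ _).mp (Gamma0_mem.mp el.2)
      rw [Gamma0_mem, ZMod.intCast_zmod_eq_zero_iff_dvd]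
      simp only [show D.N = D.L * D.q from rfl]
      push_cast
      refine ⟨c, ?_⟩
      simp [Matrix.mul_apply, Fin.sum_univ_two]
      linear_combination h5 + (D.q : ℤ) * hc
    have h6 := congrArg D.rowClass (inv_mul_cancel_right (D.transversal x) (D.transversal x'))
    rw [D.rowClass_mul_left hG, D.rowClass_transversal, D.rowClass_transversal] at h6
    rw [h6]
  have hbij : Function.Bijective f := (Fintype.bijective_iff_injective_and_card f).mpr ⟨hinj, by
    rw [Fintype.card_prod, Fintype.card_unit, mul_one, card_hIdx D.not_dvd,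
      ← Nat.card_eq_fintype_card, show D.PLine = Option (ZMod D.q) from rfl, Finite.card_option,
      Nat.card_zmod]⟩
  rw [corOp, degOp, ← Corr.op_comp]
  exact Corr.Related.op_eq _ _ _ _
    { idx := Equiv.ofBijective f hbij
      shift := g
      rep_eq := hfg
      perm_eq := T.perm_eq_of_irredundant
        (fun i j el h => Subtype.ext (repMat_unique (γ := (el : SL(2, ℤ))) h)) E f g hfg } z

/-- The composite `U_q W` is `θ(q)` times the complement of the identity in restriction after
corestriction. -/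
theorem uqOp_wOp (z : HHigh θ X L D hN) :
    D.uqOp (X := X) θ hN hqL (D.wOp (X := X) θ hN hqL z) =
      D.thetaQ θ hN •
        (D.resOp (L := L) (X := X) θ hN (D.corOp (L := L) (X := X) θ hN z) - z) := by
  classical
  set E := (D.corCorr hN).comp (D.resCorr N L) with hE
  have hErep : ∀ p : Unit × D.PLine, E.rep p = ((D.transversal p.2 : SL(2, ℤ)) : Mat2) := by
    intro p
    simp [hE, Corr.comp, resCorr, corCorr, Corr.single, Corr.ofSystem]
  have hEirr : E.IsIrredundant := by
    rintro ⟨⟨⟩, i⟩ ⟨⟨⟩, j⟩ el h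
    rw [hErep, hErep] at h
    have h' : D.transversal i = (el : SL(2, ℤ)) * D.transversal j := Subtype.ext (by simpa using h)
    have := congrArg D.rowClass h'
    rw [D.rowClass_transversal, D.rowClass_mul_left el.2, D.rowClass_transversal] at this
    rw [this]
  let I : Corr (sigma0 N L) (Gamma0 D.N) (Gamma0 D.N) Unit :=
    Corr.single 1 (by simp) (by simp) fun γ => ⟨γ, by simp⟩
  -- the finite part of the transversal
  let P := {x : D.PLine // x ≠ ∞}
  have hP : ∀ (γ : Gamma0 D.N) (x : D.PLine), E.perm γ ((), x) = ((), ∞) ↔ x = ∞ := by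
    intro γ x
    have hinf : E.perm γ ((), (∞ : D.PLine)) = ((), ∞) :=
      hEirr _ _ ((E.fac γ ((), ∞))⁻¹ * γ) (by
        have h := E.fac_spec γ ((), ∞)
        rw [hErep, show D.transversal ∞ = 1 from rfl] at h
        rw [hErep ((), ∞), show D.transversal ∞ = 1 from rfl]
        simp only [Matrix.SpecialLinearGroup.coe_one, one_mul, mul_one] at h ⊢
        simp only [Subgroup.coe_mul, Subgroup.coe_inv, Matrix.SpecialLinearGroup.coe_mul]
        rw [h, ← mul_assoc, ← Matrix.SpecialLinearGroup.coe_mul, inv_mul_cancel,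
          Matrix.SpecialLinearGroup.coe_one, one_mul])
    refine ⟨fun h => ?_, fun h => h ▸ hinf⟩
    exact congrArg Prod.snd ((E.perm γ).injective (h.trans hinf.symm))
  let permP : Gamma0 D.N → Equiv.Perm P := fun γ =>
    Equiv.Perm.subtypePerm
      (((Equiv.punitProd D.PLine).symm.trans (E.perm γ)).trans (Equiv.punitProd D.PLine))
      fun x => by
        have := hP γ x
        simp only [Equiv.trans_apply, Equiv.punitProd_apply, Equiv.punitProd_symm_apply, ne_eq]
        exact not_congr ⟨fun h => this.mp (Prod.ext rfl h), fun h => congrArg Prod.snd (this.mpr h)⟩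
  let F : Corr (sigma0 N L) (Gamma0 D.N) (Gamma0 D.N) P :=
    { rep := fun x => E.rep ((), x.1)
      det_ne := fun x => E.det_ne _
      adj_mem := fun x => E.adj_mem _
      perm := permP
      perm_mul := fun a b => Equiv.ext fun x => Subtype.ext (by
        simp only [permP, E.perm_mul]
        rfl)
      exists_fac := fun γ x => ⟨E.fac γ ((), x.1), by
        rw [E.fac_spec]
        rfl⟩ }
  have hsplit : ∀ z, E.op (actsIn_gamma0 (D.dvd_N hN)) (actsIn_gamma0 (D.dvd_N hN))
      (thetaRep θ X) z = F.op (actsIn_gamma0 (D.dvd_N hN)) (actsIn_gamma0 (D.dvd_N hN))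
        (thetaRep θ X) z + z := fun z => by
    let e : P ⊕ Unit ≃ Unit × D.PLine :=
      { toFun := Sum.elim (fun x => ((), x.1)) (fun _ => ((), ∞))
        invFun := fun p => if h : p.2 = ∞ then Sum.inr () else Sum.inl ⟨p.2, h⟩
        left_inv := fun s => by
          rcases s with ⟨x, hx⟩ | ⟨⟩
          · simp [hx]
          · simp
        right_inv := fun p => by
          obtain ⟨⟨⟩, x⟩ := p
          by_cases h : x = ∞ <;> simp [h] }
    rw [E.op_eq_add F I e (fun k => rfl)
      (fun k => by simp [I, e, Corr.single, hErep]; rfl) hEirr z]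
    congr 1
    rw [Corr.op_eq_card_smul I _ (fun _ => 1) (fun _ => by simp [I, Corr.single]) z]
    simp
  rw [uqOp, wOp, ← Corr.op_comp, resOp, corOp, ← Corr.op_comp]
  change _ = D.thetaQ θ hN • (E.op (actsIn_gamma0 (D.dvd_N hN)) (actsIn_gamma0 (D.dvd_N hN))
    (thetaRep θ X) z - z)
  rw [hsplit, add_sub_cancel_right]
  -- the representatives
  let idx : HIdx D.N D.q × Unit → P := fun p =>
    ⟨p.1.1, fun h => p.1.2 h D.q_dvd_N⟩
  have hidx : Function.Bijective idx :=
    ⟨fun p p' h => Prod.ext (Subtype.ext (congrArg (fun y : P => y.1) h)) rfl,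
      fun x => ⟨(⟨x.1, fun h => absurd h x.2⟩, ()), rfl⟩⟩
  refine Corr.op_eq_smul_op F _ (Equiv.ofBijective idx hidx) (fun _ => 1) (D.q : ℤ) D.q_ne_zero
    (fun p => ?_)
    (fun i j el h => Subtype.ext (congrArg Prod.snd (hEirr ((), i.1) ((), j.1) el h))) _
    (fun A B h x => D.thetaRep_adjugate_scalar θ hN A B h x) z
  · obtain ⟨⟨x, hx⟩, ⟨⟩⟩ := p
    induction x using OnePoint.rec with
    | infty => exact absurd D.q_dvd_N (hx rfl)
    | coe j =>
      simp only [F, idx, Equiv.ofBijective_apply, hErep]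
      ext i k
      fin_cases i <;> fin_cases k <;>
        simp [Corr.comp, wCorr, Corr.single, hRep, ALData.mat, transversal, ALData.N, mul_add,
          add_comm, mul_comm, mul_left_comm]
      ring

end ALData

end FermatAgent.HM
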