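import Fermat.Agent.HM.H1.Localise
import Fermat.Agent.HM.H1.Lift
import Mathlib.Data.ZMod.Units

/-!
# Diamond coefficients

The action of `Γ₀(M)` on an `R`-module through a character of `(ℤ/N)ˣ` applied to the lower
right entry.
-/

set_option autoImplicit false

noncomputable section

open scoped MatrixGroups
open CongruenceSubgroup MvPolynomial

namespace FermatAgent.HM

variable {R : Type*} [CommRing R] {N L M : ℕ}

/-- The lower right entry as a unit modulo `N`. -/
def lowerRightUnit : sigma0 N L →* (ZMod N)ˣ where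
  toFun A := (ZMod.coe_int_isUnit_iff_isCoprime (A.1 1 1) N).mpr A.2.2.1.symm |>.unit
  map_one' := Units.ext (by simp)
  map_mul' A B := Units.ext (by
    simp only [IsUnit.unit_spec, Units.val_mul, Submonoid.coe_mul, Matrix.mul_apply,
      Fin.sum_univ_two]
    obtain ⟨c, hc⟩ := A.2.1
    rw [hc]
    push_cast
    rw [ZMod.natCast_self, zero_mul, zero_mul, zero_add])

/-- The unit of a matrix is its lower right entry modulo `N`. -/
@[simp] lemma coe_lowerRightUnit (A : sigma0 N L) :
    ((lowerRightUnit A : (ZMod N)ˣ) : ZMod N) = (A.1 1 1 : ℤ) := rfl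

variable (θ : (ZMod N)ˣ →* R) (X : Type*) [AddCommGroup X] [Module R X]

/-- The coefficient system of the character `θ` on `X`. -/
def thetaRep : Representation R (sigma0 N L) X :=
  (algebraMap R (Module.End R X)).toMonoidHom.comp (θ.comp lowerRightUnit)

/-- The diamond action is multiplication by `θ` of the lower right entry. -/
lemma thetaRep_apply (A : sigma0 N L) (x : X) :
    thetaRep θ X A x = θ (lowerRightUnit A) • x := rfl

variable {X} {Y : Type*} [AddCommGroup Y] [Module R Y]

/-- Every linear map is equivariant for the diamond actions. -/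
lemma isHeckeEquiv_thetaRep (f : X →ₗ[R] Y) :
    IsHeckeEquiv (thetaRep θ X) (thetaRep (L := L) θ Y) f := fun s x => by
  simp [thetaRep_apply]

/-- For an even character `-1` acts trivially. -/
lemma thetaRep_neg_one (hθ : θ (-1) = 1) (hNM : N ∣ M) (hneg : (-1 : SL(2, ℤ)) ∈ Gamma0 M)
    (x : X) : resRep (actsIn_gamma0 (L := L) hNM) (thetaRep θ X) ⟨-1, hneg⟩ x = x := by
  rw [resRep_apply, thetaRep_apply]
  have h : lowerRightUnit ((actsIn_gamma0 (L := L) hNM).incl ⟨-1, hneg⟩) = -1 :=
    Units.ext (by simp)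
  rw [h, hθ, one_smul]

/-- `-1` lies in `Γ₀(M)`. -/
lemma neg_one_mem_gamma0 (M : ℕ) : (-1 : SL(2, ℤ)) ∈ Gamma0 M := by
  simp [Gamma0_mem]

/-- The index set at a prime not dividing the level has `p + 1` elements. -/
lemma card_hIdx {p : ℕ} [Fact p.Prime] (hpM : ¬ p ∣ M) :
    Fintype.card (HIdx M p) = p + 1 := by
  rw [← Nat.card_eq_fintype_card,
    Nat.card_congr (Equiv.subtypeUnivEquiv fun _ _ => hpM : HIdx M p ≃ OnePoint (ZMod p)),
    show OnePoint (ZMod p) = Option (ZMod p) from rfl, Finite.card_option, Nat.card_zmod]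

/-- At a prime `ℓ ≡ 1 mod N` not dividing `M` the operator on coefficients is `ℓ + 1`. -/
theorem hecke0_thetaRep (hNM : N ∣ M) (p : HPrime L) (hpM : ¬ (p.1.1 : ℕ) ∣ M)
    (hp1 : ((p.1.1 : ℕ) : ZMod N) = 1) (x : X) :
    hecke0 hNM (thetaRep θ X) p x = ((p.1.1 : ℕ) + 1 : R) • x := by
  have : Fact p.1.1.Prime := ⟨p.1.2⟩
  have h : ∀ i : HIdx M p.1.1,
      thetaRep θ X ((heckeCorr hNM p.2).adj i) x = x := fun i => by
    rw [thetaRep_apply]
    have h1 : lowerRightUnit ((heckeCorr hNM p.2).adj i) = 1 := Units.ext <| by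
      obtain ⟨i, hi⟩ := i
      rw [coe_lowerRightUnit]
      induction i using OnePoint.rec with
      | infty => simp [Corr.adj, hRep, Matrix.adjugate_fin_two, hp1]
      | coe j => simp [Corr.adj, hRep, Matrix.adjugate_fin_two]
    rw [h1, map_one, one_smul]
  rw [hecke0, Corr.op0_apply, Finset.sum_congr rfl fun i _ => h i, Finset.sum_const,
    Finset.card_univ, card_hIdx hpM, ← Nat.cast_smul_eq_nsmul R]
  push_cast
  rfl

end FermatAgent.HM
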