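import Fermat.Agent.HM.H1.Transfer
import Mathlib.Algebra.Module.LocalizedModule.Exact

/-!
# The auxiliary Hecke module through parabolic homomorphisms of `Γ_H`

The parabolic classes form a Hecke stable submodule of the cohomology with diamond coefficients,
with the same localisation at a non-Eisenstein prime; endomorphisms of the parabolic
homomorphisms of `Γ_H` commuting with transfers and conjugations act on the localisation.
-/

set_option autoImplicit false

noncomputable section

open scoped MatrixGroups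
open CongruenceSubgroup ModularCurve.Period MvPolynomial

namespace FermatAgent.HM

variable {O : Type*} [CommRing O] {Δ : Type*} [CommGroup Δ] [Finite Δ] {N L M : ℕ} [NeZero M]
variable {δ : (ZMod N)ˣ →* Δ} {hNM : N ∣ M} {ι : Type} {pr : ι → HPrime L}
variable (hδ : Function.Surjective δ)

/-- The module with diamond coefficients. -/
abbrev DiamondH1 (O : Type*) [CommRing O] (δ : (ZMod N)ˣ →* Δ) (hNM : N ∣ M)
    (pr : ι → HPrime L) :=
  HeckeH1 hNM pr (diamondRep O δ)

/-- Composition of homomorphisms with a conjugation. -/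
def conjHomOp (ε : Gamma0 M) :
    (Additive (gammaH δ hNM) →+ O) →+ (Additive (gammaH δ hNM) →+ O) where
  toFun φ := φ.comp (MonoidHom.toAdditive (conjGammaH ε))
  map_zero' := rfl
  map_add' _ _ := rfl

omit [Finite Δ] [NeZero M] in
/-- Conjugation by `Γ₀(M)` preserves parabolic homomorphisms of `Γ_H`. -/
lemma conjHomOp_parabolic (ε : Gamma0 M) {φ : Additive (gammaH δ hNM) →+ O}
    (hφ : IsParabolicHom (gammaH δ hNM) φ) :
    IsParabolicHom (gammaH δ hNM) (conjHomOp ε φ) := fun γ hγ => by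
  refine hφ (conjGammaH ε γ) ?_
  change ((((ε : SL(2, ℤ))⁻¹ * (γ : SL(2, ℤ)) * (ε : SL(2, ℤ))) : SL(2, ℤ)) : Mat2).trace ^ 2 = 4
  rw [trace_conj_SL]
  exact hγ

variable (O δ hNM pr) in
/-- Shapiro on the Hecke module. -/
def shapiroHecke : DiamondH1 O δ hNM pr ≃+ (Additive (gammaH δ hNM) →+ O) :=
  (toHeckeH1 pr hNM (diamondRep O δ)).symm.toAddEquiv.trans (shapiro O δ hNM hδ)

/-- Shapiro's isomorphism on the Hecke module is computed on cocycles. -/
lemma shapiroHecke_mk (c : DiamondZ1 O δ hNM L) :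
    shapiroHecke O δ hNM pr hδ (toHeckeH1 pr hNM (diamondRep O δ)
      (H1.mk (resRep (actsIn_gamma0 (L := L) hNM) (diamondRep O δ)) c)) =
      shapiroHom O δ hNM c := by
  simp [shapiroHecke]

omit [Finite Δ] [NeZero M] in
/-- Every element of the Hecke module is the class of a cocycle. -/
lemma exists_mk_eq (z : DiamondH1 O δ hNM pr) :
    ∃ c : DiamondZ1 O δ hNM L, z = toHeckeH1 pr hNM (diamondRep O δ)
      (H1.mk (resRep (actsIn_gamma0 (L := L) hNM) (diamondRep O δ)) c) := by
  obtain ⟨c, hc⟩ := H1.mk_surjective ((toHeckeH1 pr hNM (diamondRep O δ)).symm z)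
  exact ⟨c, by rw [hc, LinearEquiv.apply_symm_apply]⟩

/-- Scalars in `O` act on values. -/
lemma shapiroHecke_scalar (a : O) (z : DiamondH1 O δ hNM pr) :
    shapiroHecke O δ hNM pr hδ ((MonoidAlgebra.single (1 : Δ) a) • z) =
      a • shapiroHecke O δ hNM pr hδ z := by
  obtain ⟨c, rfl⟩ := exists_mk_eq z
  rw [← map_smul, ← map_smul, shapiroHecke_mk, shapiroHecke_mk]
  refine AddMonoidHom.ext fun γ => ?_
  obtain ⟨γ, rfl⟩ := Additive.ofMul.surjective γ
  have h := shapiroHom_smul a c γ
  rw [MonoidAlgebra.coe_algebraMap, Function.comp_apply, Algebra.algebraMap_self,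
    RingHom.id_apply] at h
  exact h

/-- Group elements act by conjugation. -/
lemma shapiroHecke_group {u : Δ} {ε : Gamma0 M} (hε : gammaClass δ hNM ε = u⁻¹)
    (z : DiamondH1 O δ hNM pr) :
    shapiroHecke O δ hNM pr hδ ((MonoidAlgebra.single u (1 : O)) • z) =
      conjHomOp ε (shapiroHecke O δ hNM pr hδ z) := by
  obtain ⟨c, rfl⟩ := exists_mk_eq z
  rw [← map_smul, ← map_smul, shapiroHecke_mk, shapiroHecke_mk]
  refine AddMonoidHom.ext fun γ => ?_
  obtain ⟨γ, rfl⟩ := Additive.ofMul.surjective γ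
  change _ = shapiroHom O δ hNM c (Additive.ofMul (conjGammaH ε γ))
  rw [← coeff_cocycle_conj, hε, shapiroHom_apply, Submodule.coe_smul, Pi.smul_apply, smul_eq_mul,
    MonoidAlgebra.coeff_single_mul_apply, one_mul, mul_one]

/-- The Hecke operators act by transfers. -/
theorem exists_transfer (i : ι) :
    haveI : Fact (pr i).1.1.Prime := ⟨(pr i).1.2⟩
    ∃ (r : HIdx M (pr i).1.1 → Gamma0 M)
      (E : Corr (sigma0 N L) (gammaH δ hNM) (gammaH δ hNM) (HIdx M (pr i).1.1)),
      (∀ x, E.rep x = (((r x)⁻¹ : Gamma0 M) : SL(2, ℤ)).1 * hRep M (pr i).1.1 x) ∧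
      (∀ x, diamondClass δ (E.adj x) = 1) ∧
      ∀ z : DiamondH1 O δ hNM pr,
        shapiroHecke O δ hNM pr hδ
            ((MvPolynomial.X i : MvPolynomial ι (MonoidAlgebra O Δ)) • z) =
          E.homOp (shapiroHecke O δ hNM pr hδ z) := by
  have : Fact (pr i).1.1.Prime := ⟨(pr i).1.2⟩
  choose r hr using fun x : HIdx M (pr i).1.1 =>
    gammaClass_surjective δ hNM hδ (diamondClass δ ((heckeCorr (L := L) hNM (pr i).2).adj x))⁻¹
  obtain ⟨E, hrep, hadj, hE⟩ := exists_corr_gammaH (O := O) (heckeCorr hNM (pr i).2) r hr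
  refine ⟨r, E, hrep, hadj, fun z => ?_⟩
  obtain ⟨c, rfl⟩ := exists_mk_eq z
  rw [X_smul_mk, shapiroHecke_mk, shapiroHecke_mk, hE]

variable (O δ hNM pr) in
/-- The parabolic classes. -/
def parSub : Submodule (MvPolynomial ι (MonoidAlgebra O Δ)) (DiamondH1 O δ hNM pr) where
  carrier := {z | shapiroHecke O δ hNM pr hδ z ∈ parabolicHoms O (gammaH δ hNM) O}
  zero_mem' := by simp
  add_mem' {z w} hz hw := by
    simp only [Set.mem_ofPred_eq, map_add]
    exact add_mem hz hw
  smul_mem' t z hz := by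
    induction t using MvPolynomial.induction_on generalizing z with
    | C a =>
      simp only [Set.mem_ofPred_eq, C_smul_eq] at hz ⊢
      induction a using MonoidAlgebra.induction_linear with
      | zero => simp
      | add f g hf hg => rw [add_smul, map_add]; exact add_mem hf hg
      | single u a =>
        obtain ⟨ε, hε⟩ := gammaClass_surjective δ hNM hδ u⁻¹
        rw [show MonoidAlgebra.single u a =
            MonoidAlgebra.single (1 : Δ) a * MonoidAlgebra.single u (1 : O) by
            rw [MonoidAlgebra.single_mul_single, one_mul, mul_one],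
          mul_smul, shapiroHecke_scalar, shapiroHecke_group hδ hε]
        exact Submodule.smul_mem _ a (conjHomOp_parabolic ε hz)
    | add t t' ht ht' =>
      simp only [Set.mem_ofPred_eq, add_smul, map_add] at *
      exact add_mem (ht z hz) (ht' z hz)
    | mul_X t i ht =>
      rw [mul_smul]
      refine ht _ ?_
      obtain ⟨r, E, -, -, hE⟩ := exists_transfer (O := O) (pr := pr) (hNM := hNM) hδ i
      simp only [Set.mem_ofPred_eq, hE]
      have : Fact (pr i).1.1.Prime := ⟨(pr i).1.2⟩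
      exact E.homOp_parabolic hz

/-- A class is parabolic iff its homomorphism on `Γ_H` is parabolic. -/
lemma mem_parSub {z : DiamondH1 O δ hNM pr} :
    z ∈ parSub O δ hNM pr hδ ↔
      shapiroHecke O δ hNM pr hδ z ∈ parabolicHoms O (gammaH δ hNM) O := Iff.rfl

/-- An endomorphism of the parabolic homomorphisms commuting with the transfers and the
conjugations is one of the parabolic Hecke module. -/
theorem exists_parEnd (f : parabolicHoms O (gammaH δ hNM) O →ₗ[O] parabolicHoms O (gammaH δ hNM) O)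
    (hconj : ∀ (ε : Gamma0 M) (φ : parabolicHoms O (gammaH δ hNM) O),
      (f ⟨conjHomOp ε φ.1, conjHomOp_parabolic ε φ.2⟩).1 = conjHomOp ε (f φ).1)
    (htr : ∀ i, haveI : Fact (pr i).1.1.Prime := ⟨(pr i).1.2⟩
      ∀ (r : HIdx M (pr i).1.1 → Gamma0 M)
        (E : Corr (sigma0 N L) (gammaH δ hNM) (gammaH δ hNM) (HIdx M (pr i).1.1)),
        (∀ x, E.rep x = (((r x)⁻¹ : Gamma0 M) : SL(2, ℤ)).1 * hRep M (pr i).1.1 x) →
        (∀ x, diamondClass δ (E.adj x) = 1) →
        ∀ φ : parabolicHoms O (gammaH δ hNM) O,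
          (f ⟨E.homOp φ.1, E.homOp_parabolic φ.2⟩).1 = E.homOp (f φ).1) :
    ∃ F : Module.End (MvPolynomial ι (MonoidAlgebra O Δ)) (parSub O δ hNM pr hδ),
      ∀ z, shapiroHecke O δ hNM pr hδ (F z : DiamondH1 O δ hNM pr) =
        (f ⟨shapiroHecke O δ hNM pr hδ z.1, z.2⟩).1 := by
  let F₀ : parSub O δ hNM pr hδ → parSub O δ hNM pr hδ := fun z =>
    ⟨(shapiroHecke O δ hNM pr hδ).symm (f ⟨shapiroHecke O δ hNM pr hδ z.1, z.2⟩).1, by
      rw [mem_parSub, AddEquiv.apply_symm_apply]; exact Subtype.mem _⟩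
  have hF : ∀ z, shapiroHecke O δ hNM pr hδ (F₀ z).1 =
      (f ⟨shapiroHecke O δ hNM pr hδ z.1, z.2⟩).1 := fun z => AddEquiv.apply_symm_apply _ _
  have hext : ∀ {z w : parSub O δ hNM pr hδ},
      shapiroHecke O δ hNM pr hδ z.1 = shapiroHecke O δ hNM pr hδ w.1 → z = w :=
    fun h => Subtype.ext ((shapiroHecke O δ hNM pr hδ).injective h)
  have hcongr : ∀ z (φ : parabolicHoms O (gammaH δ hNM) O),
      shapiroHecke O δ hNM pr hδ z.1 = φ.1 → shapiroHecke O δ hNM pr hδ (F₀ z).1 = (f φ).1 :=
    fun z φ h => (hF z).trans (congrArg (fun ψ => (f ψ).1) (Subtype.ext h))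
  have hadd : ∀ z w, F₀ (z + w) = F₀ z + F₀ w := fun z w => hext (by
    rw [hcongr (z + w) (⟨_, z.2⟩ + ⟨_, w.2⟩) (by simp), map_add, Submodule.coe_add,
      Submodule.coe_add, map_add, hF, hF])
  have hsmul : ∀ (t : MvPolynomial ι (MonoidAlgebra O Δ)) z, F₀ (t • z) = t • F₀ z := by
    intro t
    induction t using MvPolynomial.induction_on with
    | C a =>
      induction a using MonoidAlgebra.induction_linear with
      | zero =>
        intro z
        have h0 : F₀ 0 = 0 := by simpa using hadd 0 0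
        rw [map_zero, zero_smul, h0, zero_smul]
      | add a b ha hb => intro z; rw [map_add, add_smul, hadd, ha, hb, add_smul]
      | single u a =>
        intro z
        obtain ⟨ε, hε⟩ := gammaClass_surjective δ hNM hδ u⁻¹
        have hs : ∀ w : DiamondH1 O δ hNM pr, shapiroHecke O δ hNM pr hδ
            ((C (MonoidAlgebra.single u a) : MvPolynomial ι (MonoidAlgebra O Δ)) • w) =
            a • conjHomOp ε (shapiroHecke O δ hNM pr hδ w) := fun w => by
          rw [C_smul_eq, show MonoidAlgebra.single u a =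
            MonoidAlgebra.single (1 : Δ) a * MonoidAlgebra.single u (1 : O) by
            rw [MonoidAlgebra.single_mul_single, one_mul, mul_one],
            mul_smul, shapiroHecke_scalar, shapiroHecke_group hδ hε]
        refine hext ?_
        rw [hcongr _ (a • ⟨_, conjHomOp_parabolic ε z.2⟩) (by simp [hs]), map_smul,
          Submodule.coe_smul, hconj ε ⟨_, z.2⟩, Submodule.coe_smul, hs, hF]
    | add t t' ht ht' => intro z; rw [add_smul, hadd, ht, ht', add_smul]
    | mul_X t i ht =>
      intro z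
      rw [mul_smul, ht, mul_smul]
      congr 1
      obtain ⟨r, E, hrep, hadj, hE⟩ := exists_transfer (O := O) (pr := pr) (hNM := hNM) hδ i
      have : Fact (pr i).1.1.Prime := ⟨(pr i).1.2⟩
      refine hext ?_
      rw [hcongr _ ⟨_, E.homOp_parabolic z.2⟩ (by simp [hE]), htr i r E hrep hadj ⟨_, z.2⟩,
        Submodule.coe_smul, hE, hF]
  exact ⟨{ toFun := F₀, map_add' := hadd, map_smul' := hsmul }, hF⟩

variable (𝔪 : Ideal (MvPolynomial ι (MonoidAlgebra O Δ))) [𝔪.IsPrime]

variable (O δ hNM pr) in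
/-- The parabolic classes in the localisation. -/
def parToLoc : parSub O δ hNM pr hδ →ₗ[MvPolynomial ι (MonoidAlgebra O Δ)]
    HeckeLoc pr hNM (diamondRep O δ) 𝔪 :=
  (LocalizedModule.mkLinearMap 𝔪.primeCompl (DiamondH1 O δ hNM pr)) ∘ₗ
    (parSub O δ hNM pr hδ).subtype

/-- At a non-Eisenstein prime the localisation is that of the parabolic classes. -/
theorem isLocalizedModule_parToLoc (hneg : δ (-1) = 1) (i : ι)
    (hi : (((pr i).1.1 : ℕ) : ZMod M) = 1)
    (hne : MvPolynomial.X i - C (((pr i).1.1 : ℕ) + 1 : MonoidAlgebra O Δ) ∉ 𝔪) :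
    IsLocalizedModule 𝔪.primeCompl (parToLoc O δ hNM pr hδ 𝔪) := by
  have : Fact (pr i).1.1.Prime := ⟨(pr i).1.2⟩
  obtain ⟨r, E, hrep, hadj, hE⟩ := exists_transfer (O := O) (pr := pr) (hNM := hNM) hδ i
  have hu := isUnitRootHecke_gammaH hi hneg E r hrep hadj
  have hmem : ∀ z : DiamondH1 O δ hNM pr,
      (MvPolynomial.X i - C (((pr i).1.1 : ℕ) + 1 : MonoidAlgebra O Δ) :
        MvPolynomial ι (MonoidAlgebra O Δ)) • z ∈ parSub O δ hNM pr hδ := fun z => by
    rw [mem_parSub, sub_smul, map_sub, hE, ← Nat.cast_one (R := MonoidAlgebra O Δ),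
      ← Nat.cast_add, map_natCast, Nat.cast_smul_eq_nsmul, map_nsmul]
    exact hu.isParabolicHom _
  refine ⟨fun s => IsLocalizedModule.map_units
      (LocalizedModule.mkLinearMap 𝔪.primeCompl (DiamondH1 O δ hNM pr)) s,
    fun y => ?_, fun {x₁ x₂} h => ?_⟩
  · induction y using LocalizedModule.induction_on with
    | _ m s =>
      let e : 𝔪.primeCompl := ⟨_, hne⟩
      refine ⟨⟨⟨_, hmem m⟩, e * s⟩, ?_⟩
      simp only [parToLoc, LinearMap.comp_apply, Submodule.subtype_apply,
        LocalizedModule.mkLinearMap_apply, Submonoid.smul_def, LocalizedModule.smul'_mk]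
      rw [LocalizedModule.mk_eq]
      exact ⟨1, by simp [Submonoid.smul_def, e, ← mul_smul, mul_comm]⟩
  · simp only [parToLoc, LinearMap.comp_apply, Submodule.subtype_apply] at h
    obtain ⟨c, hc⟩ := (IsLocalizedModule.eq_iff_exists 𝔪.primeCompl
      (LocalizedModule.mkLinearMap 𝔪.primeCompl (DiamondH1 O δ hNM pr))).mp h
    exact ⟨c, Subtype.ext (by simpa [Submonoid.smul_def] using hc)⟩

/-- Endomorphisms of the parabolic classes act on the localised module. -/
def parLocEnd (hloc : IsLocalizedModule 𝔪.primeCompl (parToLoc O δ hNM pr hδ 𝔪)) :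
    Module.End (MvPolynomial ι (MonoidAlgebra O Δ)) (parSub O δ hNM pr hδ) →+*
      Module.End (MvPolynomial ι (MonoidAlgebra O Δ)) (HeckeLoc pr hNM (diamondRep O δ) 𝔪) :=
  haveI := hloc
  { toFun := fun F => IsLocalizedModule.map 𝔪.primeCompl (parToLoc O δ hNM pr hδ 𝔪)
      (parToLoc O δ hNM pr hδ 𝔪) F
    map_one' := IsLocalizedModule.ext 𝔪.primeCompl (parToLoc O δ hNM pr hδ 𝔪)
      (IsLocalizedModule.map_units (parToLoc O δ hNM pr hδ 𝔪))
      (LinearMap.ext fun z => by simp [IsLocalizedModule.map_apply])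
    map_mul' := fun F G => IsLocalizedModule.ext 𝔪.primeCompl (parToLoc O δ hNM pr hδ 𝔪)
      (IsLocalizedModule.map_units (parToLoc O δ hNM pr hδ 𝔪))
      (LinearMap.ext fun z => by simp [IsLocalizedModule.map_apply])
    map_zero' := map_zero _
    map_add' := fun F G => map_add _ F G }

/-- The endomorphism of the localisation extends the given one. -/
lemma parLocEnd_apply (hloc : IsLocalizedModule 𝔪.primeCompl (parToLoc O δ hNM pr hδ 𝔪))
    (F : Module.End (MvPolynomial ι (MonoidAlgebra O Δ)) (parSub O δ hNM pr hδ))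
    (z : parSub O δ hNM pr hδ) :
    parLocEnd hδ 𝔪 hloc F (parToLoc O δ hNM pr hδ 𝔪 z) = parToLoc O δ hNM pr hδ 𝔪 (F z) :=
  haveI := hloc
  IsLocalizedModule.map_apply _ _ _ _ _

end FermatAgent.HM
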