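import Fermat.Agent.HM.H1.Diamond
import Mathlib.RingTheory.Finiteness.Basic

/-!
# The localised functor is exact

For a non-Eisenstein prime of the abstract Hecke algebra, `X ↦ H¹(Γ₀(M), X_θ)_𝔪` is exact on
`R`-modules, and commutes with quotients by ideals.
-/

set_option autoImplicit false

noncomputable section

open scoped MatrixGroups
open CongruenceSubgroup MvPolynomial

namespace FermatAgent.HM

variable {R : Type*} [CommRing R] {N L M : ℕ} {ι : Type}

/-- The hypotheses under which the functor is exact. -/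
structure NonEis (hNM : N ∣ M) (θ : (ZMod N)ˣ →* R) (pr : ι → HPrime L)
    (𝔪 : Ideal (MvPolynomial ι R)) : Prop where
  theta_neg_one : θ (-1) = 1
  two : IsUnit (2 : R)
  three : IsUnit (3 : R) ∨
    ∀ γ ∈ Gamma0 M, ((γ : SL(2, ℤ)) : Matrix (Fin 2) (Fin 2) ℤ).trace ≠ 1
  witness : ∃ i : ι, ¬ ((pr i).1.1 : ℕ) ∣ M ∧ (((pr i).1.1 : ℕ) : ZMod N) = 1 ∧
    (MvPolynomial.X i - C (((pr i).1.1 : ℕ) + 1 : R)) ∉ 𝔪

variable {hNM : N ∣ M} {θ : (ZMod N)ˣ →* R} {pr : ι → HPrime L}
variable {𝔪 : Ideal (MvPolynomial ι R)} [𝔪.IsPrime]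

variable (hNM θ pr 𝔪) in
/-- The localised Hecke module with coefficients in `X`. -/
abbrev ThetaLoc (X : Type*) [AddCommGroup X] [Module R X] :=
  HeckeLoc pr hNM (thetaRep (L := L) θ X) 𝔪

variable {X Y W : Type*} [AddCommGroup X] [Module R X] [AddCommGroup Y] [Module R Y]
  [AddCommGroup W] [Module R W]

variable (hNM θ pr 𝔪) in
/-- Functoriality in the coefficients. -/
def thetaMap (f : X →ₗ[R] Y) : ThetaLoc hNM θ pr 𝔪 X →ₗ[R] ThetaLoc hNM θ pr 𝔪 Y :=
  (locMap pr hNM (thetaRep θ X) f (isHeckeEquiv_thetaRep θ f) 𝔪).restrictScalars R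

/-- The map of localised modules is computed on fractions. -/
lemma thetaMap_mk (f : X →ₗ[R] Y) (z : HeckeH1 hNM pr (thetaRep (L := L) θ X))
    (s : 𝔪.primeCompl) :
    thetaMap hNM θ pr 𝔪 f (LocalizedModule.mk z s) =
      LocalizedModule.mk (heckeMap pr hNM _ f (isHeckeEquiv_thetaRep θ f) z) s := by
  rw [thetaMap, LinearMap.restrictScalars_apply, locMap, IsLocalizedModule.mk_eq_mk',
    IsLocalizedModule.map_mk', ← IsLocalizedModule.mk_eq_mk']

lemma heckeMap_induction {p : HeckeH1 hNM pr (thetaRep (L := L) θ X) → Prop}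
    (h : ∀ c, p (toHeckeH1 pr hNM (thetaRep θ X)
      (H1.mk (resRep (actsIn_gamma0 hNM) (thetaRep (L := L) θ X)) c)))
    (z : HeckeH1 hNM pr (thetaRep (L := L) θ X)) : p z := by
  obtain ⟨c, hc⟩ := H1.mk_surjective ((toHeckeH1 pr hNM (thetaRep θ X)).symm z)
  have := h c
  rwa [hc, LinearEquiv.apply_symm_apply] at this

/-- The localised functor respects composition. -/
lemma thetaMap_comp (f : X →ₗ[R] Y) (g : Y →ₗ[R] W) (z : ThetaLoc hNM θ pr 𝔪 X) :
    thetaMap hNM θ pr 𝔪 (g ∘ₗ f) z = thetaMap hNM θ pr 𝔪 g (thetaMap hNM θ pr 𝔪 f z) := by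
  induction z using LocalizedModule.induction_on with
  | _ z s =>
    rw [thetaMap_mk, thetaMap_mk, thetaMap_mk]
    congr 1
    induction z using heckeMap_induction with
    | _ c => rfl

/-- The localised functor respects the identity. -/
lemma thetaMap_id (z : ThetaLoc hNM θ pr 𝔪 X) :
    thetaMap hNM θ pr 𝔪 (LinearMap.id : X →ₗ[R] X) z = z := by
  induction z using LocalizedModule.induction_on with
  | _ z s =>
    rw [thetaMap_mk]
    congr 1
    induction z using heckeMap_induction with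
    | _ c => rfl

lemma thetaMap_add (f g : X →ₗ[R] Y) (z : ThetaLoc hNM θ pr 𝔪 X) :
    thetaMap hNM θ pr 𝔪 (f + g) z = thetaMap hNM θ pr 𝔪 f z + thetaMap hNM θ pr 𝔪 g z := by
  induction z using LocalizedModule.induction_on with
  | _ z s =>
    rw [thetaMap_mk, thetaMap_mk, thetaMap_mk, LocalizedModule.mk_add_mk, ← smul_add,
      LocalizedModule.mk_cancel_common_left]
    congr 1
    induction z using heckeMap_induction with
    | _ c =>
      simp only [heckeMap_mk]
      rw [← map_add, ← map_add]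
      rfl

/-- The localised functor sends zero to zero. -/
lemma thetaMap_zero (z : ThetaLoc hNM θ pr 𝔪 X) :
    thetaMap hNM θ pr 𝔪 (0 : X →ₗ[R] Y) z = 0 := by
  have h := thetaMap_add (0 : X →ₗ[R] Y) 0 z
  rw [add_zero] at h
  exact left_eq_add.mp h

/-- The localised functor sends a scalar to the same scalar. -/
lemma thetaMap_smul_id (r : R) (z : ThetaLoc hNM θ pr 𝔪 X) :
    thetaMap hNM θ pr 𝔪 (r • LinearMap.id : X →ₗ[R] X) z = r • z := by
  induction z using LocalizedModule.induction_on with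
  | _ z s =>
    rw [thetaMap_mk, LocalizedModule.smul'_mk]
    refine congrArg (fun w => LocalizedModule.mk w s) ?_
    induction z using heckeMap_induction with
    | _ c =>
      rw [heckeMap_mk, ← map_smul (toHeckeH1 pr hNM _)]
      exact congrArg _ (H1.map_eq_smul r _ (Corr.isEquiv_resRep _ (isHeckeEquiv_thetaRep θ _) _)
        (fun x => rfl) (H1.mk (resRep (actsIn_gamma0 hNM) (thetaRep (L := L) θ X)) c))

/-- The maps induced by a linear equivalence. -/
def thetaEquiv (e : X ≃ₗ[R] Y) : ThetaLoc hNM θ pr 𝔪 X ≃ₗ[R] ThetaLoc hNM θ pr 𝔪 Y :=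
  LinearEquiv.ofLinearMap (thetaMap hNM θ pr 𝔪 e.toLinearMap)
    (thetaMap hNM θ pr 𝔪 e.symm.toLinearMap)
    (LinearMap.ext fun z => by
      rw [LinearMap.comp_apply, ← thetaMap_comp, LinearEquiv.comp_symm, thetaMap_id]; rfl)
    (LinearMap.ext fun z => by
      rw [LinearMap.comp_apply, ← thetaMap_comp, LinearEquiv.symm_comp, thetaMap_id]; rfl)

variable [NeZero M] (h : NonEis hNM θ pr 𝔪)

include h in
/-- The localised functor preserves surjections. -/
theorem thetaMap_surjective {f : X →ₗ[R] Y} (hf : Function.Surjective f) :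
    Function.Surjective (thetaMap hNM θ pr 𝔪 f) := by
  refine locMap_surjective pr hNM _ f _ 𝔪 fun z => ?_
  obtain ⟨w, hw⟩ := H1.map_surjective_of_surjective (neg_one_mem_gamma0 M)
    (thetaRep_neg_one θ h.theta_neg_one hNM _) (thetaRep_neg_one θ h.theta_neg_one hNM _)
    h.two h.three (Corr.isEquiv_resRep _ (isHeckeEquiv_thetaRep θ f) _) hf
    ((toHeckeH1 pr hNM (thetaRep θ Y)).symm z)
  exact ⟨toHeckeH1 pr hNM (thetaRep θ X) w, (congrArg (toHeckeH1 pr hNM (thetaRep θ Y)) hw).trans
    (LinearEquiv.apply_symm_apply _ z)⟩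

include h in
omit [NeZero M] in
/-- The localised functor preserves injections. -/
theorem thetaMap_injective {f : X →ₗ[R] Y} (hf : Function.Injective f) :
    Function.Injective (thetaMap hNM θ pr 𝔪 f) := by
  obtain ⟨i, hiM, hi1, hne⟩ := h.witness
  exact locMap_injective pr hNM _ f _ (LinearMap.range f).mkQ 𝔪
    (LinearMap.exact_map_mkQ_range f) hf i _ hne
    (fun w _ => hecke0_thetaRep θ hNM (pr i) hiM hi1 w)
    (isHeckeEquiv_thetaRep θ _)

omit [NeZero M] in
/-- The localised functor is exact. -/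
theorem thetaMap_exact {f : X →ₗ[R] Y} {g : Y →ₗ[R] W} (hf : Function.Injective f)
    (hg : Function.Surjective g) (hfg : Function.Exact f g) :
    Function.Exact (thetaMap hNM θ pr 𝔪 f) (thetaMap hNM θ pr 𝔪 g) :=
  fun z => locMap_exact pr hNM _ f (isHeckeEquiv_thetaRep θ f) g
    (isHeckeEquiv_thetaRep θ g) 𝔪 hfg hf hg z

include h in
/-- The kernel of reduction modulo a finitely generated ideal. -/
theorem ker_thetaMap_mkQ {I : Ideal R} (hI : I.FG) :
    LinearMap.ker (thetaMap hNM θ pr 𝔪 (Submodule.mkQ I)) =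
      I • (⊤ : Submodule R (ThetaLoc hNM θ pr 𝔪 R)) := by
  apply le_antisymm
  · intro z hz
    obtain ⟨w, rfl⟩ := (thetaMap_exact (Submodule.injective_subtype I) I.mkQ_surjective
      (LinearMap.exact_subtype_mkQ I) z).mp hz
    obtain ⟨n, s, hs⟩ := Submodule.fg_iff_exists_fin_generating_family.mp hI
    let φ : (Fin n → R) →ₗ[R] I := (Fintype.linearCombination R fun j => (⟨s j, by
      rw [← hs]; exact Submodule.subset_span ⟨j, rfl⟩⟩ : I))
    have hφ : Function.Surjective φ := fun ⟨a, ha⟩ => by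
      rw [← hs, Submodule.mem_span_range_iff_exists_fun] at ha
      obtain ⟨c, hc⟩ := ha
      exact ⟨c, Subtype.ext (by simp [φ, Fintype.linearCombination_apply, ← hc])⟩
    obtain ⟨v, rfl⟩ := thetaMap_surjective h hφ w
    rw [← thetaMap_comp]
    have hdec : (Submodule.subtype I).comp φ =
        ∑ j, (s j • LinearMap.id) ∘ₗ (LinearMap.proj j : (Fin n → R) →ₗ[R] R) := by
      refine LinearMap.ext fun c => ?_
      simp [φ, Fintype.linearCombination_apply, mul_comm]
    rw [hdec]
    have hsum : ∀ (t : Finset (Fin n)) (F : Fin n → ((Fin n → R) →ₗ[R] R)),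
        thetaMap hNM θ pr 𝔪 (∑ j ∈ t, F j) v = ∑ j ∈ t, thetaMap hNM θ pr 𝔪 (F j) v := by
      intro t F
      induction t using Finset.cons_induction with
      | empty => simp [thetaMap_zero]
      | cons a t ha ih => rw [Finset.sum_cons, Finset.sum_cons, thetaMap_add, ih]
    rw [hsum]
    refine Submodule.sum_mem _ fun j _ => ?_
    rw [thetaMap_comp, thetaMap_smul_id]
    exact Submodule.smul_mem_smul (by rw [← hs]; exact Submodule.subset_span ⟨j, rfl⟩)
      Submodule.mem_top
  · rw [Submodule.smul_le]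
    intro r hr z _
    rw [LinearMap.mem_ker, ← thetaMap_smul_id (X := R) r z, ← thetaMap_comp]
    have h0 : (Submodule.mkQ I) ∘ₗ (r • LinearMap.id : R →ₗ[R] R) = 0 :=
      LinearMap.ext fun x => (Submodule.Quotient.mk_eq_zero I).mpr (I.mul_mem_right x hr)
    rw [h0, thetaMap_zero]

end FermatAgent.HM
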