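import Fermat.Agent.HM.H1.Corr
import Fermat.Agent.HM.HeckeCosets

/-!
# The Hecke correspondences of `Γ₀(M)` at all primes

`heckeCorr` is `T_p` for `p ∤ M` and `U_p` for `p ∣ M`; they commute on cohomology.
-/

set_option autoImplicit false

noncomputable section

open scoped MatrixGroups OnePoint
open CongruenceSubgroup

namespace FermatAgent.HM

/-- Matrices with lower left entry divisible by `N`, lower right prime to `N` and determinant
prime to `L`. -/
def sigma0 (N L : ℕ) : Submonoid Mat2 where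
  carrier := {A | (N : ℤ) ∣ A 1 0 ∧ IsCoprime (A 1 1) (N : ℤ) ∧ IsCoprime A.det (L : ℤ)}
  one_mem' := by simp [isCoprime_one_left]
  mul_mem' := by
    rintro A B ⟨hA, hA', hA''⟩ ⟨hB, hB', hB''⟩
    refine ⟨?_, ?_, ?_⟩
    · rw [Matrix.mul_apply, Fin.sum_univ_two]
      exact dvd_add (hA.mul_right _) (hB.mul_left _)
    · rw [Matrix.mul_apply, Fin.sum_univ_two]
      obtain ⟨c, hc⟩ := hA
      rw [hc, mul_assoc, add_comm]
      exact (hA'.mul_left hB').add_mul_left_left _
    · rw [Matrix.det_mul]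
      exact hA''.mul_left hB''

/-- Criterion for an adjugate to lie in `Σ₀(N, L)`. -/
lemma adjugate_mem_sigma0 {N L : ℕ} {A : Mat2} (hc : (N : ℤ) ∣ A 1 0)
    (ha : IsCoprime (A 0 0) (N : ℤ)) (hd : IsCoprime A.det (L : ℤ)) :
    A.adjugate ∈ sigma0 N L := by
  refine ⟨?_, ?_, ?_⟩
  · rw [Matrix.adjugate_fin_two]
    simpa using hc
  · rw [Matrix.adjugate_fin_two]
    simpa using ha
  · rw [Matrix.det_adjugate]
    simpa using hd

/-- `Γ₀(M)` acts through `Σ₀(N, L)` when `N ∣ M`. -/
theorem actsIn_gamma0 {N L M : ℕ} (hNM : N ∣ M) : ActsIn (sigma0 N L) (Gamma0 M) := by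
  intro γ hγ
  have hc : (N : ℤ) ∣ γ 1 0 :=
    (Int.natCast_dvd_natCast.mpr hNM).trans ((ZMod.intCast_zmod_eq_zero_iff_dvd _ _).mp
      (Gamma0_mem.mp hγ))
  refine ⟨hc, ?_, by rw [γ.det_coe]; exact isCoprime_one_left⟩
  obtain ⟨c, hc⟩ := hc
  have hdet := γ.det_coe
  rw [Matrix.det_fin_two, hc] at hdet
  exact ⟨γ 0 0, -(γ 0 1 * c), by linear_combination hdet⟩

section System

variable {S : Submonoid Mat2} {Γ' Γ : Subgroup SL(2, ℤ)} {ι : Type}

/-- For an irredundant system the index of a coset is unique. -/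
lemma systemIndex_unique (rep : ι → Mat2)
    (irr : ∀ (i j : ι) (el : Γ), rep i = ((el : SL(2, ℤ)) : Mat2) * rep j → i = j)
    {A : Mat2} {j k : ι} {el el' : Γ} (h : A = ((el : SL(2, ℤ)) : Mat2) * rep j)
    (h' : A = ((el' : SL(2, ℤ)) : Mat2) * rep k) : j = k := by
  refine irr j k (el⁻¹ * el') ?_
  have h2 := congrArg (fun M : Mat2 => ((el⁻¹ : Γ) : SL(2, ℤ)).1 * M) (h.symm.trans h')
  simp only [← mul_assoc, Subgroup.coe_inv, ← Matrix.SpecialLinearGroup.coe_mul,
    inv_mul_cancel, Matrix.SpecialLinearGroup.coe_one, one_mul] at h2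
  simpa [← mul_assoc] using h2

/-- The index obtained by moving `γ` to the left. -/
def systemIndex (rep : ι → Mat2)
    (ex : ∀ (γ : Γ') (i : ι), ∃ j : ι, ∃ el : Γ,
      rep i * ((γ : SL(2, ℤ)) : Mat2) = ((el : SL(2, ℤ)) : Mat2) * rep j)
    (γ : Γ') (i : ι) : ι :=
  (ex γ i).choose

variable (rep : ι → Mat2)
  (irr : ∀ (i j : ι) (el : Γ), rep i = ((el : SL(2, ℤ)) : Mat2) * rep j → i = j)
  (ex : ∀ (γ : Γ') (i : ι), ∃ j : ι, ∃ el : Γ,
    rep i * ((γ : SL(2, ℤ)) : Mat2) = ((el : SL(2, ℤ)) : Mat2) * rep j)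

lemma systemIndex_spec (γ : Γ') (i : ι) : ∃ el : Γ,
    rep i * ((γ : SL(2, ℤ)) : Mat2) = ((el : SL(2, ℤ)) : Mat2) * rep (systemIndex rep ex γ i) :=
  (ex γ i).choose_spec

include irr in
lemma systemIndex_mul (a b : Γ') (i : ι) :
    systemIndex rep ex b (systemIndex rep ex a i) = systemIndex rep ex (a * b) i := by
  obtain ⟨e, he⟩ := systemIndex_spec rep ex a i
  obtain ⟨e', he'⟩ := systemIndex_spec rep ex b (systemIndex rep ex a i)
  obtain ⟨e'', he''⟩ := systemIndex_spec rep ex (a * b) i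
  refine systemIndex_unique rep irr (el := e * e') (el' := e'') ?_ he''
  simp only [Subgroup.coe_mul, Matrix.SpecialLinearGroup.coe_mul]
  rw [← mul_assoc, he, mul_assoc, he', ← mul_assoc]

include irr in
lemma systemIndex_one (i : ι) : systemIndex rep ex 1 i = i := by
  obtain ⟨e, he⟩ := systemIndex_spec rep ex 1 i
  exact (systemIndex_unique rep irr (el := 1) (el' := e) (by simp) he).symm

/-- A correspondence from an irredundant system of representatives. -/
def Corr.ofSystem (det_ne : ∀ i, (rep i).det ≠ 0) (adj_mem : ∀ i, (rep i).adjugate ∈ S) :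
    Corr S Γ' Γ ι where
  rep := rep
  det_ne := det_ne
  adj_mem := adj_mem
  perm γ :=
    { toFun := systemIndex rep ex γ
      invFun := systemIndex rep ex γ⁻¹
      left_inv := fun i => by
        rw [systemIndex_mul rep irr ex, mul_inv_cancel, systemIndex_one rep irr ex]
      right_inv := fun i => by
        rw [systemIndex_mul rep irr ex, inv_mul_cancel, systemIndex_one rep irr ex] }
  perm_mul a b := Equiv.ext fun i => (systemIndex_mul rep irr ex a b i).symm
  exists_fac γ i := systemIndex_spec rep ex γ i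

end System

/-- The index set of the Hecke correspondence at `p`. -/
abbrev HIdx (M p : ℕ) := {x : OnePoint (ZMod p) // x = ∞ → ¬ p ∣ M}

instance instFintypeHIdx (M p : ℕ) [Fact p.Prime] : Fintype (HIdx M p) := Fintype.ofFinite _

/-- The representatives of the Hecke correspondence at `p`. -/
def hRep (M p : ℕ) (x : HIdx M p) : Mat2 := repMat p x.1

section

variable {M p : ℕ} [Fact p.Prime]

omit [Fact (Nat.Prime p)] in
/-- The Hecke representatives at `p` have determinant `p`. -/
lemma det_hRep (x : HIdx M p) : (hRep M p x).det = p := det_repMat x.1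

/-- The Hecke representatives are upper triangular. -/
lemma hRep_ten (x : HIdx M p) : hRep M p x 1 0 = 0 := by
  obtain ⟨x, hx⟩ := x
  induction x using OnePoint.rec <;> simp [hRep]

/-- The upper left entry of a Hecke representative is prime to the level. -/
lemma isCoprime_hRep (x : HIdx M p) : IsCoprime (hRep M p x 0 0) (M : ℤ) := by
  obtain ⟨x, hx⟩ := x
  induction x using OnePoint.rec with
  | infty =>
    simp only [hRep, repMat_infty, Matrix.of_apply, Matrix.cons_val', Matrix.cons_val_zero,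
      Matrix.cons_val_fin_one]
    exact Nat.isCoprime_iff_coprime.mpr
      ((Nat.Prime.coprime_iff_not_dvd Fact.out).mpr (hx rfl))
  | coe j =>
    simp [hRep, isCoprime_one_left]

/-- Right division by a representative. -/
theorem exists_eq_mul_hRep (A : Mat2) (hdet : (p : ℤ) ∣ A.det) (hc : (M : ℤ) ∣ A 1 0)
    (ha : IsCoprime (A 0 0) (M : ℤ)) :
    ∃ A' : Mat2, ∃ x : HIdx M p, A = A' * hRep M p x ∧ (M : ℤ) ∣ A' 1 0 ∧
      IsCoprime (A' 0 0) (M : ℤ) := by
  obtain ⟨A', x, hA, hinf, hfin⟩ := exists_factor_repMat A hdet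
  rcases eq_or_ne x ∞ with rfl | hx
  · rw [hinf rfl 0] at ha
    have hcop : IsCoprime (p : ℤ) (M : ℤ) := ha.of_mul_left_left
    have hpM : ¬ p ∣ M := fun h => by
      have := hcop.isUnit_of_dvd' dvd_rfl (Int.natCast_dvd_natCast.mpr h)
      rw [Int.isUnit_iff_natAbs_eq, Int.natAbs_natCast] at this
      exact (Fact.out : p.Prime).one_lt.ne' this
    exact ⟨A', ⟨∞, fun _ => hpM⟩, hA, hcop.symm.dvd_of_dvd_mul_left (hinf rfl 1 ▸ hc),
      ha.of_mul_left_right⟩
  · exact ⟨A', ⟨x, fun h => absurd h hx⟩, hA, (hfin hx 1).symm ▸ hc, (hfin hx 0).symm ▸ ha⟩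

omit [Fact p.Prime] in
/-- A matrix of determinant one with `M ∣ c` lies in `Γ₀(M)`. -/
lemma exists_gamma0_of_det_one {A : Mat2} (hdet : A.det = 1) (hc : (M : ℤ) ∣ A 1 0) :
    ∃ γ : Gamma0 M, ((γ : SL(2, ℤ)) : Mat2) = A :=
  ⟨⟨⟨A, hdet⟩, Gamma0_mem.mpr ((ZMod.intCast_zmod_eq_zero_iff_dvd _ _).mpr hc)⟩, rfl⟩

/-- A matrix of determinant `p` with `M ∣ c` and `a` prime to `M` is `γ` in `Γ₀(M)` times one of
the Hecke representatives. -/
theorem exists_eq_coe_mul_hRep (A : Mat2) (hdet : A.det = p) (hc : (M : ℤ) ∣ A 1 0)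
    (ha : IsCoprime (A 0 0) (M : ℤ)) :
    ∃ γ : Gamma0 M, ∃ x : HIdx M p, A = ((γ : SL(2, ℤ)) : Mat2) * hRep M p x := by
  obtain ⟨A', x, hA, hc', -⟩ := exists_eq_mul_hRep (p := p) A (hdet ▸ dvd_rfl) hc ha
  have hd : A'.det = 1 := by
    have h := congrArg Matrix.det hA
    rw [Matrix.det_mul, det_hRep, hdet] at h
    exact (mul_eq_right₀ (by exact_mod_cast (Fact.out : p.Prime).ne_zero)).mp h.symm
  obtain ⟨γ, rfl⟩ := exists_gamma0_of_det_one hd hc'
  exact ⟨γ, x, hA⟩

/-- Representatives are separated by right divisibility. -/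
theorem hRep_eq_of_mul_eq {A B : Mat2} {x y : HIdx M p} (hA : IsCoprime A.det (p : ℤ))
    (h : A * hRep M p x = B * hRep M p y) : x = y := by
  have hp0 : (p : ℤ) ≠ 0 := by exact_mod_cast (Fact.out : p.Prime).ne_zero
  set C := hRep M p x * (hRep M p y).adjugate with hC
  have h1 : A * C = (p : ℤ) • B := by
    rw [hC, ← mul_assoc, h, mul_assoc, Matrix.mul_adjugate, det_hRep, mul_smul_comm, mul_one]
  have hdvd : ∀ i j, (p : ℤ) ∣ C i j := fun i j => by
    have h2 : A.det • C = (p : ℤ) • (A.adjugate * B) := by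
      rw [← mul_smul_comm (p : ℤ), ← h1, ← mul_assoc, Matrix.adjugate_mul, smul_mul_assoc, one_mul]
    have h3 := congrFun (congrFun h2 i) j
    simp only [Matrix.smul_apply, smul_eq_mul] at h3
    exact hA.symm.dvd_of_dvd_mul_left ⟨_, h3⟩
  choose D hD using hdvd
  have hCD : C = (p : ℤ) • Matrix.of D := by ext i j; simp [hD i j]
  have hdet : (Matrix.of D).det = 1 := by
    have h4 := congrArg Matrix.det hCD
    rw [hC, Matrix.det_mul, Matrix.det_adjugate, det_hRep, det_hRep, Matrix.det_smul] at h4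
    simp only [Fintype.card_fin, pow_one, Nat.add_one_sub_one] at h4
    have h5 : (p : ℤ) ^ 2 * (Matrix.of D).det = (p : ℤ) ^ 2 * 1 := by
      rw [mul_one, ← h4, pow_two]
    exact mul_left_cancel₀ (pow_ne_zero 2 hp0) h5
  refine Subtype.ext (repMat_unique (γ := (⟨Matrix.of D, hdet⟩ : SL(2, ℤ))) ?_)
  change hRep M p x = Matrix.of D * hRep M p y
  have h6 : C * hRep M p y = (p : ℤ) • hRep M p x := by
    rw [hC, mul_assoc, Matrix.adjugate_mul, det_hRep, mul_smul_comm, mul_one]
  rw [hCD, smul_mul_assoc] at h6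
  exact (smul_right_injective _ hp0 h6).symm

variable {N L : ℕ}

/-- The Hecke correspondence at `p` on `Γ₀(M)`. -/
def heckeCorr (hNM : N ∣ M) (hpL : p.Coprime L) :
    Corr (sigma0 N L) (Gamma0 M) (Gamma0 M) (HIdx M p) :=
  Corr.ofSystem (hRep M p)
    (fun _ _ el h => Subtype.ext (repMat_unique (γ := (el : SL(2, ℤ))) h))
    (fun γ x => by
      have hg := (ZMod.intCast_zmod_eq_zero_iff_dvd _ _).mp (Gamma0_mem.mp γ.2)
      obtain ⟨g, hgc⟩ := hg
      have hga : IsCoprime ((γ : SL(2, ℤ)) 0 0) (M : ℤ) := by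
        have h := (γ : SL(2, ℤ)).det_coe
        rw [Matrix.det_fin_two, hgc] at h
        exact ⟨(γ : SL(2, ℤ)) 1 1, -((γ : SL(2, ℤ)) 0 1 * g), by linear_combination h⟩
      obtain ⟨el, j, hj⟩ := exists_eq_coe_mul_hRep (p := p)
        (hRep M p x * ((γ : SL(2, ℤ)) : Mat2))
        (by rw [Matrix.det_mul, det_hRep, Matrix.SpecialLinearGroup.det_coe, mul_one])
        (by
          rw [Matrix.mul_apply, Fin.sum_univ_two, hRep_ten, zero_mul, zero_add, hgc]
          exact (dvd_mul_right _ _).mul_left _)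
        (by
          rw [Matrix.mul_apply, Fin.sum_univ_two, hgc, mul_left_comm]
          exact ((isCoprime_hRep x).mul_left hga).add_mul_left_left _)
      exact ⟨j, el, hj⟩)
    (fun x => by rw [det_hRep]; exact_mod_cast (Fact.out : p.Prime).ne_zero)
    (fun x => adjugate_mem_sigma0 (by rw [hRep_ten]; exact dvd_zero _)
      ((isCoprime_hRep x).of_isCoprime_of_dvd_right (Int.natCast_dvd_natCast.mpr hNM))
      (by rw [det_hRep]; exact Nat.isCoprime_iff_coprime.mpr hpL))

/-- The representatives of the Hecke correspondence are `hRep`. -/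
@[simp] lemma heckeCorr_rep (hNM : N ∣ M) (hpL : p.Coprime L) :
    (heckeCorr hNM hpL).rep = hRep M p := rfl

/-- The Hecke representatives lie in distinct cosets of `Γ₀(M)`. -/
theorem isIrredundant_heckeCorr (hNM : N ∣ M) (hpL : p.Coprime L) :
    (heckeCorr (p := p) hNM hpL).IsIrredundant :=
  fun _ _ el h => Subtype.ext (repMat_unique (γ := (el : SL(2, ℤ))) h)

/-- Representatives of determinant prime to `p` stay inequivalent after those of `heckeCorr`. -/
theorem isIrredundant_comp_heckeCorr {Γ : Subgroup SL(2, ℤ)} {ι : Type}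
    {D : Corr (sigma0 N L) (Gamma0 M) Γ ι} (hD : D.IsIrredundant)
    (hdet : ∀ i, IsCoprime (D.rep i).det (p : ℤ)) (hNM : N ∣ M) (hpL : p.Coprime L) :
    (D.comp (heckeCorr hNM hpL)).IsIrredundant := by
  rintro ⟨y, i⟩ ⟨y', i'⟩ el h
  simp only [Corr.comp, heckeCorr_rep] at h
  rw [← mul_assoc] at h
  obtain rfl : y = y' := hRep_eq_of_mul_eq (hdet i) h
  have h' := congrArg (· * (hRep M p y).adjugate) h
  simp only [mul_assoc, Matrix.mul_adjugate, det_hRep, mul_smul_comm, mul_one] at h'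
  rw [hD i i' el (smul_right_injective _ (by exact_mod_cast (Fact.out : p.Prime).ne_zero) h')]

variable {r : ℕ} [Fact r.Prime]

/-- The composite of the Hecke correspondences at two different primes is irredundant. -/
theorem isIrredundant_heckeCorr_comp (hpr : p ≠ r) (hNM : N ∣ M) (hpL : p.Coprime L)
    (hrL : r.Coprime L) :
    ((heckeCorr hNM hpL).comp (heckeCorr (p := r) hNM hrL)).IsIrredundant :=
  isIrredundant_comp_heckeCorr (isIrredundant_heckeCorr hNM hpL)
    (fun x => by
      rw [heckeCorr_rep, det_hRep]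
      exact Nat.isCoprime_iff_coprime.mpr ((Nat.coprime_primes Fact.out Fact.out).mpr hpr))
    hNM hrL

/-- The composites in both orders have related representatives. -/
theorem heckeCorr_comm_related (hpr : p ≠ r) (hNM : N ∣ M) (hpL : p.Coprime L)
    (hrL : r.Coprime L) :
    Nonempty (((heckeCorr hNM hpL).comp (heckeCorr (p := r) hNM hrL)).Related
      ((heckeCorr (p := r) hNM hrL).comp (heckeCorr hNM hpL))) := by
  classical
  set D := (heckeCorr hNM hpL).comp (heckeCorr (p := r) hNM hrL)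
  set D' := (heckeCorr (p := r) hNM hrL).comp (heckeCorr hNM hpL)
  have hex : ∀ q : HIdx M p × HIdx M r, ∃ u : HIdx M r × HIdx M p, ∃ el : Gamma0 M,
      D'.rep q = ((el : SL(2, ℤ)) : Mat2) * D.rep u := by
    rintro ⟨i, k⟩
    change ∃ u : HIdx M r × HIdx M p, ∃ el : Gamma0 M, hRep M r k * hRep M p i =
      ((el : SL(2, ℤ)) : Mat2) * (hRep M p u.2 * hRep M r u.1)
    obtain ⟨A', l, hA, hc', ha'⟩ := exists_eq_mul_hRep (p := r) (M := M)
      (hRep M r k * hRep M p i)
      (by rw [Matrix.det_mul, det_hRep]; exact dvd_mul_right _ _)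
      (by simp [Matrix.mul_apply, Fin.sum_univ_two, hRep_ten])
      (by
        rw [Matrix.mul_apply, Fin.sum_univ_two, hRep_ten, mul_zero, add_zero]
        exact (isCoprime_hRep k).mul_left (isCoprime_hRep i))
    have hd : A'.det = p := by
      have h := congrArg Matrix.det hA
      rw [Matrix.det_mul, Matrix.det_mul, det_hRep, det_hRep, det_hRep, mul_comm A'.det] at h
      exact (mul_left_cancel₀ (by exact_mod_cast (Fact.out : r.Prime).ne_zero) h).symm
    obtain ⟨el, j, rfl⟩ := exists_eq_coe_mul_hRep A' hd hc' ha'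
    exact ⟨(l, j), el, by rw [hA, mul_assoc]⟩
  exact D.exists_related (isIrredundant_heckeCorr_comp hpr hNM hpL hrL)
    (isIrredundant_heckeCorr_comp hpr.symm hNM hrL hpL) hex
    (by rw [Fintype.card_prod, Fintype.card_prod, mul_comm])

variable {R : Type*} [CommRing R] {X : Type*} [AddCommGroup X] [Module R X]

/-- The Hecke operators commute on cohomology. -/
theorem heckeCorr_op_comm (hNM : N ∣ M) (hpL : p.Coprime L) (hrL : r.Coprime L)
    (ρ : Representation R (sigma0 N L) X) (z : H1 (resRep (actsIn_gamma0 (L := L) hNM) ρ)) :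
    (heckeCorr hNM hpL).op (actsIn_gamma0 hNM) (actsIn_gamma0 hNM) ρ
        ((heckeCorr (p := r) hNM hrL).op (actsIn_gamma0 hNM) (actsIn_gamma0 hNM) ρ z) =
      (heckeCorr (p := r) hNM hrL).op (actsIn_gamma0 hNM) (actsIn_gamma0 hNM) ρ
        ((heckeCorr hNM hpL).op (actsIn_gamma0 hNM) (actsIn_gamma0 hNM) ρ z) := by
  rcases eq_or_ne p r with rfl | hpr
  · rfl
  · obtain ⟨e⟩ := heckeCorr_comm_related hpr hNM hpL hrL
    rw [← Corr.op_comp, ← Corr.op_comp, e.op_eq]

end

end FermatAgent.HM
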