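import Fermat.Agent.HM.H1.Diamond
import Fermat.Agent.HM.H1.Parabolic
import Mathlib.Algebra.MonoidAlgebra.Basic

/-!
# Shapiro's lemma for diamond coefficients

With `θ` the tautological character into a group algebra `O[Δ]`, the cohomology of `Γ₀(M)` in
`O[Δ]` is the module of homomorphisms on the kernel `Γ_H`; Hecke operators become transfers.
-/

set_option autoImplicit false

noncomputable section

open scoped MatrixGroups
open CongruenceSubgroup

namespace FermatAgent.HM

variable (O : Type*) [CommRing O] {Δ : Type*} [CommGroup Δ] {N L M : ℕ}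
variable (δ : (ZMod N)ˣ →* Δ) (hNM : N ∣ M)

/-- The tautological character. -/
def diamondChar : (ZMod N)ˣ →* MonoidAlgebra O Δ := (MonoidAlgebra.of O Δ).comp δ

/-- The diamond class of an element of the monoid. -/
def diamondClass : sigma0 N L →* Δ := δ.comp lowerRightUnit

/-- The diamond class of an element of `Γ₀(M)`. -/
def gammaClass : Gamma0 M →* Δ := (diamondClass (L := 1) δ).comp (actsIn_gamma0 hNM).incl

/-- The diamond class on `Γ₀(M)` is that of the matrix in `Σ₀`. -/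
lemma gammaClass_eq (γ : Gamma0 M) :
    gammaClass δ hNM γ = diamondClass δ ((actsIn_gamma0 (L := L) hNM).incl γ) := rfl

/-- The kernel of the diamond class, as a subgroup of `SL(2, ℤ)`. -/
def gammaH : Subgroup SL(2, ℤ) := (gammaClass δ hNM).ker.map (Gamma0 M).subtype

/-- `Γ_H` consists of the elements of `Γ₀(M)` of trivial diamond class. -/
lemma mem_gammaH_iff {g : SL(2, ℤ)} :
    g ∈ gammaH δ hNM ↔ ∃ h : g ∈ Gamma0 M, gammaClass δ hNM ⟨g, h⟩ = 1 := by
  simp [gammaH, Subgroup.mem_map, MonoidHom.mem_ker]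

/-- `Γ_H ≤ Γ₀(M)`. -/
lemma gammaH_le : gammaH δ hNM ≤ Gamma0 M := fun _ hg => ((mem_gammaH_iff δ hNM).mp hg).choose

/-- The inclusion of `Γ_H` into `Γ₀(M)`. -/
abbrev gammaHIncl : gammaH δ hNM →* Gamma0 M := Subgroup.inclusion (gammaH_le δ hNM)

/-- Elements of `Γ_H` have trivial diamond class. -/
lemma gammaClass_incl (γ : gammaH δ hNM) : gammaClass δ hNM (gammaHIncl δ hNM γ) = 1 :=
  ((mem_gammaH_iff δ hNM).mp γ.2).choose_spec

/-- An element of `Γ_H` from an element of `Γ₀(M)` of trivial class. -/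
def toGammaH (γ : Gamma0 M) (h : gammaClass δ hNM γ = 1) : gammaH δ hNM :=
  ⟨γ, (mem_gammaH_iff δ hNM).mpr ⟨γ.2, h⟩⟩

/-- The diamond class is onto `Δ` when `δ` is. -/
theorem gammaClass_surjective [NeZero M] (hδ : Function.Surjective δ) :
    Function.Surjective (gammaClass δ hNM) := by
  intro u
  obtain ⟨v, rfl⟩ := hδ u
  obtain ⟨w, rfl⟩ := ZMod.unitsMap_surjective hNM v
  obtain ⟨d, hd⟩ := ZMod.intCast_surjective (w : ZMod M)
  have hu : IsUnit ((d : ℤ) : ZMod M) := hd ▸ w.isUnit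
  obtain ⟨a, b, hab⟩ := ((ZMod.coe_int_isUnit_iff_isCoprime d M).mp hu).symm
  let g : SL(2, ℤ) := ⟨!![a, -b; (M : ℤ), d], by
    rw [Matrix.det_fin_two_of]; linear_combination hab⟩
  refine ⟨⟨g, Gamma0_mem.mpr (by simp [g])⟩, ?_⟩
  refine congrArg δ (Units.ext ?_)
  rw [coe_lowerRightUnit, ZMod.unitsMap_def, Units.coe_map, MonoidHom.coe_coe, ← hd, map_intCast]
  rfl

/-- The representation on `O[Δ]`. -/
abbrev diamondRep : Representation (MonoidAlgebra O Δ) (sigma0 N L) (MonoidAlgebra O Δ) :=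
  thetaRep (diamondChar O δ) (MonoidAlgebra O Δ)

lemma coeff_diamondRep (s : sigma0 N L) (x : MonoidAlgebra O Δ) (u : Δ) :
    (diamondRep O δ s x).coeff u = x.coeff ((diamondClass δ s)⁻¹ * u) := by
  rw [thetaRep_apply, smul_eq_mul, diamondChar, MonoidHom.comp_apply, MonoidAlgebra.of_apply,
    MonoidAlgebra.coeff_single_mul_apply, one_mul]
  rfl

variable {O δ hNM}

/-- Cocycles with diamond coefficients. -/
abbrev DiamondZ1 (O : Type*) [CommRing O] (δ : (ZMod N)ˣ →* Δ) (hNM : N ∣ M) (L : ℕ) :=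
  Z1 (resRep (actsIn_gamma0 (L := L) hNM) (diamondRep O δ))

lemma coeff_cocycle_mul (c : DiamondZ1 O δ hNM L) (g h : Gamma0 M) (u : Δ) :
    (c.1 (g * h)).coeff u = (c.1 g).coeff u + (c.1 h).coeff ((gammaClass δ hNM g)⁻¹ * u) := by
  rw [Z1.map_mul, MonoidAlgebra.coeff_add, Finsupp.add_apply, resRep_apply, coeff_diamondRep]
  rfl

variable (O δ hNM)

/-- The coefficient at `1`, restricted to `Γ_H`. -/
def shapiroHom : DiamondZ1 O δ hNM L →+ (Additive (gammaH δ hNM) →+ O) where
  toFun c :=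
    { toFun := fun γ => (c.1 (gammaHIncl δ hNM (Additive.toMul γ))).coeff 1
      map_zero' := by simp [Z1.map_one]
      map_add' := fun γ γ' => by
        simp [toMul_add, map_mul, coeff_cocycle_mul, gammaClass_incl] }
  map_zero' := by ext; simp
  map_add' c c' := by ext; simp

variable {O δ hNM}

/-- The Shapiro homomorphism is the coefficient at `1` of the cocycle on `Γ_H`. -/
lemma shapiroHom_apply (c : DiamondZ1 O δ hNM L) (γ : gammaH δ hNM) :
    shapiroHom O δ hNM c (Additive.ofMul γ) = (c.1 (gammaHIncl δ hNM γ)).coeff 1 := rfl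

/-- Conjugation of `Γ_H` by an element of `Γ₀(M)`. -/
def conjGammaH (ε : Gamma0 M) : gammaH δ hNM →* gammaH δ hNM where
  toFun γ := toGammaH δ hNM (ε⁻¹ * gammaHIncl δ hNM γ * ε) (by simp [gammaClass_incl])
  map_one' := Subtype.ext (by simp [toGammaH])
  map_mul' γ γ' := Subtype.ext (by simp [toGammaH]; group)

/-- The other coefficients of a cocycle on `Γ_H` are the conjugates of its Shapiro homomorphism. -/
lemma coeff_cocycle_conj (c : DiamondZ1 O δ hNM L) (γ : gammaH δ hNM) (ε : Gamma0 M) :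
    (c.1 (gammaHIncl δ hNM γ)).coeff (gammaClass δ hNM ε) =
      shapiroHom O δ hNM c (Additive.ofMul (conjGammaH ε γ)) := by
  rw [shapiroHom_apply]
  change _ = (c.1 (ε⁻¹ * gammaHIncl δ hNM γ * ε)).coeff 1
  have h0 := coeff_cocycle_mul c ε⁻¹ ε 1
  rw [inv_mul_cancel, Z1.map_one] at h0
  simp only [MonoidAlgebra.coeff_zero, Finsupp.zero_apply, map_inv, inv_inv, mul_one] at h0
  rw [coeff_cocycle_mul, coeff_cocycle_mul]
  simp only [map_mul, map_inv, gammaClass_incl, mul_one, inv_inv]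
  linear_combination h0

variable [Finite Δ] [NeZero M]

theorem exists_d0_of_shapiroHom_eq_zero (hδ : Function.Surjective δ) (c : DiamondZ1 O δ hNM L)
    (h : shapiroHom O δ hNM c = 0) : ∃ x, d0 _ x = c := by
  classical
  choose r hr using gammaClass_surjective δ hNM hδ
  have hker : ∀ γ : Gamma0 M, gammaClass δ hNM γ = 1 → ∀ u, (c.1 γ).coeff u = 0 := by
    intro γ hγ u
    rw [← hr u]
    exact (coeff_cocycle_conj c (toGammaH δ hNM γ hγ) (r u)).trans (DFunLike.congr_fun h _)
  refine ⟨MonoidAlgebra.ofCoeff (Finsupp.equivFunOnFinite.symm fun v => -(c.1 (r v)).coeff v),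
    Subtype.ext <| funext fun γ => MonoidAlgebra.coeff_injective (Finsupp.ext fun u => ?_)⟩
  rw [d0_apply, MonoidAlgebra.coeff_sub, Finsupp.sub_apply, resRep_apply, coeff_diamondRep,
    ← gammaClass_eq δ hNM]
  simp only [Finsupp.coe_equivFunOnFinite_symm]
  set g := gammaClass δ hNM γ
  set η := γ * r (g⁻¹ * u)
  have hη : gammaClass δ hNM ((r u)⁻¹ * η) = 1 := by simp [η, hr, g]
  have h1 := coeff_cocycle_mul c γ (r (g⁻¹ * u)) u
  have h2 := coeff_cocycle_mul c (r u) ((r u)⁻¹ * η) u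
  rw [mul_inv_cancel_left, hker _ hη, add_zero] at h2
  linear_combination h1 - h2

theorem exists_shapiroHom_eq (hδ : Function.Surjective δ)
    (φ : Additive (gammaH δ hNM) →+ O) : ∃ c : DiamondZ1 O δ hNM L, shapiroHom O δ hNM c = φ := by
  classical
  choose r₀ hr₀ using gammaClass_surjective δ hNM hδ
  obtain ⟨r, hr, hr1⟩ : ∃ r : Δ → Gamma0 M, (∀ u, gammaClass δ hNM (r u) = u) ∧ r 1 = 1 :=
    ⟨fun u => if u = 1 then 1 else r₀ u, fun u => by by_cases h : u = 1 <;> simp [h, hr₀], by simp⟩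
  have hmem : ∀ (γ : Gamma0 M) (u : Δ),
      gammaClass δ hNM ((r u)⁻¹ * γ * r ((gammaClass δ hNM γ)⁻¹ * u)) = 1 := fun γ u => by
    simp [hr]
  let f : Gamma0 M → MonoidAlgebra O Δ := fun γ => MonoidAlgebra.ofCoeff
    (Finsupp.equivFunOnFinite.symm fun u =>
      φ (Additive.ofMul (toGammaH δ hNM _ (hmem γ u))))
  have hf : ∀ γ u, (f γ).coeff u = φ (Additive.ofMul (toGammaH δ hNM _ (hmem γ u))) :=
    fun γ u => by simp [f]
  refine ⟨⟨f, fun g h => MonoidAlgebra.coeff_injective (Finsupp.ext fun u => ?_)⟩, ?_⟩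
  · rw [MonoidAlgebra.coeff_add, Finsupp.add_apply, resRep_apply, coeff_diamondRep,
      ← gammaClass_eq δ hNM, hf, hf, hf, ← map_add, ← ofMul_mul]
    congr 2
    apply Subtype.ext
    simp only [toGammaH, Subgroup.coe_mul, Subgroup.coe_inv, map_mul, mul_inv_rev, mul_assoc]
    group
  · refine AddMonoidHom.ext fun γ => ?_
    obtain ⟨γ, rfl⟩ := Additive.ofMul.surjective γ
    rw [shapiroHom_apply]
    change (f _).coeff 1 = _
    rw [hf]
    congr 2
    apply Subtype.ext
    simp [toGammaH, gammaClass_incl, hr1]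

variable (O δ hNM) in
/-- Shapiro's isomorphism. -/
def shapiro (hδ : Function.Surjective δ) :
    H1 (resRep (actsIn_gamma0 (L := L) hNM) (diamondRep O δ)) ≃+
      (Additive (gammaH δ hNM) →+ O) := by
  refine AddEquiv.ofBijective (QuotientAddGroup.lift
    (LinearMap.range (d0 (resRep (actsIn_gamma0 (L := L) hNM) (diamondRep O δ)))).toAddSubgroup
    (shapiroHom O δ hNM) ?_) ⟨?_, ?_⟩
  · rintro c ⟨x, rfl⟩
    refine AddMonoidHom.ext fun γ => ?_
    obtain ⟨γ, rfl⟩ := Additive.ofMul.surjective γ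
    rw [shapiroHom_apply, d0_apply, MonoidAlgebra.coeff_sub, Finsupp.sub_apply, resRep_apply,
      coeff_diamondRep, ← gammaClass_eq δ hNM, gammaClass_incl, inv_one, one_mul, sub_self]
    rfl
  · refine (injective_iff_map_eq_zero _).mpr fun z hz => ?_
    induction z using QuotientAddGroup.induction_on with
    | H c =>
      obtain ⟨x, hx⟩ := exists_d0_of_shapiroHom_eq_zero hδ c hz
      exact (QuotientAddGroup.eq_zero_iff c).mpr ⟨x, hx⟩
  · intro φ
    obtain ⟨c, hc⟩ := exists_shapiroHom_eq (L := L) hδ φ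
    exact ⟨QuotientAddGroup.mk c, hc⟩

@[simp] lemma shapiro_mk (hδ : Function.Surjective δ) (c : DiamondZ1 O δ hNM L) :
    shapiro O δ hNM hδ (H1.mk (resRep (actsIn_gamma0 (L := L) hNM) (diamondRep O δ)) c) =
      shapiroHom O δ hNM c := rfl

omit [Finite Δ] [NeZero M] in
/-- The coefficient at `1` with respect to scalars from `O`. -/
lemma shapiroHom_smul (a : O) (c : DiamondZ1 O δ hNM L) (γ : gammaH δ hNM) :
    shapiroHom O δ hNM ((algebraMap O (MonoidAlgebra O Δ) a) • c) (Additive.ofMul γ) =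
      a * shapiroHom O δ hNM c (Additive.ofMul γ) := by
  rw [shapiroHom_apply, shapiroHom_apply, Submodule.coe_smul, Pi.smul_apply, smul_eq_mul,
    MonoidAlgebra.coe_algebraMap, Function.comp_apply, MonoidAlgebra.coeff_single_one_mul]
  rfl

omit [Finite Δ] [NeZero M] in
/-- A correspondence on `Γ₀(M)` becomes, on `Γ_H`, the transfer along the representatives
shifted so that the adjugates have trivial class. -/
theorem exists_corr_gammaH {ι : Type} [Fintype ι]
    (D : Corr (sigma0 N L) (Gamma0 M) (Gamma0 M) ι) (r : ι → Gamma0 M)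
    (hr : ∀ i, gammaClass δ hNM (r i) = (diamondClass δ (D.adj i))⁻¹) :
    ∃ E : Corr (sigma0 N L) (gammaH δ hNM) (gammaH δ hNM) ι,
      (∀ i, E.rep i = (((r i)⁻¹ : Gamma0 M) : SL(2, ℤ)).1 * D.rep i) ∧
      (∀ i, diamondClass δ (E.adj i) = 1) ∧
      ∀ c : DiamondZ1 O δ hNM L,
        shapiroHom O δ hNM (D.opZ (actsIn_gamma0 hNM) (actsIn_gamma0 hNM) (diamondRep O δ) c) =
          E.homOp (shapiroHom O δ hNM c) := by
  have hcls : ∀ (γ : gammaH δ hNM) (i : ι),
      gammaClass δ hNM ((r i)⁻¹ * D.fac (gammaHIncl δ hNM γ) i *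
        r (D.perm (gammaHIncl δ hNM γ) i)) = 1 := fun γ i => by
    have h := congrArg (diamondClass δ)
      (D.adj_mul_fac (actsIn_gamma0 hNM) (actsIn_gamma0 hNM) (gammaHIncl δ hNM γ) i)
    rw [map_mul, map_mul, ← gammaClass_eq δ hNM, ← gammaClass_eq δ hNM, gammaClass_incl,
      one_mul] at h
    simp only [map_mul, map_inv, hr, inv_inv]
    rw [h]
    simp
  have hrr : ∀ j : ι, ((r j : SL(2, ℤ)) : Mat2) * (((r j : SL(2, ℤ))⁻¹ : SL(2, ℤ)) : Mat2) = 1 :=
    fun j => by
      rw [← Matrix.SpecialLinearGroup.coe_mul, mul_inv_cancel, Matrix.SpecialLinearGroup.coe_one]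
  let E : Corr (sigma0 N L) (gammaH δ hNM) (gammaH δ hNM) ι :=
    { rep := fun i => (((r i)⁻¹ : Gamma0 M) : SL(2, ℤ)).1 * D.rep i
      det_ne := fun i => by
        rw [Matrix.det_mul, Matrix.SpecialLinearGroup.det_coe, one_mul]; exact D.det_ne i
      adj_mem := fun i => by
        rw [Matrix.adjugate_mul_distrib]
        refine mul_mem (D.adj_mem i) ?_
        have := actsIn_gamma0 (L := L) hNM _ (r i).2
        simpa [← Matrix.SpecialLinearGroup.coe_inv] using this
      perm := fun γ => D.perm (gammaHIncl δ hNM γ)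
      perm_mul := fun a b => by rw [map_mul, D.perm_mul]
      exists_fac := fun γ i => ⟨toGammaH δ hNM _ (hcls γ i), by
        have := D.fac_spec (gammaHIncl δ hNM γ) i
        simp only [Subgroup.coe_inclusion] at this
        rw [mul_assoc, this]
        simp only [toGammaH, Subgroup.coe_mul, Subgroup.coe_inv,
          Matrix.SpecialLinearGroup.coe_mul, ← mul_assoc]
        rw [mul_assoc _ ((r (D.perm (gammaHIncl δ hNM γ) i) : SL(2, ℤ)) : Mat2), hrr,
          mul_one]⟩ }
  have hE : ∀ i, diamondClass δ (E.adj i) = 1 := fun i => by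
    have h : E.adj i = D.adj i * (actsIn_gamma0 hNM).incl (r i) := Subtype.ext (by
      simp [E, Corr.adj, Matrix.adjugate_mul_distrib, Matrix.SpecialLinearGroup.coe_inv,
        Matrix.adjugate_adjugate])
    rw [h, map_mul, ← gammaClass_eq δ hNM, hr, mul_inv_cancel]
  refine ⟨E, fun i => rfl, hE, fun c => ?_⟩

  refine AddMonoidHom.ext fun γ => ?_
  obtain ⟨γ, rfl⟩ := Additive.ofMul.surjective γ
  have hfac : ∀ i, E.fac γ i = toGammaH δ hNM _ (hcls γ i) := fun i => E.fac_unique (by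
    obtain ⟨el, hel⟩ := E.exists_fac γ i
    change _ = _ * ((((r (D.perm (gammaHIncl δ hNM γ) i))⁻¹ : Gamma0 M) : SL(2, ℤ)).1 *
      D.rep (D.perm (gammaHIncl δ hNM γ) i))
    have := D.fac_spec (gammaHIncl δ hNM γ) i
    simp only [Subgroup.coe_inclusion] at this
    simp only [E, toGammaH, Subgroup.coe_mul, Subgroup.coe_inv,
      Matrix.SpecialLinearGroup.coe_mul]
    rw [mul_assoc, this, mul_assoc, mul_assoc, ← mul_assoc ((r (D.perm (gammaHIncl δ hNM γ) i) :
      SL(2, ℤ)) : Mat2), hrr, one_mul])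
  rw [shapiroHom_apply, Corr.homOp_apply, Corr.opZ_apply, MonoidAlgebra.coeff_sum,
    Finsupp.finsetSum_apply]
  have key : ∀ j : ι, (c.1 (r j)).coeff (gammaClass δ hNM (r j)) = -(c.1 (r j)⁻¹).coeff 1 := by
    intro j
    have h := coeff_cocycle_mul c (r j)⁻¹ (r j) 1
    rw [inv_mul_cancel, Z1.map_one] at h
    simp only [MonoidAlgebra.coeff_zero, Finsupp.zero_apply, map_inv, inv_inv, mul_one] at h
    linear_combination -h
  have hterm : ∀ i, shapiroHom O δ hNM c (Additive.ofMul (E.fac γ i)) =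
      (diamondRep O δ (D.adj i) (c.1 (D.fac (gammaHIncl δ hNM γ) i))).coeff 1 +
      ((c.1 (r (D.perm (gammaHIncl δ hNM γ) i))).coeff
          (gammaClass δ hNM (r (D.perm (gammaHIncl δ hNM γ) i))) -
        (c.1 (r i)).coeff (gammaClass δ hNM (r i))) := by
    intro i
    rw [hfac, shapiroHom_apply, coeff_diamondRep, mul_one, ← hr, key i]
    change (c.1 ((r i)⁻¹ * D.fac (gammaHIncl δ hNM γ) i *
      r (D.perm (gammaHIncl δ hNM γ) i))).coeff 1 = _
    have hc := hcls γ i
    rw [map_mul] at hc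
    rw [coeff_cocycle_mul, coeff_cocycle_mul, eq_inv_of_mul_eq_one_left hc]
    simp only [map_inv, inv_inv, mul_one]
    ring
  rw [Finset.sum_congr rfl fun i _ => hterm i, Finset.sum_add_distrib, Finset.sum_sub_distrib,
    Equiv.sum_comp (D.perm (gammaHIncl δ hNM γ))
      (fun j => (c.1 (r j)).coeff (gammaClass δ hNM (r j))), sub_self, add_zero]

end FermatAgent.HM
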